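/-
GATE-E / RISK-5 (B2) (helper44; slice of helper6's `DegR.lean`, design helper86): **the two
degeneracy maps at an auxiliary prime `r ∤ N` between `Hom(Γ_H(θ), A)` (level `N`) and
`Hom(Γ_H(θ ∘ mod N), A)` (level `N r`) whose composite is `T_r`**, with their compatibility with
one step of the Taylor–Wiles tower and with the diamond operators.

With helper83's operators of `GB/B7/UqSqSys` (`q := r`):

* `a := resq θ A`      : restriction `Hom(Γ_H(θ), A) → Hom(Γ_H(thQ θ r), A)`;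
* `b := coresDq θ hrN A` : the `δ`-twisted transfer `Hom(Γ_H(thQ θ r), A) → Hom(Γ_H(θ), A)`;

* `coresDq_resq`   : **`b ∘ a = T_r`** (`TH θ A hrN`) — the `Γ_H` twin of
  `GM/B/Degeneracy.coresD_res`; the connecting elements `γ'_y σ_y⁻¹` lie in `Γ_H(θ)` because both
  `γ'_y α_y` and `σ_y α_y` have `d ≡ r mod N`;
* `coresHH_resq`   : `cores_{θ' → πθ'} ∘ a = a₀ ∘ cores_{θ → πθ}` (helper15's abstract
  `KKSys2.coresKK_kerSys₂_op` at `S := resSys N r`);
* `coresHH_coresDq'` : `cores_{θ → πθ} ∘ b = b₀ ∘ cores_{θ' → πθ'}` (= helper15's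
  `KKSys2.coresHH_coresDq`);
* `diaH_coresDq`   : `⟨d₀⟩ ∘ b = b ∘ ⟨d₀'⟩` (= helper83's `UqEquiv.coresDq_diaH`);
* `resqL`, `coresDqL` : the `O`-linear packagings, and **`degR_core`** : the existential statement
  of helper86's design (board 7652 §2 (B2)) verbatim.
-/
import Mathlib
import Fermat.Agent.GB.B7.UqEquiv
import Fermat.Agent.GE8.RaiseP.P2.KKSys2

set_option autoImplicit false
set_option linter.unusedSectionVars false

open scoped MatrixGroups
open CongruenceSubgroup Matrix Matrix.SpecialLinearGroup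
open P2MW.S_ModularForm_heckeT_slash_eq_self_of_mem_Gamma0.ModularForm.HeckeSlashInvariance
open P2MW.S_ModularForm_heckeT_slash_eq_self_of_mem_Gamma0.ModularForm
open Fermat.Agent.S16_helper49 Fermat.Agent.GM.B Fermat.Agent.GM.B5 Fermat.Agent.GM.EisClass
open Fermat.Agent.GB.B3 Fermat.Agent.GB.B3.EisGamma0 Fermat.Agent.GB.B3.GamH
open Fermat.Agent.GB.B4.Twist.KerSys2 Fermat.Agent.GB.B7.UqSq Fermat.Agent.GB.B7.UqEquiv
open Fermat.Agent.GE8.RaiseP.P2.KKSys2
open scoped OnePoint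

namespace Fermat.Agent.GE8.P3B.DegRCore

variable {N q : ℕ} [Fact q.Prime] {Δ : Type} [CommGroup Δ] (θ : (ZMod N)ˣ →* Δ)

/-! ### `cores_δ ∘ res = T_q` at level `Γ_H` -/

section Core

variable (hqN : ¬ q ∣ N) (b₀ d₀ : ℤ) (hbd : (q : ℤ) * d₀ - N * b₀ = 1)

/-- `d(γ'_y) = d(σ_y)` in `(ZMod N)ˣ` -/
theorem dUnits_gD_eq_twG (y : OnePoint (ZMod q)) :
    dUnits N (gD N q b₀ d₀ hbd y) = dUnits N (twG hqN y) :=
  mul_right_cancel
    ((dUnits_gD_mul_deltaU b₀ d₀ hbd hqN y).trans (dUnits_twG_mul_deltaU hqN y).symm)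

/-- the connecting element `γ'_y σ_y⁻¹` lies in `Γ_H(θ)` -/
theorem chi_gD_mul_twG_inv (y : OnePoint (ZMod q)) :
    chi θ (gD N q b₀ d₀ hbd y * (twG hqN y)⁻¹) = 1 := by
  rw [chi_apply, map_mul, map_inv, dUnits_gD_eq_twG hqN b₀ d₀ hbd y, mul_inv_cancel, map_one]

/-- **`cores_δ ∘ res = T_q`** on `Hom(Γ_H(θ), A)`, for any Bézout pair -/
theorem coresDH_resH {A : Type*} [AddCommGroup A] (ψ : Additive (GammaH θ) →+ A) :
    (coresDHSys θ hqN b₀ d₀ hbd).op A ((resHSys (q := q) θ).op A ψ) = TH θ A hqN ψ := by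
  rw [← CosetSys.op_comp]
  show _ = (heckeSysH θ hqN).op A ψ
  refine CosetSys.op_eq_of_equiv (heckeSysH θ hqN)
    ((resHSys (q := q) θ).comp (coresDHSys θ hqN b₀ d₀ hbd)) embR_injective
    (Equiv.punitProd _).symm 1 (fun x => by rw [one_mul, mul_one])
    (fun y => kerMk (chi θ) (gD N q b₀ d₀ hbd y * (twG hqN y)⁻¹)
      (chi_gD_mul_twG_inv θ hqN b₀ d₀ hbd y)) ?_ ?_ ψ
  · intro y
    show (1 : GL (Fin 2) ℝ) * (1 * embR ((gD N q b₀ d₀ hbd y : Gamma0 N) : SL(2, ℤ))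
        * (heckeSys hqN).a y)
      = 1 * embR (((gD N q b₀ d₀ hbd y * (twG hqN y)⁻¹ : Gamma0 N)) : SL(2, ℤ))
        * (1 * embR ((twG hqN y : Gamma0 N) : SL(2, ℤ)) * (heckeSys hqN).a y)
    simp only [Subgroup.coe_mul, Subgroup.coe_inv, map_mul, map_inv]
    group
  · intro g y
    rfl

end Core

variable (hqN : ¬ q ∣ N) {A : Type*} [AddCommGroup A]

/-- **(i) `coresDq ∘ resq = T_q`** -/
theorem coresDq_resq (ψ : Additive (GammaH θ) →+ A) :
    coresDq θ hqN A (resq (q := q) θ A ψ) = TH θ A hqN ψ :=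
  coresDH_resH θ hqN (bez hqN).1 (bez hqN).2 (bez_spec hqN) ψ

/-! ### one step of the tower -/

section Tower

variable {Δ'' : Type} [CommGroup Δ''] (π : Δ →* Δ'') [Fintype π.ker]
  (rep : π.ker → Gamma0 N) (hrep : ∀ δ : π.ker, chi θ (rep δ) = (δ : Δ))
  (repq : π.ker → Gamma0 (N * q)) (hrepq : ∀ δ : π.ker, chi (thQ θ q) (repq δ) = (δ : Δ))

/-- **(ii) `cores_{θ' → πθ'} ∘ res = res ∘ cores_{θ → πθ}`** -/
theorem coresHH_resq (ψ : Additive (GammaH θ) →+ A) :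
    coresHH (thQ θ q) π repq hrepq A (resq (q := q) θ A ψ)
      = resq (q := q) (π.comp θ) A (coresHH θ π rep hrep A ψ) :=
  coresKK_kerSys₂_op (chi θ) (chi (thQ θ q)) π rep hrep repq hrepq embR_injective
    (resSys N q) (compat_resSys θ) ψ

/-- **(iii) `cores_{θ → πθ} ∘ cores_δ = cores_δ ∘ cores_{θ' → πθ'}`** (helper15) -/
theorem coresHH_coresDq' (ψ : Additive (GammaH (thQ θ q)) →+ A) :
    coresHH θ π rep hrep A (coresDq θ hqN A ψ)
      = coresDq (π.comp θ) hqN A (coresHH (thQ θ q) π repq hrepq A ψ) :=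
  coresHH_coresDq θ π hqN rep hrep repq hrepq ψ

end Tower

/-- **(iv) `⟨d₀⟩ ∘ cores_δ = cores_δ ∘ ⟨d₀'⟩`** (helper83) -/
theorem diaH_coresDq (d0 : Gamma0 N) (d0' : Gamma0 (N * q))
    (hd : chi (thQ θ q) d0' = chi θ d0) (ψ : Additive (GammaH (thQ θ q)) →+ A) :
    diaH θ A d0 (coresDq θ hqN A ψ) = coresDq θ hqN A (diaH (thQ θ q) A d0' ψ) :=
  (coresDq_diaH θ hqN d0' d0 hd ψ).symm

/-! ### `O`-linear packagings -/

section Linear

variable {O : Type} [CommRing O]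

/-- coset operators are homogeneous -/
theorem op_smul_deg {H G : Type*} [Group H] [Group G] {emb : H →* G} {Γ₁ Γ₂ : Subgroup H}
    (S : CosetSys emb Γ₁ Γ₂) (c : O) (φ : Additive Γ₁ →+ O) :
    S.op O (c • φ) = c • S.op O φ :=
  CosetSys.op_comp_hom S (DistribSMul.toAddMonoidHom O c) φ

/-- restriction, `O`-linear -/
noncomputable def resqL : (Additive (GammaH θ) →+ O) →ₗ[O] (Additive (GammaH (thQ θ q)) →+ O) where
  toFun := resq (q := q) θ O
  map_add' := map_add _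
  map_smul' c ψ := op_smul_deg _ c ψ

/-- the `δ`-twisted transfer, `O`-linear -/
noncomputable def coresDqL :
    (Additive (GammaH (thQ θ q)) →+ O) →ₗ[O] (Additive (GammaH θ) →+ O) where
  toFun := coresDq θ hqN O
  map_add' := map_add _
  map_smul' c ψ := op_smul_deg _ c ψ

@[simp] theorem resqL_apply (ψ : Additive (GammaH θ) →+ O) :
    resqL (q := q) θ ψ = resq (q := q) θ O ψ := rfl

@[simp] theorem coresDqL_apply (ψ : Additive (GammaH (thQ θ q)) →+ O) :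
    coresDqL θ hqN ψ = coresDq θ hqN O ψ := rfl

/-- **RISK-5 (B2), the statement of helper86's design**: `a` = restriction, `b` = the `T_q`-transfer,
at two consecutive stages `θ`, `π ∘ θ` of the tower. -/
theorem degR_core {Δ'' : Type} [CommGroup Δ''] (π : Δ →* Δ'') [Fintype π.ker]
    (rep : π.ker → Gamma0 N) (hrep : ∀ δ : π.ker, chi θ (rep δ) = (δ : Δ))
    (repq : π.ker → Gamma0 (N * q)) (hrepq : ∀ δ : π.ker, chi (thQ θ q) (repq δ) = (δ : Δ))
    (d0 : Gamma0 N) (d0' : Gamma0 (N * q)) (hd : chi (thQ θ q) d0' = chi θ d0) :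
    ∃ (a : (Additive (GammaH θ) →+ O) →ₗ[O] (Additive (GammaH (thQ θ q)) →+ O))
      (b : (Additive (GammaH (thQ θ q)) →+ O) →ₗ[O] (Additive (GammaH θ) →+ O))
      (a0 : (Additive (GammaH (π.comp θ)) →+ O) →ₗ[O]
        (Additive (GammaH (thQ (π.comp θ) q)) →+ O))
      (b0 : (Additive (GammaH (thQ (π.comp θ) q)) →+ O) →ₗ[O]
        (Additive (GammaH (π.comp θ)) →+ O)),
      (∀ x, b (a x) = TH θ O hqN x) ∧ (∀ y, b0 (a0 y) = TH (π.comp θ) O hqN y) ∧
      (∀ x, coresHH (thQ θ q) π repq hrepq O (a x) = a0 (coresHH θ π rep hrep O x)) ∧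
      (∀ x', coresHH θ π rep hrep O (b x') = b0 (coresHH (thQ θ q) π repq hrepq O x')) ∧
      (∀ x', diaH θ O d0 (b x') = b (diaH (thQ θ q) O d0' x')) :=
  ⟨resqL (q := q) θ, coresDqL θ hqN, resqL (q := q) (π.comp θ), coresDqL (π.comp θ) hqN,
    fun x => coresDq_resq θ hqN x, fun y => coresDq_resq (π.comp θ) hqN y,
    fun x => coresHH_resq θ π rep hrep repq hrepq x,
    fun x' => coresHH_coresDq' θ hqN π rep hrep repq hrepq x',
    fun x' => diaH_coresDq θ hqN d0 d0' hd x'⟩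

end Linear

end Fermat.Agent.GE8.P3B.DegRCore
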