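/-
GATE-E / RISK-5 (OK3-FREENESS), fix (B), the SEAM between (B1) and (B2) (helper86): **the statement
owed by (B2)** — the two degeneracy maps at an auxiliary prime `r ∤ N` between `Hom(Γ_H(θ), O)`
(level `N`) and `Hom(Γ_H(θ ∘ mod N), O)` (level `N r`), on two consecutive levels `θ`, `π ∘ θ` of the
Taylor–Wiles tower:

* `a`  = restriction  (`GB/B7/UqSqSys.resq`),
* `b`  = the `δ`-twisted transfer (`GB/B7/UqSqSys.coresDq`), `b ∘ a = T_r`;
* (ii) `cores' ∘ a = a0 ∘ cores`, (iii) `cores ∘ b = b0 ∘ cores'`, (iv) `⟨d0⟩ ∘ b = b ∘ ⟨d0'⟩`.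

Consumer: `GE8/P3B/StepInstAux.exists_step_inst_aux` (the concrete tower step at `p = 3`).
-/
import Mathlib
import Fermat.Agent.GB.B3.GammaH2
import Fermat.Agent.GB.B7.UqSqSys

set_option autoImplicit false

open scoped MatrixGroups
open CongruenceSubgroup

namespace Fermat.Agent.GE8.P3B.Seam

open Fermat.Agent.GM.B Fermat.Agent.GB.B3 Fermat.Agent.GB.B3.EisGamma0 Fermat.Agent.GB.B3.GamH
  Fermat.Agent.GB.B7.UqSq

/-- **(B2)**: the degeneracy pair at the auxiliary prime `r ∤ N`, for every coefficient ring and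
every pair of consecutive levels. -/
def DegRStmt (N r : ℕ) [NeZero N] [Fact r.Prime] (hrN : ¬ r ∣ N) : Prop :=
  ∀ (O : Type) [CommRing O] {Δ Δ'' : Type} [CommGroup Δ] [CommGroup Δ'']
    (θ : (ZMod N)ˣ →* Δ) (π : Δ →* Δ'') [Fintype π.ker]
    (rep : π.ker → Gamma0 N) (hrep : ∀ δ : π.ker, chi θ (rep δ) = (δ : Δ))
    (rep' : π.ker → Gamma0 (N * r)) (hrep' : ∀ δ : π.ker, chi (thQ θ r) (rep' δ) = (δ : Δ))
    (d0 : Gamma0 N) (d0' : Gamma0 (N * r)) (_ : chi (thQ θ r) d0' = chi θ d0),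
    ∃ (a : (Additive (GammaH θ) →+ O) →ₗ[O] (Additive (GammaH (thQ θ r)) →+ O))
      (b : (Additive (GammaH (thQ θ r)) →+ O) →ₗ[O] (Additive (GammaH θ) →+ O))
      (a0 : (Additive (GammaH (π.comp θ)) →+ O) →ₗ[O]
        (Additive (GammaH (π.comp (thQ θ r))) →+ O))
      (b0 : (Additive (GammaH (π.comp (thQ θ r))) →+ O) →ₗ[O]
        (Additive (GammaH (π.comp θ)) →+ O)),
      (∀ x, b (a x) = TH θ O hrN x) ∧
      (∀ y, b0 (a0 y) = TH (π.comp θ) O hrN y) ∧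
      (∀ x, coresHH (thQ θ r) π rep' hrep' O (a x) = a0 (coresHH θ π rep hrep O x)) ∧
      (∀ x', coresHH θ π rep hrep O (b x') = b0 (coresHH (thQ θ r) π rep' hrep' O x')) ∧
      (∀ x', diaH θ O d0 (b x') = b (diaH (thQ θ r) O d0' x'))

end Fermat.Agent.GE8.P3B.Seam
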