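/-
GATE-E / RISK-5 (B2), the CLOSE (helper44): helper86's seam statement `Seam.DegRStmt N r hrN`
(`GE8/P3B/DegRStmt.lean`) from `DegRCore.degR_core`.  The only difference is the spelling
`GammaH (π.comp (thQ θ r))` of the header versus `GammaH (thQ (π.comp θ) r)` of the core
(definitionally equal: `MonoidHom.comp_assoc` is `rfl`).
-/
import Mathlib
import Fermat.Agent.GE8.P3B.DegRStmt
import Fermat.Agent.GE8.P3B.DegRCore

set_option autoImplicit false

open scoped MatrixGroups
open CongruenceSubgroup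

namespace Fermat.Agent.GE8.P3B.DegRClose

open Fermat.Agent.GM.B Fermat.Agent.GB.B3 Fermat.Agent.GB.B3.EisGamma0 Fermat.Agent.GB.B3.GamH
  Fermat.Agent.GB.B7.UqSq Fermat.Agent.GE8.P3B.DegRCore

/-- **RISK-5 (B2)**: the degeneracy pair at the auxiliary prime `r ∤ N`. -/
theorem degR {N r : ℕ} [NeZero N] [Fact r.Prime] (hrN : ¬ r ∣ N) :
    Fermat.Agent.GE8.P3B.Seam.DegRStmt N r hrN := by
  intro O _ Δ Δ'' _ _ θ π _ rep hrep rep' hrep' d0 d0' hd
  exact ⟨resqL (q := r) θ, coresDqL θ hrN, resqL (q := r) (π.comp θ), coresDqL (π.comp θ) hrN,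
    fun x => coresDq_resq θ hrN x, fun y => coresDq_resq (π.comp θ) hrN y,
    fun x => coresHH_resq θ π rep hrep rep' hrep' x,
    fun x' => coresHH_coresDq' θ hrN π rep hrep rep' hrep' x',
    fun x' => diaH_coresDq θ hrN d0 d0' hd x'⟩

end Fermat.Agent.GE8.P3B.DegRClose
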