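/-
GATE-E / RISK-5 (OK3-FREENESS), fix (B), leaf (B1) (helper86): **the abstract step of the
Taylor–Wiles tower WITHOUT the integral surjectivity / exactness of the corestriction at the level
`N`** — they are TRANSPORTED, on the `𝔪`-primary parts only, from an integral cyclic step at a
bigger level `N · r`.

`GB/B3/StepAbs.exists_step` consumes `CS : FreeCyclic.CycStep O L L0 (p ^ n)`; its two fields
`cores_surj`, `ker_cores` are the only places where GATE-B needs `¬ 3 ∣ p ^ n` (no elliptic element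
of order `3` may survive in the tower).  At `p = 3` and a level `N` without a prime `≡ 2 (mod 3)`
they can FAIL integrally, but they hold on the `𝔪`-primary parts as soon as there is an auxiliary
prime `r ≡ 2 (mod 3)`, `r ∤ N`, with `T_r ∉ 𝔪`:

* `CycStepW O L L0 q`       : `CycStep` minus the two fields (`CycStep.toW`);
* `Transport S S' u u0`     : `O`-linear maps `a : L → L'`, `b : L' → L`, `a0 : L0 → L0'`,
                              `b0 : L0' → L0` between the weak step `S` (level `N`) and a FULL step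
                              `S'` (level `N r`, no Hecke action needed there) with
                              `b ∘ a = u`, `b0 ∘ a0 = u0`, `cores' ∘ a = a0 ∘ cores`,
                              `cores ∘ b = b0 ∘ cores'`, `D ∘ b = b ∘ D'`
                              (`a` = restriction, `b` = the `T_r`-transfer, `u = T_r`);
* `cores_surjOn_of_transport`, `ker_cores_on_of_transport` : the two statements on the primary parts
                              when `u`, `u0` are the action of some `υ ∉ 𝔪`;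
* `locStep`                 : the GENUINE `CycStep O P P0 q` on the primary parts `P = L_𝔪`,
                              `P0 = (L0)_𝔪`;
* **`exists_step_aux`**     : `StepAbs.exists_step` with `(CS : CycStepW …)`, `(CS' : CycStep …)`,
                              `(T : Transport CS CS' (actL υ) (actL0 υ))`, `(hυ : υ ∉ 𝔪)`
                              (proof: `StepAbs.exists_step` applied to `locStep`; no twin of
                              `FreeCyclic`).
-/
import Mathlib
import Fermat.Agent.GB.B3.StepAbs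

set_option autoImplicit false
set_option linter.unusedSectionVars false
set_option linter.unusedVariables false
set_option linter.style.haveILetI false

namespace Fermat.Agent.GE8.P3B.StepAbsAux

open Module Fermat.Agent.GB.B3.TWLevel Fermat.Agent.GB.B3.TowerStep Fermat.Agent.GB.B3.Loc
  Fermat.Agent.GB.B3.Loc2 Fermat.Agent.GB.B3.FreeCyclic Fermat.Agent.GB.B3.LocSummand
  Fermat.Agent.GB.B3.RealLevel Fermat.Agent.GB.B3.StepAbs

/-! ### the weak step and the transport data -/

/-- `FreeCyclic.CycStep` without the two integral fields `cores_surj`, `ker_cores`. -/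
structure CycStepW (O L L0 : Type*) [CommRing O] [AddCommGroup L] [Module O L]
    [AddCommGroup L0] [Module O L0] (q : ℕ) where
  D : L →ₗ[O] L
  res : L0 →ₗ[O] L
  cores : L →ₗ[O] L0
  t : L →ₗ[O] L
  t0 : L0 →ₗ[O] L0
  D_pow : D ^ q = 1
  res_cores : ∀ x, res (cores x) = ∑ i ∈ Finset.range q, (D ^ i) x
  cores_res : ∀ y, cores (res y) = (q : O) • y
  t_D : ∀ x, t (D x) = D (t x)
  res_t0 : ∀ y, res (t0 y) = t (res y)
  cores_t : ∀ x, cores (t x) = t0 (cores x)
  eis : ∀ ψ : L0, (∃ z, res ψ = (q : O) • z) → ∃ ψ', t0 ψ = (q : O) • ψ'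

/-- a full step is a weak step. -/
def toW {O L L0 : Type*} [CommRing O] [AddCommGroup L] [Module O L]
    [AddCommGroup L0] [Module O L0] {q : ℕ} (S : CycStep O L L0 q) : CycStepW O L L0 q where
  D := S.D
  res := S.res
  cores := S.cores
  t := S.t
  t0 := S.t0
  D_pow := S.D_pow
  res_cores := S.res_cores
  cores_res := S.cores_res
  t_D := S.t_D
  res_t0 := S.res_t0
  cores_t := S.cores_t
  eis := S.eis

/-- **the transport data** between a weak step `S` (small level) and a full step `S'` (big level):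
`a` up, `b` down, `b ∘ a = u`. -/
structure Transport {O L L0 L' L0' : Type*} [CommRing O] [AddCommGroup L] [Module O L]
    [AddCommGroup L0] [Module O L0] [AddCommGroup L'] [Module O L'] [AddCommGroup L0']
    [Module O L0'] {q : ℕ} (S : CycStepW O L L0 q) (S' : CycStep O L' L0' q)
    (u : L →ₗ[O] L) (u0 : L0 →ₗ[O] L0) where
  a : L →ₗ[O] L'
  b : L' →ₗ[O] L
  a0 : L0 →ₗ[O] L0'
  b0 : L0' →ₗ[O] L0
  ba : ∀ x, b (a x) = u x
  ba0 : ∀ y, b0 (a0 y) = u0 y
  cores_a : ∀ x, S'.cores (a x) = a0 (S.cores x)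
  cores_b : ∀ x', S.cores (b x') = b0 (S'.cores x')
  D_b : ∀ x', S.D (b x') = b (S'.D x')

/-! ### the two statements on the primary parts -/

section OnLoc

variable {O : Type} [CommRing O] [IsLocalRing O] [IsNoetherianRing O]
  [IsAdicComplete (IsLocalRing.maximalIdeal O) O]
variable {A : Type} [CommRing A] [Algebra O A] (𝔪 : Ideal A) [𝔪.IsMaximal]
variable {L L0 : Type} [AddCommGroup L] [Module O L] [Module A L] [IsScalarTower O A L]
  [Module.Finite O L]
  [AddCommGroup L0] [Module O L0] [Module A L0] [IsScalarTower O A L0] [Module.Finite O L0]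
variable {L' L0' : Type*} [AddCommGroup L'] [Module O L'] [AddCommGroup L0'] [Module O L0']
variable {q : ℕ} (S : CycStepW O L L0 q) (S' : CycStep O L' L0' q)
  (hD : ∀ (a : A) (x : L), S.D (a • x) = a • S.D x)
  (hcores : ∀ (a : A) (x : L), S.cores (a • x) = a • S.cores x)
  (υ : A) (hυ : υ ∉ 𝔪)
  (T : Transport S S' (Algebra.lsmul O O L υ) (Algebra.lsmul O O L0 υ))

/-- decomposition of an element along `locPart ⊕ awayPart`. -/
theorem exists_loc_away (O : Type) [CommRing O] [IsLocalRing O] [IsNoetherianRing O]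
    [IsAdicComplete (IsLocalRing.maximalIdeal O) O] {A : Type} [CommRing A] [Algebra O A]
    (𝔪 : Ideal A) [𝔪.IsMaximal] {L : Type} [AddCommGroup L] [Module O L] [Module A L]
    [IsScalarTower O A L] [Module.Finite O L] (x : L) :
    ∃ a ∈ locPart 𝔪 L, ∃ b ∈ awayPart 𝔪 L, x = a + b := by
  have h : x ∈ locPart 𝔪 L ⊔ awayPart 𝔪 L := by
    rw [(isCompl_locPart_awayPart O 𝔪).sup_eq_top]
    exact Submodule.mem_top
  obtain ⟨a, ha, b, hb, hab⟩ := Submodule.mem_sup.mp h
  exact ⟨a, ha, b, hb, hab.symm⟩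

/-- `locPart ∩ awayPart = 0`. -/
theorem eq_zero_of_loc_away (O : Type) [CommRing O] [IsLocalRing O] [IsNoetherianRing O]
    [IsAdicComplete (IsLocalRing.maximalIdeal O) O] {A : Type} [CommRing A] [Algebra O A]
    (𝔪 : Ideal A) [𝔪.IsMaximal] {L : Type} [AddCommGroup L] [Module O L] [Module A L]
    [IsScalarTower O A L] [Module.Finite O L] {x : L}
    (h1 : x ∈ locPart 𝔪 L) (h2 : x ∈ awayPart 𝔪 L) : x = 0 := by
  have h : x ∈ locPart 𝔪 L ⊓ awayPart 𝔪 L := Submodule.mem_inf.mpr ⟨h1, h2⟩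
  rw [(isCompl_locPart_awayPart O 𝔪).inf_eq_bot] at h
  exact (Submodule.mem_bot A).mp h

/-- division by `υ ∉ 𝔪` on the primary part. -/
theorem exists_smul_eq_of_mem_locPart (O : Type) [CommRing O] [IsLocalRing O]
    [IsNoetherianRing O] [IsAdicComplete (IsLocalRing.maximalIdeal O) O] {A : Type} [CommRing A]
    [Algebra O A] (𝔪 : Ideal A) [𝔪.IsMaximal] {L : Type} [AddCommGroup L] [Module O L]
    [Module A L] [IsScalarTower O A L] [Module.Finite O L] (υ : A) (hυ : υ ∉ 𝔪) {x : L}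
    (hx : x ∈ locPart 𝔪 L) : ∃ y ∈ locPart 𝔪 L, υ • y = x := by
  obtain ⟨y, hy⟩ := (bijective_smul_locPart O (L := L) 𝔪 hυ).2 ⟨x, hx⟩
  exact ⟨y, y.2, congrArg Subtype.val hy⟩

/-- `υ ∉ 𝔪` is injective on the primary part. -/
theorem eq_zero_of_smul_eq_zero_of_mem_locPart (O : Type) [CommRing O] [IsLocalRing O]
    [IsNoetherianRing O] [IsAdicComplete (IsLocalRing.maximalIdeal O) O] {A : Type} [CommRing A]
    [Algebra O A] (𝔪 : Ideal A) [𝔪.IsMaximal] {L : Type} [AddCommGroup L] [Module O L]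
    [Module A L] [IsScalarTower O A L] [Module.Finite O L] (υ : A) (hυ : υ ∉ 𝔪) {x : L}
    (hx : x ∈ locPart 𝔪 L) (h : υ • x = 0) : x = 0 := by
  have hb := (bijective_smul_locPart O (L := L) 𝔪 hυ).1
  have h0 : υ • (⟨x, hx⟩ : locPart 𝔪 L) = υ • (0 : locPart 𝔪 L) := by
    apply Subtype.ext
    show υ • x = υ • (0 : L)
    rw [smul_zero, h]
  exact congrArg Subtype.val (hb h0)

include hcores hυ T in
/-- **(C1) on the primary parts, transported**: `cores` maps `L_𝔪` onto `(L0)_𝔪`. -/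
theorem cores_surjOn_of_transport {y : L0} (hy : y ∈ locPart 𝔪 L0) :
    ∃ x ∈ locPart 𝔪 L, S.cores x = y := by
  -- lift `a0 y` along the integral `cores'`
  obtain ⟨x', hx'⟩ := S'.cores_surj (T.a0 y)
  have h1 : S.cores (T.b x') = υ • y := by
    rw [T.cores_b, hx', T.ba0]
    rfl
  -- project to the primary part
  obtain ⟨x₁, hx₁, x₂, hx₂, hsum⟩ := exists_loc_away O 𝔪 (T.b x')
  have hc1 : S.cores x₁ ∈ locPart 𝔪 L0 := apply_mem_locPart (toLin S.cores hcores) hx₁
  have hc2 : S.cores x₂ ∈ awayPart 𝔪 L0 := apply_mem_awayPart (toLin S.cores hcores) hx₂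
  have h2 : S.cores x₂ = υ • y - S.cores x₁ := by
    rw [← h1, hsum, map_add]
    abel
  have hc2' : S.cores x₂ ∈ locPart 𝔪 L0 := by
    rw [h2]
    exact Submodule.sub_mem _ (Submodule.smul_mem _ υ hy) hc1
  have h3 : S.cores x₂ = 0 := eq_zero_of_loc_away O 𝔪 hc2' hc2
  have h4 : S.cores x₁ = υ • y := by
    rw [← h1, hsum, map_add, h3, add_zero]
  -- divide by `υ`
  obtain ⟨x, hx, hxx⟩ := exists_smul_eq_of_mem_locPart O 𝔪 υ hυ hx₁
  refine ⟨x, hx, ?_⟩
  have h5 : υ • (S.cores x - y) = 0 := by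
    rw [smul_sub, ← hcores, hxx, h4, sub_self]
  have h6 : S.cores x - y ∈ locPart 𝔪 L0 :=
    Submodule.sub_mem _ (apply_mem_locPart (toLin S.cores hcores) hx) hy
  exact sub_eq_zero.mp (eq_zero_of_smul_eq_zero_of_mem_locPart O 𝔪 υ hυ h6 h5)

include hD hcores hυ T in
/-- **(C1') on the primary parts, transported**: the kernel of `cores` on `L_𝔪` is
`(D - 1) L_𝔪`. -/
theorem ker_cores_on_of_transport {x : L} (hx : x ∈ locPart 𝔪 L) (h : S.cores x = 0) :
    ∃ z ∈ locPart 𝔪 L, x = S.D z - z := by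
  have h1 : S'.cores (T.a x) = 0 := by rw [T.cores_a, h, map_zero]
  obtain ⟨y', hy'⟩ := S'.ker_cores (T.a x) h1
  have h2 : υ • x = S.D (T.b y') - T.b y' := by
    have := T.ba x
    rw [hy', map_sub, ← T.D_b] at this
    rw [this]
    rfl
  obtain ⟨z₁, hz₁, z₂, hz₂, hsum⟩ := exists_loc_away O 𝔪 (T.b y')
  have hd1 : S.D z₁ - z₁ ∈ locPart 𝔪 L :=
    Submodule.sub_mem _ (apply_mem_locPart (toLin S.D hD) hz₁) hz₁
  have hd2 : S.D z₂ - z₂ ∈ awayPart 𝔪 L :=
    Submodule.sub_mem _ (apply_mem_awayPart (toLin S.D hD) hz₂) hz₂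
  have h3 : S.D z₂ - z₂ = υ • x - (S.D z₁ - z₁) := by
    rw [h2, hsum, map_add]
    abel
  have hd2' : S.D z₂ - z₂ ∈ locPart 𝔪 L := by
    rw [h3]
    exact Submodule.sub_mem _ (Submodule.smul_mem _ υ hx) hd1
  have h4 : S.D z₂ - z₂ = 0 := eq_zero_of_loc_away O 𝔪 hd2' hd2
  have h5 : υ • x = S.D z₁ - z₁ := by
    rw [h2, hsum, map_add]
    have : S.D z₁ + S.D z₂ - (z₁ + z₂) = (S.D z₁ - z₁) + (S.D z₂ - z₂) := by abel
    rw [this, h4, add_zero]
  obtain ⟨z, hz, hzz⟩ := exists_smul_eq_of_mem_locPart O 𝔪 υ hυ hz₁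
  refine ⟨z, hz, ?_⟩
  have h6 : υ • (x - (S.D z - z)) = 0 := by
    rw [smul_sub, smul_sub, ← hD, hzz, h5, sub_self]
  have h7 : x - (S.D z - z) ∈ locPart 𝔪 L :=
    Submodule.sub_mem _ hx (Submodule.sub_mem _ (apply_mem_locPart (toLin S.D hD) hz) hz)
  exact sub_eq_zero.mp (eq_zero_of_smul_eq_zero_of_mem_locPart O 𝔪 υ hυ h7 h6)

end OnLoc

/-! ### the genuine cyclic step on the primary parts -/

section LocStep

variable {O : Type} [CommRing O] [IsDomain O] [IsPrincipalIdealRing O] [IsLocalRing O]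
  [IsAdicComplete (IsLocalRing.maximalIdeal O) O]
variable {A : Type} [CommRing A] [Algebra O A] (𝔪 : Ideal A) [𝔪.IsMaximal]
variable {L L0 : Type} [AddCommGroup L] [Module O L] [Module A L] [IsScalarTower O A L]
  [Module.Finite O L] [Module.Free O L]
  [AddCommGroup L0] [Module O L0] [Module A L0] [IsScalarTower O A L0]
  [Module.Finite O L0] [Module.Free O L0]
variable {L' L0' : Type*} [AddCommGroup L'] [Module O L'] [AddCommGroup L0'] [Module O L0']
variable {q : ℕ} (S : CycStepW O L L0 q) (S' : CycStep O L' L0' q)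
  (hD : ∀ (a : A) (x : L), S.D (a • x) = a • S.D x)
  (hcores : ∀ (a : A) (x : L), S.cores (a • x) = a • S.cores x)
  (hres : ∀ (a : A) (y : L0), S.res (a • y) = a • S.res y)
  (τ : A) (ht : ∀ x : L, S.t x = τ • x) (ht0 : ∀ y : L0, S.t0 y = τ • y)
  (υ : A) (hυ : υ ∉ 𝔪)
  (T : Transport S S' (Algebra.lsmul O O L υ) (Algebra.lsmul O O L0 υ))

include ht in
theorem t_smul (a : A) (x : L) : S.t (a • x) = a • S.t x := by
  rw [ht, ht, smul_comm]

include ht0 in
theorem t0_smul (a : A) (y : L0) : S.t0 (a • y) = a • S.t0 y := by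
  rw [ht0, ht0, smul_comm]

/-- **the cyclic step on the `𝔪`-primary parts** — a FULL `CycStep`: the two integral fields come
from the transport. -/
noncomputable def locStep :
    CycStep O ↥(locO (O := O) 𝔪 L) ↥(locO (O := O) 𝔪 L0) q where
  D := resLoc 𝔪 S.D hD
  res := resLoc 𝔪 S.res hres
  cores := resLoc 𝔪 S.cores hcores
  t := resLoc 𝔪 S.t (t_smul S τ ht)
  t0 := resLoc 𝔪 S.t0 (t0_smul S τ ht0)
  D_pow := by
    refine LinearMap.ext fun x => Subtype.ext ?_
    refine (coe_resLoc_pow 𝔪 S.D hD q x).trans ?_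
    rw [S.D_pow]
    rfl
  res_cores x := by
    apply Subtype.ext
    rw [coe_resLoc, coe_resLoc, S.res_cores, Submodule.coe_sum]
    exact Finset.sum_congr rfl fun i _ => (coe_resLoc_pow 𝔪 S.D hD i x).symm
  cores_res y := by
    apply Subtype.ext
    rw [coe_resLoc, coe_resLoc, S.cores_res]
    rfl
  cores_surj y := by
    obtain ⟨x, hx, hxy⟩ := cores_surjOn_of_transport 𝔪 S S' hcores υ hυ T y.2
    exact ⟨⟨x, hx⟩, Subtype.ext hxy⟩
  ker_cores x hx := by
    have h0 : S.cores (x : L) = 0 := congrArg Subtype.val hx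
    obtain ⟨z, hz, hxz⟩ := ker_cores_on_of_transport 𝔪 S S' hD hcores υ hυ T x.2 h0
    exact ⟨⟨z, hz⟩, Subtype.ext hxz⟩
  t_D x := Subtype.ext (S.t_D x)
  res_t0 y := Subtype.ext (S.res_t0 y)
  cores_t x := Subtype.ext (S.cores_t x)
  eis ψ := by
    rintro ⟨z, hz⟩
    have hz' : S.res (ψ : L0) = (q : O) • (z : L) := congrArg Subtype.val hz
    obtain ⟨ψ', hψ'⟩ := S.eis (ψ : L0) ⟨(z : L), hz'⟩
    obtain ⟨ψ₁, hψ₁, ψ₂, hψ₂, hsum⟩ := exists_loc_away O 𝔪 ψ'
    have h1 : S.t0 (ψ : L0) ∈ locPart 𝔪 L0 := by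
      rw [ht0]
      exact Submodule.smul_mem _ τ ψ.2
    have hq1 : (q : O) • ψ₁ ∈ locPart 𝔪 L0 := Submodule.smul_of_tower_mem _ _ hψ₁
    have hq2 : (q : O) • ψ₂ ∈ awayPart 𝔪 L0 := Submodule.smul_of_tower_mem _ _ hψ₂
    have h2 : (q : O) • ψ₂ = S.t0 (ψ : L0) - (q : O) • ψ₁ := by
      rw [hψ', hsum, smul_add]
      abel
    have hq2' : (q : O) • ψ₂ ∈ locPart 𝔪 L0 := by
      rw [h2]
      exact Submodule.sub_mem _ h1 hq1
    have h3 : (q : O) • ψ₂ = 0 := eq_zero_of_loc_away O 𝔪 hq2' hq2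
    refine ⟨⟨ψ₁, hψ₁⟩, Subtype.ext ?_⟩
    show S.t0 (ψ : L0) = (q : O) • ψ₁
    rw [hψ', hsum, smul_add, h3, add_zero]

end LocStep

/-! ### realisations inside the primary part -/

section Real

variable {O : Type} [CommRing O] [IsDomain O] [IsPrincipalIdealRing O] [IsLocalRing O]
  [IsAdicComplete (IsLocalRing.maximalIdeal O) O]
variable {A : Type} [CommRing A] [Algebra O A] (𝔪 : Ideal A) [𝔪.IsMaximal]
variable {M0 : Type} [AddCommGroup M0] [Module O M0] {act0 : A →ₐ[O] Module.End O M0}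
variable {L : Type} [AddCommGroup L] [Module O L] [Module A L] [IsScalarTower O A L]
  [Module.Finite O L] [Module.Free O L]
variable {k : ℕ} {N : Fin k → ℕ} {F : FreeLevel O A M0 act0 k N}

/-- every element of the primary part is local for the restricted action. -/
theorem isLoc_actLoc (x : ↥(locO (O := O) 𝔪 L)) : IsLoc (actLoc (O := O) (L := L) 𝔪) 𝔪 x := by
  intro s hs
  obtain ⟨y, hy⟩ := (bijective_smul_locPart O (L := L) 𝔪 hs).2 ⟨x.1, x.2⟩
  refine ⟨⟨y.1, y.2⟩, Subtype.ext ?_⟩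
  exact congrArg Subtype.val hy

/-- the diamond operators of a realised level, transported to the primary part. -/
noncomputable def diaLoc {actL : A →ₐ[O] Module.End O L} {E : Fin k → Module.End O L}
    (R : Realizes F actL 𝔪 E) (hact : ∀ a x, actL a x = a • x) (i : Fin k) :
    Module.End O ↥(locO (O := O) 𝔪 L) :=
  (realEquiv 𝔪 R hact).toLinearMap ∘ₗ F.D i ∘ₗ (realEquiv 𝔪 R hact).symm.toLinearMap

theorem coe_diaLoc {actL : A →ₐ[O] Module.End O L} {E : Fin k → Module.End O L}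
    (R : Realizes F actL 𝔪 E) (hact : ∀ a x, actL a x = a • x) (i : Fin k)
    (x : ↥(locO (O := O) 𝔪 L)) :
    ((diaLoc 𝔪 R hact i x : ↥(locO (O := O) 𝔪 L)) : L) = E i (x : L) := by
  unfold diaLoc
  rw [LinearMap.comp_apply, LinearMap.comp_apply, LinearEquiv.coe_coe, LinearEquiv.coe_coe,
    coe_realEquiv, R.ι_D, ← coe_realEquiv 𝔪 R hact, LinearEquiv.apply_symm_apply]

/-- **a level realised in `L` is realised in `L_𝔪`.** -/
noncomputable def realizesLoc {actL : A →ₐ[O] Module.End O L} {E : Fin k → Module.End O L}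
    (R : Realizes F actL 𝔪 E) (hact : ∀ a x, actL a x = a • x) :
    Realizes F (actLoc (O := O) (L := L) 𝔪) 𝔪 (diaLoc 𝔪 R hact) where
  ι := (realEquiv 𝔪 R hact).toLinearMap
  inj := (realEquiv 𝔪 R hact).injective
  range x := ⟨fun _ => isLoc_actLoc 𝔪 x, fun _ => ⟨(realEquiv 𝔪 R hact).symm x, by
    rw [LinearEquiv.coe_coe, LinearEquiv.apply_symm_apply]⟩⟩
  ι_act t x := by
    apply Subtype.ext
    rw [LinearEquiv.coe_coe, coe_realEquiv, R.ι_act, hact, coe_actLoc, coe_realEquiv]
  ι_D i x := by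
    unfold diaLoc
    rw [LinearMap.comp_apply, LinearMap.comp_apply, LinearEquiv.coe_coe, LinearEquiv.coe_coe,
      LinearEquiv.symm_apply_apply]

/-- **a level realised in `L_𝔪` (all of it) is realised in `L`.** -/
noncomputable def realizesOfLoc (actL : A →ₐ[O] Module.End O L) (hact : ∀ a x, actL a x = a • x)
    {E : Fin k → Module.End O L} {EP : Fin k → Module.End O ↥(locO (O := O) 𝔪 L)}
    (hE : ∀ i (x : ↥(locO (O := O) 𝔪 L)), ((EP i x : ↥(locO (O := O) 𝔪 L)) : L) = E i (x : L))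
    (R : Realizes F (actLoc (O := O) (L := L) 𝔪) 𝔪 EP) : Realizes F actL 𝔪 E where
  ι := (locO (O := O) 𝔪 L).subtype ∘ₗ R.ι
  inj := fun x y h => R.inj (Subtype.ext h)
  range x := by
    rw [isLoc_iff_mem_locPart 𝔪 actL hact]
    constructor
    · rintro ⟨y, rfl⟩
      exact (R.ι y).2
    · intro hx
      obtain ⟨y, hy⟩ := (R.range (⟨x, hx⟩ : ↥(locO (O := O) 𝔪 L))).2 (isLoc_actLoc 𝔪 _)
      exact ⟨y, congrArg Subtype.val hy⟩
  ι_act t x := by
    rw [LinearMap.comp_apply, LinearMap.comp_apply, R.ι_act, hact]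
    rfl
  ι_D i x := by
    rw [LinearMap.comp_apply, LinearMap.comp_apply, R.ι_D]
    exact hE i _

end Real

/-! ### the instance-free statement -/

/-- **THE ABSTRACT TOWER STEP, with the integral corestriction facts transported from a bigger
level.**  Same statement as `StepAbs.exists_step`, with `CS` a WEAK step, `CS'` a full step on
auxiliary modules `L'`, `L0'` (no Hecke action, no finiteness), and a transport `T` with
`b ∘ a = actL υ`, `b0 ∘ a0 = actL0 υ` for some `υ ∉ 𝔪`. -/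
theorem exists_step_aux {O : Type} [CommRing O] [IsDomain O] [IsPrincipalIdealRing O]
    [IsLocalRing O] [IsAdicComplete (IsLocalRing.maximalIdeal O) O] {A : Type} [CommRing A]
    [Algebra O A] (𝔪 : Ideal A) [𝔪.IsMaximal] {M0 : Type} [AddCommGroup M0] [Module O M0]
    {act0 : A →ₐ[O] Module.End O M0} {k : ℕ} {N : Fin k → ℕ} (F : FreeLevel O A M0 act0 k N)
    {L L0 : Type} [AddCommGroup L] [Module O L] [Module.Finite O L] [Module.Free O L]
    [AddCommGroup L0] [Module O L0] [Module.Finite O L0] [Module.Free O L0]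
    (actL : A →ₐ[O] Module.End O L) (actL0 : A →ₐ[O] Module.End O L0)
    (E : Fin k → Module.End O L) (E0 : Fin k → Module.End O L0)
    (R : Realizes F actL0 𝔪 E0) (ϖ : O) (hϖ0 : ϖ ≠ 0)
    (hmax : IsLocalRing.maximalIdeal O = Ideal.span {ϖ}) (p n : ℕ) (hp : p.Prime)
    (hpϖ : (p : O) ∈ Ideal.span {ϖ}) (hq : ((p ^ n : ℕ) : O) ≠ 0)
    (CS : CycStepW O L L0 (p ^ n)) (hD : ∀ a x, CS.D (actL a x) = actL a (CS.D x))
    (hcores : ∀ a x, CS.cores (actL a x) = actL0 a (CS.cores x))
    (hres : ∀ a y, CS.res (actL0 a y) = actL a (CS.res y)) (τ : A) (hτ : τ ∉ 𝔪)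
    (ht : ∀ x, CS.t x = actL τ x) (ht0 : ∀ y, CS.t0 y = actL0 τ y)
    (hE_pow : ∀ i, E i ^ N i = 1)
    (hE_comm : ∀ i j, E i * E j = E j * E i) (hE_D : ∀ i, CS.D * E i = E i * CS.D)
    (hE_act : ∀ a i, actL a * E i = E i * actL a)
    (hE_cores : ∀ i x, CS.cores (E i x) = E0 i (CS.cores x))
    {L' L0' : Type*} [AddCommGroup L'] [Module O L'] [AddCommGroup L0'] [Module O L0']
    (CS' : CycStep O L' L0' (p ^ n)) (υ : A) (hυ : υ ∉ 𝔪)
    (T : Transport CS CS' (actL υ) (actL0 υ)) :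
    ∃ F' : FreeLevel O A M0 act0 (k + 1) (Fin.cons (p ^ n) N : Fin (k + 1) → ℕ),
      Nonempty (Realizes F' actL 𝔪 (Fin.cons CS.D E : Fin (k + 1) → Module.End O L)) := by
  let instL : Module A L := Module.compHom L actL.toRingHom
  have towL : IsScalarTower O A L := ⟨fun o a x => by
    show actL (o • a) x = o • actL a x
    rw [map_smul]
    rfl⟩
  let instL0 : Module A L0 := Module.compHom L0 actL0.toRingHom
  have towL0 : IsScalarTower O A L0 := ⟨fun o a x => by
    show actL0 (o • a) x = o • actL0 a x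
    rw [map_smul]
    rfl⟩
  have hact : ∀ a x, actL a x = a • x := fun _ _ => rfl
  have hact0 : ∀ a x, actL0 a x = a • x := fun _ _ => rfl
  have hE_act' : ∀ (i : Fin k) (a : A) (x : L), E i (a • x) = a • E i x := fun i a x =>
    (LinearMap.congr_fun (hE_act a i) x).symm
  -- the transport in the `Module A` vocabulary
  let T' : Transport CS CS' (Algebra.lsmul O O L υ) (Algebra.lsmul O O L0 υ) :=
    { a := T.a, b := T.b, a0 := T.a0, b0 := T.b0
      ba := fun x => T.ba x
      ba0 := fun y => T.ba0 y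
      cores_a := T.cores_a
      cores_b := T.cores_b
      D_b := T.D_b }
  -- the genuine step on the primary parts
  let CSP : CycStep O ↥(locO (O := O) 𝔪 L) ↥(locO (O := O) 𝔪 L0) (p ^ n) :=
    locStep 𝔪 CS CS' hD hcores hres τ ht ht0 υ hυ T'
  let EP : Fin k → Module.End O ↥(locO (O := O) 𝔪 L) := fun i => resLoc 𝔪 (E i) (hE_act' i)
  haveI hfinP : Module.Finite O ↥(locPart 𝔪 L) := finite_locPart O 𝔪
  haveI hfreeP : Module.Free O ↥(locPart 𝔪 L) := free_locPart O 𝔪
  haveI hfinP0 : Module.Finite O ↥(locPart 𝔪 L0) := finite_locPart O 𝔪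
  haveI hfreeP0 : Module.Free O ↥(locPart 𝔪 L0) := free_locPart O 𝔪
  haveI : Module.Finite O ↥(locO (O := O) 𝔪 L) := hfinP
  haveI : Module.Free O ↥(locO (O := O) 𝔪 L) := hfreeP
  haveI : Module.Finite O ↥(locO (O := O) 𝔪 L0) := hfinP0
  haveI : Module.Free O ↥(locO (O := O) 𝔪 L0) := hfreeP0
  obtain ⟨F', ⟨R'⟩⟩ := Fermat.Agent.GB.B3.StepAbs.exists_step 𝔪 F (actLoc (O := O) (L := L) 𝔪)
    (actLoc (O := O) (L := L0) 𝔪) EP (diaLoc 𝔪 R hact0) (realizesLoc 𝔪 R hact0)
    ϖ hϖ0 hmax p n hp hpϖ hq CSP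
    (fun a x => Subtype.ext (hD a (x : L)))
    (fun a x => Subtype.ext (hcores a (x : L)))
    τ hτ
    (fun x => Subtype.ext (ht (x : L)))
    (fun i => by
      refine LinearMap.ext fun x => Subtype.ext ?_
      refine (coe_resLoc_pow 𝔪 (E i) (hE_act' i) (N i) x).trans ?_
      rw [hE_pow]
      rfl)
    (fun i j => by
      refine LinearMap.ext fun x => Subtype.ext ?_
      exact LinearMap.congr_fun (hE_comm i j) (x : L))
    (fun i => by
      refine LinearMap.ext fun x => Subtype.ext ?_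
      exact LinearMap.congr_fun (hE_D i) (x : L))
    (fun a i => by
      refine LinearMap.ext fun x => Subtype.ext ?_
      exact LinearMap.congr_fun (hE_act a i) (x : L))
    (fun i x => by
      apply Subtype.ext
      rw [coe_diaLoc]
      exact hE_cores i (x : L))
  refine ⟨F', ⟨realizesOfLoc 𝔪 actL hact (E := (Fin.cons CS.D E : Fin (k + 1) → Module.End O L))
    (EP := (Fin.cons CSP.D EP : Fin (k + 1) → Module.End O ↥(locO (O := O) 𝔪 L))) ?_ R'⟩⟩
  intro i x
  refine Fin.cases ?_ (fun j => ?_) i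
  · rfl
  · rfl

end Fermat.Agent.GE8.P3B.StepAbsAux
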