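/-
GATE-E / RISK-5 (OK3-FREENESS), fix (B) (helper86): **the two `p ≠ 3`-consumers of GATE-B's
Taylor–Wiles tower under `Ok3A Sy 𝔪 p`, in GENERIC vocabulary** — this file imports NO module of the
`GB/B3/StepInst` cone (so the generated twins `GE8/P3B/GB/B3/*` can cite it without pulling the
original cone into their environment).

  `Ok3A Sy 𝔪 p := p ≠ 3 ∨ ∃ ir : Sy.ι₁, Sy.ℓ ir % 3 = 2 ∧ X (inl ir) ∉ 𝔪`

(an auxiliary GOOD prime `r ≡ 2 (mod 3)` among the Hecke symbols whose `T_r` is a unit at `𝔪`; the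
LEVEL is not touched, so `Ok3A` survives `LocTransport.restrict`: same index types, same primes.)

* `dLin`, `tauG` : the diamond operator and the non-Eisenstein element (bodies of
  `StepInst.diaLin`, `StepInst.tauOf`, to which they are definitionally equal);
* `cycStepKKW`, `exists_lift_gamma0`, `exists_transport_aux`, `exists_transport_ok` : the weak
  step at level `N`, a full step (level `N` if `p ≠ 3`, level `N r` otherwise) and the transport;
* **`exists_step_inst_gen`**  : the body of `StepInst.exists_step_inst` under `Ok3A`;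
* **`exists_coinvEquiv_gen`** : the body of `L1Iso.exists_coinvEquiv_succ` under `Ok3A`.
-/
import Mathlib
import Fermat.Agent.GB.B3.CycPlug2
import Fermat.Agent.GB.B3.HeckeActH
import Fermat.Agent.GB.B3.HomFree
import Fermat.Agent.GB.B3.StepAbs
import Fermat.Agent.GB.B3.Base
import Fermat.Agent.GB.B3.Chi
import Fermat.Agent.GE8.CaseB3.CycPlug3
import Fermat.Agent.GE8.CaseB3.UFree
import Fermat.Agent.GE8.P3B.StepAbsAux
import Fermat.Agent.GE8.P3B.DegRClose

set_option autoImplicit false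
set_option linter.unusedSectionVars false
set_option linter.unusedVariables false
set_option linter.style.haveILetI false

open scoped MatrixGroups
open CongruenceSubgroup

namespace Fermat.Agent.GE8.P3B

open Fermat.Agent.GB.B3 Fermat.Agent.GB.B3.HeckeActH

/-- **the relaxed form of `p ≠ 3`** for the symbols `Sy` and the maximal ideal `𝔪`: either
`p ≠ 3`, or one of the good primes of `Sy` is `≡ 2 (mod 3)` with Hecke symbol outside `𝔪`. -/
def Ok3A {N : ℕ} (Sy : Symbols N) {O : Type} [CommRing O] (𝔪 : Ideal (Sy.𝕋 O)) (p : ℕ) : Prop :=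
  p ≠ 3 ∨ ∃ ir : Sy.ι₁, Sy.ℓ ir % 3 = 2 ∧ (MvPolynomial.X (Sum.inl ir) : Sy.𝕋 O) ∉ 𝔪

namespace Ok3A

variable {N : ℕ} {Sy : Symbols N} {O : Type} [CommRing O] {𝔪 : Ideal (Sy.𝕋 O)} {p : ℕ}

theorem of_ne (h : p ≠ 3) : Ok3A Sy 𝔪 p := Or.inl h

theorem of_five_le (h : 5 ≤ p) : Ok3A Sy 𝔪 p := Or.inl (by omega)

theorem of_aux (ir : Sy.ι₁) (hr3 : Sy.ℓ ir % 3 = 2)
    (hX : (MvPolynomial.X (Sum.inl ir) : Sy.𝕋 O) ∉ 𝔪) : Ok3A Sy 𝔪 p :=
  Or.inr ⟨ir, hr3, hX⟩

/-- a prime `≡ 11 (mod 12)` is `≡ 2 (mod 3)` (the auxiliary primes of `GE8/AuxR`). -/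
theorem mod_three_of_mod_twelve {r : ℕ} (h : r % 12 = 11) : r % 3 = 2 := by omega

theorem of_aux12 (ir : Sy.ι₁) (hr12 : Sy.ℓ ir % 12 = 11)
    (hX : (MvPolynomial.X (Sum.inl ir) : Sy.𝕋 O) ∉ 𝔪) : Ok3A Sy 𝔪 p :=
  of_aux ir (mod_three_of_mod_twelve hr12) hX

end Ok3A

namespace StepGen

open Fermat.Agent.GM.B Fermat.Agent.GB.B3 Fermat.Agent.GB.B3.EisGamma0
  Fermat.Agent.GB.B3.CycInst Fermat.Agent.GB.B3.CycPlug Fermat.Agent.GB.B3.FreeCyclic
  Fermat.Agent.GB.B3.TWLevel Fermat.Agent.GB.B3.RealLevel Fermat.Agent.GB.B3.HeckeActH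
  Fermat.Agent.GB.B3.HeckeAct Fermat.Agent.GB.B3.Chi Fermat.Agent.GB.B3.LocSummand
  Fermat.Agent.GB.B3.Loc Fermat.Agent.GB.B3.Loc2 Fermat.Agent.GB.B3.StepAbs
  Fermat.Agent.GE8.P3B.StepAbsAux Fermat.Agent.GE8.P3B.Seam Fermat.Agent.GB.B7.UqSq

theorem not_dvd_prime_pow_g {p : ℕ} (hp : p.Prime) {a : ℕ} (ha : a.Prime) (hne : p ≠ a) (n : ℕ) :
    ¬ a ∣ p ^ n := by
  intro h
  have h1 := ha.dvd_of_dvd_pow h
  exact hne ((Nat.prime_dvd_prime_iff_eq ha hp).1 h1).symm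

/-! ### the groups (bodies of `StepInst.finiteIndex_GammaH`, `StepInst.neg_one_mem_GammaH`) -/

section Groups

variable {N : ℕ} {Δ : Type} [CommGroup Δ] (θ : (ZMod N)ˣ →* Δ)

theorem gamma_le_GammaH : Gamma N ≤ GamH.GammaH θ := by
  intro g hg
  obtain ⟨-, -, h10, h11⟩ := Gamma_mem.1 hg
  have hg0 : g ∈ Gamma0 N := Gamma0_mem.2 h10
  refine (GamH.mem_GammaH_iff θ g).2 ⟨hg0, ?_⟩
  have h1 : dUnits N ⟨g, hg0⟩ = 1 := by
    apply Units.ext
    rw [coe_dUnits, Units.val_one]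
    exact h11
  rw [h1, map_one]

/-- `Γ_H` has finite index in `SL(2,ℤ)` -/
theorem finiteIndex_GammaH_g [NeZero N] : (GamH.GammaH θ).FiniteIndex :=
  IsCongruenceSubgroup.finiteIndex ⟨N, NeZero.ne N, gamma_le_GammaH θ⟩

theorem neg_one_mem_Gamma0_g : (-1 : SL(2, ℤ)) ∈ Gamma0 N := by
  rw [Gamma0_mem]
  simp

theorem dUnits_neg_one_g : dUnits N ⟨-1, neg_one_mem_Gamma0_g⟩ = -1 := by
  apply Units.ext
  rw [coe_dUnits, Units.val_neg, Units.val_one]
  simp [Fermat.Agent.GM.EisClass.dN]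

/-- `-1 ∈ Γ_H` when `θ (-1) = 1` -/
theorem neg_one_mem_GammaH_g (hneg : θ (-1) = 1) : (-1 : SL(2, ℤ)) ∈ GamH.GammaH θ :=
  (GamH.mem_GammaH_iff θ _).2 ⟨neg_one_mem_Gamma0_g, by rw [dUnits_neg_one_g, hneg]⟩

end Groups

/-! ### the diamond operator and the non-Eisenstein element -/

section Dia

variable {N : ℕ} (O : Type) [CommRing O] {Δ : Type} [CommGroup Δ] (θ : (ZMod N)ˣ →* Δ)

/-- the diamond operator of `d ∈ Γ₀(N)` on `Hom(Γ_H, O)` (body of `StepInst.diaLin`) -/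
noncomputable def dLin (d : Gamma0 N) : Module.End O (Additive (GamH.GammaH θ) →+ O) :=
  opLin O (diaK embR (chi θ) d)

theorem dLin_apply (d : Gamma0 N) (ψ : Additive (GamH.GammaH θ) →+ O) :
    dLin O θ d ψ = GamH.diaH θ O d ψ := rfl

theorem dLin_pow (d : Gamma0 N) (n : ℕ) (hd : chi θ (d ^ n) = 1) : dLin O θ d ^ n = 1 := by
  refine LinearMap.ext fun ψ => ?_
  rw [Module.End.one_apply]
  have h := dia_pow (emb := embR) (chi θ) O d n ψ
  exact h.trans (dia_of_ker (chi θ) _ hd ψ)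

theorem dLin_comm (d d' : Gamma0 N) :
    dLin O θ d * dLin O θ d' = dLin O θ d' * dLin O θ d := by
  refine LinearMap.ext fun ψ => ?_
  rw [Module.End.mul_apply, Module.End.mul_apply, dLin_apply, dLin_apply, dLin_apply,
    dLin_apply]
  exact GamH.diaH_comm θ d d' ψ

/-- the non-Eisenstein element `T_ℓ - (ℓ + 1)` (body of `StepInst.tauOf`) -/
noncomputable def tauG (Sy : Symbols N) (O : Type) [CommRing O] (s0 : Sy.ι₁) : Sy.𝕋 O :=
  MvPolynomial.X (Sum.inl s0) - MvPolynomial.C (((Sy.ℓ s0 + 1 : ℕ) : O))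

end Dia

/-! ### the weak cyclic step between two levels of one character -/

section StepKKW

variable {H G : Type*} [Group H] [Group G] {emb : H →* G}
variable (hemb : Function.Injective emb) {Γ : Subgroup H} {Δ Δ'' : Type} [CommGroup Δ]
  [Group Δ''] (χ : Γ →* Δ) (π : Δ →* Δ'') [Fintype π.ker] (r : π.ker → Γ)
  (hr : ∀ δ : π.ker, χ (r δ) = (δ : Δ)) (S : CosetSys emb Γ Γ) (h : Compat S χ)
  (O : Type*) [CommRing O] (q : ℕ) (d0 : Γ)

/-- **the weak cyclic step between two levels of one character** = `CycInst.cycStepKK` without the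
two model binders. -/
noncomputable def cycStepKKW (hd0 : χ d0 ∈ π.ker) (hord : orderOf (χ d0) = q)
    (hcard : Fintype.card π.ker = q)
    (hq : ∀ a : O, (q : O) * a = 0 → a = 0) :
    CycStepW O (Additive (kerSub χ) →+ O) (Additive (kerSub (π.comp χ)) →+ O) q where
  D := opLin O (diaK emb χ d0)
  res := opLin O (resKK χ π emb)
  cores := opLin O (coresKK χ π r hr emb)
  t := opLin O (kerSys S χ h) - Fintype.card S.ι • LinearMap.id
  t0 := opLin O (kerSys S (π.comp χ) (h.comp χ π)) - Fintype.card S.ι • LinearMap.id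
  D_pow := by
    refine LinearMap.ext fun ψ => ?_
    rw [dia_pow_order χ O q d0 hord, Module.End.one_apply]
  res_cores x := by
    rw [opLin_apply, opLin_apply]
    exact resKK_coresKK_eq_sum_pow χ π r hr O q d0 hd0 hord hcard x
  cores_res y := by
    rw [opLin_apply, opLin_apply, coresKK_resKK, hcard, Nat.cast_smul_eq_nsmul]
  t_D x := by
    simp only [LinearMap.sub_apply, LinearMap.smul_apply, LinearMap.id_apply, map_sub, map_nsmul]
    rw [opLin_apply, opLin_apply, opLin_apply, opLin_apply, dia_kerSys_op hemb S χ h d0 x]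
  res_t0 y := by
    simp only [LinearMap.sub_apply, LinearMap.smul_apply, LinearMap.id_apply, map_sub, map_nsmul]
    rw [opLin_apply, opLin_apply, opLin_apply, opLin_apply, kerSys_op_resKK χ π S h y]
  cores_t x := by
    simp only [LinearMap.sub_apply, LinearMap.smul_apply, LinearMap.id_apply, map_sub, map_nsmul]
    rw [opLin_apply, opLin_apply, opLin_apply, opLin_apply,
      coresKK_kerSys_op χ π r hr hemb S h x]
  eis ψ := by
    rintro ⟨z, hz⟩
    have hA : ∀ a : O, q • a = 0 → a = 0 := by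
      intro a ha
      rw [nsmul_eq_mul] at ha
      exact hq a ha
    have hψ : ∀ g : kerSub (π.comp χ), chiK χ π g = 1 →
        ∃ a : O, ψ (Additive.ofMul g) = q • a := by
      intro g hg
      have hg' : χ (kerIncl (π.comp χ) g) = 1 := by
        have := congrArg Subtype.val hg
        rwa [coe_chiK] at this
      refine ⟨z (Additive.ofMul (kerMk χ (kerIncl (π.comp χ) g) hg')), ?_⟩
      have h1 := DFunLike.congr_fun hz (Additive.ofMul (kerMk χ (kerIncl (π.comp χ) g) hg'))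
      rw [opLin_apply, resKK_op_apply] at h1
      have e : upIncl χ π (kerMk χ (kerIncl (π.comp χ) g) hg') = g := Subtype.ext rfl
      rw [e] at h1
      rw [h1, AddMonoidHom.smul_apply, smul_eq_mul, nsmul_eq_mul]
    obtain ⟨ψ', hψ'⟩ := Eis.exists_op_sub_card_nsmul_eq_nsmul
      (kerSys S (π.comp χ) (h.comp χ π)) (chiK χ π) (fun _ => 1)
      (fun g i => by rw [mul_one, mul_one, chiK_kerSys_c χ π S h g i]) q hA ψ hψ
    refine ⟨ψ', ?_⟩
    rw [LinearMap.sub_apply, LinearMap.smul_apply, LinearMap.id_apply, opLin_apply]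
    have hc : Fintype.card (kerSys S (π.comp χ) (h.comp χ π)).ι = Fintype.card S.ι := rfl
    rw [hc] at hψ'
    rw [hψ', Nat.cast_smul_eq_nsmul]

end StepKKW

/-! ### `cores ∘ D = cores` for a weak step -/

section Abs

variable {O : Type} [CommRing O] [IsDomain O]
variable {L L0 : Type} [AddCommGroup L] [Module O L] [AddCommGroup L0] [Module O L0]
  [Module.Free O L0] {q : ℕ} (S : CycStepW O L L0 q)

theorem res_injective_W (hq : (q : O) ≠ 0) : Function.Injective S.res := by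
  intro y y' h
  have h1 := congrArg S.cores h
  rw [S.cores_res, S.cores_res] at h1
  exact smul_right_injective L0 hq h1

theorem cores_D_W (hq : (q : O) ≠ 0) (x : L) : S.cores (S.D x) = S.cores x := by
  apply res_injective_W S hq
  rw [S.res_cores, S.res_cores]
  have h : ∀ i, (S.D ^ i) (S.D x) = (S.D ^ (i + 1)) x := by
    intro i
    rw [pow_succ, Module.End.mul_apply]
  simp only [h]
  have e1 := Finset.sum_range_succ' (fun i => (S.D ^ i) x) q
  have e2 := Finset.sum_range_succ (fun i => (S.D ^ i) x) q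
  rw [e1] at e2
  simp only [pow_zero, Module.End.one_apply, S.D_pow] at e2
  exact add_right_cancel e2

end Abs

/-- **coinvariants of one diamond = the primary part one level down**, for a WEAK step with the
integral corestriction facts transported from a full step (twin of `L1Iso.exists_coinvEquiv_abs`). -/
theorem exists_coinvEquiv_abs_w {O : Type} [CommRing O] [IsDomain O] [IsPrincipalIdealRing O]
    [IsLocalRing O] [IsAdicComplete (IsLocalRing.maximalIdeal O) O] {A : Type} [CommRing A]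
    [Algebra O A] (𝔪 : Ideal A) [𝔪.IsMaximal] {M0 : Type} [AddCommGroup M0] [Module O M0]
    {act0 : A →ₐ[O] Module.End O M0} {k : ℕ} {N : Fin k → ℕ} (F : FreeLevel O A M0 act0 k N)
    {L L0 : Type} [AddCommGroup L] [Module O L] [Module.Finite O L] [Module.Free O L]
    [AddCommGroup L0] [Module O L0] [Module.Finite O L0] [Module.Free O L0]
    (actL : A →ₐ[O] Module.End O L) (actL0 : A →ₐ[O] Module.End O L0)
    (E : Fin k → Module.End O L) (R : Realizes F actL 𝔪 E) (q : ℕ) (hq : (q : O) ≠ 0)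
    (CS : CycStepW O L L0 q) (hD : ∀ a x, CS.D (actL a x) = actL a (CS.D x))
    (hcores : ∀ a x, CS.cores (actL a x) = actL0 a (CS.cores x))
    (i0 : Fin k) (hi0 : E i0 = CS.D)
    {L' L0' : Type*} [AddCommGroup L'] [Module O L'] [AddCommGroup L0'] [Module O L0']
    (CS' : CycStep O L' L0' q) (υ : A) (hυ : υ ∉ 𝔪)
    (T : Transport CS CS' (actL υ) (actL0 υ)) :
    ∃ e : (F.M ⧸ chiRange (F.D i0) (1 : O)) ≃ₗ[O] Base.locSub actL0 𝔪,
      ∀ x : F.M, ((e (Submodule.Quotient.mk x) : Base.locSub actL0 𝔪) : L0)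
        = CS.cores (R.ι x) := by
  let instL : Module A L := Module.compHom L actL.toRingHom
  have towL : IsScalarTower O A L := ⟨fun o a x => by
    show actL (o • a) x = o • actL a x
    rw [map_smul]
    rfl⟩
  let instL0 : Module A L0 := Module.compHom L0 actL0.toRingHom
  have towL0 : IsScalarTower O A L0 := ⟨fun o a x => by
    show actL0 (o • a) x = o • actL0 a x
    rw [map_smul]
    rfl⟩
  have hact : ∀ a x, actL a x = a • x := fun _ _ => rfl
  have hact0 : ∀ a x, actL0 a x = a • x := fun _ _ => rfl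
  let T' : Transport CS CS' (Algebra.lsmul O O L υ) (Algebra.lsmul O O L0 υ) :=
    { a := T.a, b := T.b, a0 := T.a0, b0 := T.b0
      ba := fun x => T.ba x
      ba0 := fun y => T.ba0 y
      cores_a := T.cores_a
      cores_b := T.cores_b
      D_b := T.D_b }
  have hmem : ∀ x : F.M, (CS.cores ∘ₗ R.ι) x ∈ Base.locSub actL0 𝔪 := by
    intro x
    have hx : IsLoc actL 𝔪 (R.ι x) := (R.range _).1 ⟨x, rfl⟩
    intro s hs
    obtain ⟨y, hy⟩ := hx s hs
    exact ⟨CS.cores y, by rw [← hcores, hy]; rfl⟩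
  let c : F.M →ₗ[O] Base.locSub actL0 𝔪 :=
    LinearMap.codRestrict (Base.locSub actL0 𝔪) (CS.cores ∘ₗ R.ι) hmem
  have hsurj : Function.Surjective c := by
    intro y
    have hy : (y : L0) ∈ locPart 𝔪 L0 := (isLoc_iff_mem_locPart 𝔪 actL0 hact0 _).1 y.2
    obtain ⟨x, hx, hxy⟩ := cores_surjOn_of_transport 𝔪 CS CS' hcores υ hυ T' hy
    have hx' : IsLoc actL 𝔪 x := (isLoc_iff_mem_locPart 𝔪 actL hact x).2 hx
    obtain ⟨x0, rfl⟩ := (R.range x).2 hx'
    exact ⟨x0, Subtype.ext hxy⟩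
  have hker : LinearMap.ker c = chiRange (F.D i0) (1 : O) := by
    ext x
    rw [LinearMap.mem_ker, mem_chiRange]
    constructor
    · intro h
      have h0 : CS.cores (R.ι x) = 0 := congrArg Subtype.val h
      have hx : R.ι x ∈ locPart 𝔪 L :=
        (isLoc_iff_mem_locPart 𝔪 actL hact _).1 ((R.range _).1 ⟨x, rfl⟩)
      obtain ⟨y, hy, hxy⟩ := ker_cores_on_of_transport 𝔪 CS CS' hD hcores υ hυ T' hx h0
      obtain ⟨y0, rfl⟩ := (R.range y).2 ((isLoc_iff_mem_locPart 𝔪 actL hact y).2 hy)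
      refine ⟨y0, R.inj ?_⟩
      rw [map_sub, one_smul, R.ι_D, hi0, hxy]
    · rintro ⟨y, rfl⟩
      apply Subtype.ext
      show CS.cores (R.ι (F.D i0 y - (1 : O) • y)) = 0
      rw [one_smul, map_sub, R.ι_D, hi0, map_sub, cores_D_W CS hq, sub_self]
  exact ⟨(Submodule.quotEquivOfEq _ _ hker.symm).trans (c.quotKerEquivOfSurjective hsurj),
    fun x => rfl⟩

/-! ### lifting elements of `Γ₀(N)` to `Γ₀(N r)` with the same character value -/

section Lift

variable {N : ℕ} [NeZero N]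

/-- every value of `χ_θ` on `Γ₀(N)` is a value of `χ_{θ ∘ mod N}` on `Γ₀(N r)` (CRT). -/
theorem exists_lift_gamma0 {Δ : Type} [CommGroup Δ] (θ : (ZMod N)ˣ →* Δ) (r : ℕ) [NeZero (N * r)]
    (g : Gamma0 N) : ∃ g' : Gamma0 (N * r), chi (thQ θ r) g' = chi θ g := by
  obtain ⟨v, hv⟩ := ZMod.unitsMap_surjective (Nat.dvd_mul_right N r) (dUnits N g)
  obtain ⟨g', hg'⟩ := GamH.dUnits_surjective (N := N * r) v
  refine ⟨g', ?_⟩
  rw [chi_apply, chi_apply, MonoidHom.comp_apply, hg', hv]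

end Lift

/-! ### the full step and the transport -/

section Inst

variable {N : ℕ} [NeZero N] (Sy : Symbols N)
variable (O : Type) [CommRing O] [Module.IsTorsionFree ℤ O]
variable {Δ Δ'' : Type} [CommGroup Δ] [CommGroup Δ''] (θ : (ZMod N)ˣ →* Δ) (π : Δ →* Δ'')
  [Fintype π.ker]

/-- **the full step at level `N r` and the transport to it** (`r = Sy.ℓ ir ≡ 2 (mod 3)`). -/
theorem exists_transport_aux
    (rep : π.ker → Gamma0 N) (hrep : ∀ δ : π.ker, chi θ (rep δ) = (δ : Δ))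
    (d0 : Gamma0 N) (hd0 : chi θ d0 ∈ π.ker) (q : ℕ)
    (hq' : ∀ a : O, (q : O) * a = 0 → a = 0)
    (hord : orderOf (chi θ d0) = q) (hcard : Fintype.card π.ker = q)
    (hneg : θ (-1) = 1) (h2 : ¬ 2 ∣ q)
    (ir : Sy.ι₁) (hr3 : Sy.ℓ ir % 3 = 2) (s0 : Sy.ι₁) :
    haveI := Sy.factℓ s0
    ∃ (CS' : CycStep O (Additive (GamH.GammaH (thQ θ (Sy.ℓ ir))) →+ O)
        (Additive (GamH.GammaH (π.comp (thQ θ (Sy.ℓ ir)))) →+ O) q),
      Nonempty (Transport
        (cycStepKKW embR_injective (chi θ) π rep hrep (GamH.heckeSysD (Sy.hℓN s0))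
          (GamH.compat_heckeSysD θ (Sy.hℓN s0)) O q d0 hd0 hord hcard hq' :
          CycStepW O (Additive (GamH.GammaH θ) →+ O) (Additive (GamH.GammaH (π.comp θ)) →+ O) q)
        CS' (actH Sy O θ (MvPolynomial.X (Sum.inl ir)))
        (actH Sy O (π.comp θ) (MvPolynomial.X (Sum.inl ir)))) := by
  classical
  haveI := Sy.factℓ s0
  haveI hfr : Fact (Sy.ℓ ir).Prime := Sy.factℓ ir
  have hrp : (Sy.ℓ ir).Prime := Sy.hℓ ir
  haveI hNr : NeZero (N * Sy.ℓ ir) := ⟨Nat.mul_ne_zero (NeZero.ne N) hrp.ne_zero⟩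
  haveI hfiq : (GamH.GammaH (thQ θ (Sy.ℓ ir))).FiniteIndex :=
    finiteIndex_GammaH_g (thQ θ (Sy.ℓ ir))
  haveI hfiq' : (GamH.GammaH (π.comp (thQ θ (Sy.ℓ ir)))).FiniteIndex :=
    finiteIndex_GammaH_g (π.comp (thQ θ (Sy.ℓ ir)))
  haveI : Fintype (SL(2, ℤ) ⧸ kerSub (chi (thQ θ (Sy.ℓ ir)))) :=
    (GamH.GammaH (thQ θ (Sy.ℓ ir))).fintypeQuotientOfFiniteIndex
  haveI : Fintype (SL(2, ℤ) ⧸ kerSub (π.comp (chi (thQ θ (Sy.ℓ ir))))) :=
    (GamH.GammaH (π.comp (thQ θ (Sy.ℓ ir)))).fintypeQuotientOfFiniteIndex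
  -- the lifted representatives at level `N r`
  have hlift : ∀ g : Gamma0 N, ∃ g' : Gamma0 (N * Sy.ℓ ir),
      chi (thQ θ (Sy.ℓ ir)) g' = chi θ g := fun g => exists_lift_gamma0 θ (Sy.ℓ ir) g
  choose lift hlift' using hlift
  let rep' : π.ker → Gamma0 (N * Sy.ℓ ir) := fun δ => lift (rep δ)
  have hrep' : ∀ δ : π.ker, chi (thQ θ (Sy.ℓ ir)) (rep' δ) = (δ : Δ) := fun δ =>
    (hlift' (rep δ)).trans (hrep δ)
  let d0' : Gamma0 (N * Sy.ℓ ir) := lift d0
  have hd : chi (thQ θ (Sy.ℓ ir)) d0' = chi θ d0 := hlift' d0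
  have hd0' : chi (thQ θ (Sy.ℓ ir)) d0' ∈ π.ker := by rw [hd]; exact hd0
  have hord' : orderOf (chi (thQ θ (Sy.ℓ ir)) d0') = q := by rw [hd]; exact hord
  -- a Hecke system at level `N r`
  obtain ⟨ℓ', hℓ'gt, hℓ'p⟩ := Nat.exists_infinite_primes (N * Sy.ℓ ir + 1)
  haveI : Fact ℓ'.Prime := ⟨hℓ'p⟩
  have hℓ'N : ¬ ℓ' ∣ N * Sy.ℓ ir := fun hdvd =>
    absurd (Nat.le_of_dvd (Nat.pos_of_ne_zero (NeZero.ne _)) hdvd) (by omega)
  have hm1 : ZMod.unitsMap (Nat.dvd_mul_right N (Sy.ℓ ir)) (-1) = -1 := by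
    apply Units.ext
    rw [ZMod.unitsMap_def, Units.coe_map, Units.val_neg, Units.val_neg, Units.val_one]
    simp
  have hneg' : thQ θ (Sy.ℓ ir) (-1) = 1 := by
    rw [MonoidHom.comp_apply, hm1, hneg]
  -- the full step at level `N r`
  let CS' : CycStep O (Additive (GamH.GammaH (thQ θ (Sy.ℓ ir))) →+ O)
      (Additive (GamH.GammaH (π.comp (thQ θ (Sy.ℓ ir)))) →+ O) q :=
    Fermat.Agent.GE8.CaseB3.CycPlug3.cycStepKKSL3 embR_injective (chi (thQ θ (Sy.ℓ ir))) π rep'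
      hrep' (GamH.heckeSysD hℓ'N) (GamH.compat_heckeSysD (thQ θ (Sy.ℓ ir)) hℓ'N) O q d0' hd0'
      hord' hcard hq' (neg_one_mem_GammaH_g (thQ θ (Sy.ℓ ir)) hneg') h2
      (Or.inr (Fermat.Agent.GE8.CaseB3.UFree.no_conj_U_mem hrp (Dvd.intro_left N rfl) hr3 le_rfl))
  obtain ⟨a, b, a0, b0, hba, hba0, hca, hcb, hDb⟩ :=
    DegRClose.degR (Sy.hℓN ir) O θ π rep hrep rep' hrep' d0 d0' hd
  exact ⟨CS', ⟨{ a := a, b := b, a0 := a0, b0 := b0
                 ba := fun x => (hba x).trans (actH_X_inl Sy O θ ir x).symm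
                 ba0 := fun y => (hba0 y).trans (actH_X_inl Sy O (π.comp θ) ir y).symm
                 cores_a := fun x => hca x
                 cores_b := fun x' => hcb x'
                 D_b := fun x' => hDb x' }⟩⟩

/-- **a full step and a transport to it under `Ok3A`**: the level-`N` step itself if `p ≠ 3`
(`υ = 1`), the level-`N r` step otherwise (`υ = T_r`). -/
theorem exists_transport_ok (𝔪 : Ideal (Sy.𝕋 O)) [𝔪.IsMaximal]
    (rep : π.ker → Gamma0 N) (hrep : ∀ δ : π.ker, chi θ (rep δ) = (δ : Δ))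
    (d0 : Gamma0 N) (hd0 : chi θ d0 ∈ π.ker) (p n : ℕ) (hp : p.Prime)
    (hq' : ∀ a : O, ((p ^ n : ℕ) : O) * a = 0 → a = 0)
    (hord : orderOf (chi θ d0) = p ^ n) (hcard : Fintype.card π.ker = p ^ n)
    (hneg : θ (-1) = 1) (h2 : ¬ 2 ∣ p ^ n) (hp3 : Ok3A Sy 𝔪 p) (s0 : Sy.ι₁) :
    haveI := Sy.factℓ s0
    ∃ (L' L0' : Type) (_ : AddCommGroup L') (_ : Module O L') (_ : AddCommGroup L0')
      (_ : Module O L0') (CS' : CycStep O L' L0' (p ^ n)) (υ : Sy.𝕋 O), υ ∉ 𝔪 ∧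
      Nonempty (Transport
        (cycStepKKW embR_injective (chi θ) π rep hrep (GamH.heckeSysD (Sy.hℓN s0))
          (GamH.compat_heckeSysD θ (Sy.hℓN s0)) O (p ^ n) d0 hd0 hord hcard hq' :
          CycStepW O (Additive (GamH.GammaH θ) →+ O) (Additive (GamH.GammaH (π.comp θ)) →+ O)
            (p ^ n))
        CS' (actH Sy O θ υ) (actH Sy O (π.comp θ) υ)) := by
  classical
  haveI := Sy.factℓ s0
  rcases hp3 with hp3 | ⟨ir, hr3, hXr⟩
  · haveI hfi : (GamH.GammaH θ).FiniteIndex := finiteIndex_GammaH_g θ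
    haveI hfi' : (GamH.GammaH (π.comp θ)).FiniteIndex := finiteIndex_GammaH_g (π.comp θ)
    haveI : Fintype (SL(2, ℤ) ⧸ kerSub (chi θ)) :=
      (GamH.GammaH θ).fintypeQuotientOfFiniteIndex
    haveI : Fintype (SL(2, ℤ) ⧸ kerSub (π.comp (chi θ))) :=
      (GamH.GammaH (π.comp θ)).fintypeQuotientOfFiniteIndex
    let CS' : CycStep O (Additive (GamH.GammaH θ) →+ O) (Additive (GamH.GammaH (π.comp θ)) →+ O)
        (p ^ n) :=
      cycStepKKSL embR_injective (chi θ) π rep hrep (GamH.heckeSysD (Sy.hℓN s0))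
        (GamH.compat_heckeSysD θ (Sy.hℓN s0)) O (p ^ n) d0 hd0 hord hcard hq'
        (neg_one_mem_GammaH_g θ hneg) h2 (not_dvd_prime_pow_g hp Nat.prime_three hp3 _)
    refine ⟨_, _, inferInstance, inferInstance, inferInstance, inferInstance, CS', 1,
      fun h1 => (Ideal.IsMaximal.ne_top ‹𝔪.IsMaximal›) ((Ideal.eq_top_iff_one 𝔪).2 h1), ⟨?_⟩⟩
    exact
      { a := LinearMap.id, b := LinearMap.id, a0 := LinearMap.id, b0 := LinearMap.id
        ba := fun x => by rw [map_one]; rfl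
        ba0 := fun y => by rw [map_one]; rfl
        cores_a := fun x => rfl
        cores_b := fun x' => rfl
        D_b := fun x' => rfl }
  · obtain ⟨CS', ⟨T⟩⟩ := exists_transport_aux Sy O θ π rep hrep d0 hd0 (p ^ n) hq' hord hcard
      hneg h2 ir hr3 s0
    exact ⟨_, _, inferInstance, inferInstance, inferInstance, inferInstance, CS',
      MvPolynomial.X (Sum.inl ir), hXr, ⟨T⟩⟩

end Inst

/-! ### the two consumers -/

section Main

variable {N : ℕ} [NeZero N] (Sy : Symbols N)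
variable {O : Type} [CommRing O] [IsDomain O] [IsPrincipalIdealRing O] [IsLocalRing O]
  [IsAdicComplete (IsLocalRing.maximalIdeal O) O] [Module.IsTorsionFree ℤ O]
variable (𝔪 : Ideal (Sy.𝕋 O)) [𝔪.IsMaximal]
variable {M0 : Type} [AddCommGroup M0] [Module O M0] {act0 : Sy.𝕋 O →ₐ[O] Module.End O M0}
variable {k : ℕ} {Nk : Fin k → ℕ} (F : FreeLevel O (Sy.𝕋 O) M0 act0 k Nk)
variable {Δ Δ'' : Type} [CommGroup Δ] [CommGroup Δ''] (θ : (ZMod N)ˣ →* Δ) (π : Δ →* Δ'')
  [Fintype π.ker]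

/-- **the concrete step of the tower under `Ok3A`** (statement of `StepInst.exists_step_inst` with
`diaLin`, `tauOf` spelled `dLin`, `tauG`, and `(h3 : ¬ 3 ∣ p ^ n)` ↦ `(hp3 : Ok3A Sy 𝔪 p)`). -/
theorem exists_step_inst_gen
    (rep : π.ker → Gamma0 N) (hrep : ∀ δ : π.ker, chi θ (rep δ) = (δ : Δ))
    (d0 : Gamma0 N) (hd0 : chi θ d0 ∈ π.ker)
    (ϖ : O) (hϖ0 : ϖ ≠ 0) (hmax : IsLocalRing.maximalIdeal O = Ideal.span {ϖ})
    (p n : ℕ) (hp : p.Prime) (hpϖ : (p : O) ∈ Ideal.span {ϖ}) (hq : ((p ^ n : ℕ) : O) ≠ 0)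
    (hord : orderOf (chi θ d0) = p ^ n) (hcard : Fintype.card π.ker = p ^ n)
    (hneg : θ (-1) = 1) (h2 : ¬ 2 ∣ p ^ n) (hp3 : Ok3A Sy 𝔪 p)
    (s0 : Sy.ι₁) (hτ : tauG Sy O s0 ∉ 𝔪)
    (d : Fin k → Gamma0 N) (hdpow : ∀ i, chi θ (d i ^ Nk i) = 1)
    (R : Realizes F (actH Sy O (π.comp θ)) 𝔪 (fun i => dLin O (π.comp θ) (d i))) :
    ∃ F' : FreeLevel O (Sy.𝕋 O) M0 act0 (k + 1) (Fin.cons (p ^ n) Nk : Fin (k + 1) → ℕ),
      Nonempty (Realizes F' (actH Sy O θ) 𝔪
        (fun i => dLin O θ ((Fin.cons d0 d : Fin (k + 1) → Gamma0 N) i))) := by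
  classical
  haveI := Sy.factℓ s0
  haveI hfi : (GamH.GammaH θ).FiniteIndex := finiteIndex_GammaH_g θ
  haveI hfi' : (GamH.GammaH (π.comp θ)).FiniteIndex := finiteIndex_GammaH_g (π.comp θ)
  haveI : Module.Finite O (Additive (GamH.GammaH θ) →+ O) :=
    HomFree.homFinite_SL2Z (GamH.GammaH θ) O
  haveI : Module.Free O (Additive (GamH.GammaH θ) →+ O) :=
    HomFree.homFree_SL2Z (GamH.GammaH θ) O
  haveI : Module.Finite O (Additive (GamH.GammaH (π.comp θ)) →+ O) :=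
    HomFree.homFinite_SL2Z (GamH.GammaH (π.comp θ)) O
  haveI : Module.Free O (Additive (GamH.GammaH (π.comp θ)) →+ O) :=
    HomFree.homFree_SL2Z (GamH.GammaH (π.comp θ)) O
  have hq' : ∀ a : O, ((p ^ n : ℕ) : O) * a = 0 → a = 0 := fun a ha =>
    (mul_eq_zero.1 ha).resolve_left hq
  let CS : CycStepW O (Additive (GamH.GammaH θ) →+ O) (Additive (GamH.GammaH (π.comp θ)) →+ O)
      (p ^ n) :=
    cycStepKKW embR_injective (chi θ) π rep hrep (GamH.heckeSysD (Sy.hℓN s0))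
      (GamH.compat_heckeSysD θ (Sy.hℓN s0)) O (p ^ n) d0 hd0 hord hcard hq'
  obtain ⟨L', L0', i1, i2, i3, i4, CS', υ, hυ, ⟨T⟩⟩ := exists_transport_ok Sy O θ π 𝔪 rep hrep d0
    hd0 p n hp hq' hord hcard hneg h2 hp3 s0
  have hDeq : CS.D = dLin O θ d0 := rfl
  obtain ⟨F', ⟨R'⟩⟩ := exists_step_aux 𝔪 F (actH Sy O θ) (actH Sy O (π.comp θ))
    (fun i => dLin O θ (d i)) (fun i => dLin O (π.comp θ) (d i)) R
    ϖ hϖ0 hmax p n hp hpϖ hq CS
    (fun a x => diaH_act Sy O θ d0 a x)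
    (fun a x => coresHH_act Sy O θ π rep hrep a x)
    (fun a y => resHH_act Sy O θ π a y)
    (tauG Sy O s0) hτ
    (fun x => by
      have h1 : CS.t x = GamH.TH θ O (Sy.hℓN s0) x
          - Fintype.card (GamH.heckeSysD (N := N) (Sy.hℓN s0)).ι • x := rfl
      rw [h1, tauG, map_sub, LinearMap.sub_apply, actH_X_inl, actH_C, GamH.heckeSysD_card,
        Nat.cast_smul_eq_nsmul])
    (fun y => by
      have h1 : CS.t0 y = GamH.TH (π.comp θ) O (Sy.hℓN s0) y
          - Fintype.card (GamH.heckeSysD (N := N) (Sy.hℓN s0)).ι • y := rfl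
      rw [h1, tauG, map_sub, LinearMap.sub_apply, actH_X_inl, actH_C, GamH.heckeSysD_card,
        Nat.cast_smul_eq_nsmul])
    (fun i => dLin_pow O θ (d i) (Nk i) (hdpow i))
    (fun i j => dLin_comm O θ (d i) (d j))
    (fun i => by rw [hDeq]; exact dLin_comm O θ d0 (d i))
    (fun a i => by
      refine LinearMap.ext fun x => ?_
      exact (diaH_act Sy O θ (d i) a x).symm)
    (fun i x => GamH.coresHH_diaH θ π rep hrep (d i) x)
    CS' υ hυ T
  refine ⟨F', ⟨?_⟩⟩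
  have hE : (Fin.cons CS.D (fun i => dLin O θ (d i)) :
        Fin (k + 1) → Module.End O (Additive (GamH.GammaH θ) →+ O))
      = fun i => dLin O θ ((Fin.cons d0 d : Fin (k + 1) → Gamma0 N) i) := by
    funext i
    refine Fin.cases ?_ (fun j => ?_) i
    · rw [Fin.cons_zero, Fin.cons_zero, hDeq]
    · rw [Fin.cons_succ, Fin.cons_succ]
  rw [← hE]
  exact R'

/-- **coinvariants of one diamond of a realised level = the primary part one level down, under
`Ok3A`** (generic form of `L1Iso.exists_coinvEquiv_succ`: any two consecutive levels `θ`,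
`π ∘ θ`, any realised level one of whose diamonds is `⟨d0⟩`). -/
theorem exists_coinvEquiv_gen
    (rep : π.ker → Gamma0 N) (hrep : ∀ δ : π.ker, chi θ (rep δ) = (δ : Δ))
    (d0 : Gamma0 N) (hd0 : chi θ d0 ∈ π.ker)
    (p n : ℕ) (hp : p.Prime) (hq : ((p ^ n : ℕ) : O) ≠ 0)
    (hord : orderOf (chi θ d0) = p ^ n) (hcard : Fintype.card π.ker = p ^ n)
    (hneg : θ (-1) = 1) (h2 : ¬ 2 ∣ p ^ n) (hp3 : Ok3A Sy 𝔪 p) (s0 : Sy.ι₁)
    (E : Fin k → Module.End O (Additive (GamH.GammaH θ) →+ O))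
    (R : Realizes F (actH Sy O θ) 𝔪 E) (i0 : Fin k) (hi0 : E i0 = dLin O θ d0) :
    ∃ e : (F.M ⧸ chiRange (F.D i0) (1 : O)) ≃ₗ[O] Base.locSub (actH Sy O (π.comp θ)) 𝔪,
      ∀ x : F.M,
        ((e (Submodule.Quotient.mk x) : Base.locSub (actH Sy O (π.comp θ)) 𝔪) :
            Additive (GamH.GammaH (π.comp θ)) →+ O)
          = GamH.coresHH θ π rep hrep O (R.ι x) := by
  classical
  haveI := Sy.factℓ s0
  haveI hfi : (GamH.GammaH θ).FiniteIndex := finiteIndex_GammaH_g θ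
  haveI hfi' : (GamH.GammaH (π.comp θ)).FiniteIndex := finiteIndex_GammaH_g (π.comp θ)
  haveI : Module.Finite O (Additive (GamH.GammaH θ) →+ O) :=
    HomFree.homFinite_SL2Z (GamH.GammaH θ) O
  haveI : Module.Free O (Additive (GamH.GammaH θ) →+ O) :=
    HomFree.homFree_SL2Z (GamH.GammaH θ) O
  haveI : Module.Finite O (Additive (GamH.GammaH (π.comp θ)) →+ O) :=
    HomFree.homFinite_SL2Z (GamH.GammaH (π.comp θ)) O
  haveI : Module.Free O (Additive (GamH.GammaH (π.comp θ)) →+ O) :=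
    HomFree.homFree_SL2Z (GamH.GammaH (π.comp θ)) O
  have hq' : ∀ a : O, ((p ^ n : ℕ) : O) * a = 0 → a = 0 := fun a ha =>
    (mul_eq_zero.1 ha).resolve_left hq
  let CS : CycStepW O (Additive (GamH.GammaH θ) →+ O) (Additive (GamH.GammaH (π.comp θ)) →+ O)
      (p ^ n) :=
    cycStepKKW embR_injective (chi θ) π rep hrep (GamH.heckeSysD (Sy.hℓN s0))
      (GamH.compat_heckeSysD θ (Sy.hℓN s0)) O (p ^ n) d0 hd0 hord hcard hq'
  obtain ⟨L', L0', i1, i2, i3, i4, CS', υ, hυ, ⟨T⟩⟩ := exists_transport_ok Sy O θ π 𝔪 rep hrep d0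
    hd0 p n hp hq' hord hcard hneg h2 hp3 s0
  exact exists_coinvEquiv_abs_w 𝔪 F (actH Sy O θ) (actH Sy O (π.comp θ)) E R (p ^ n) hq CS
    (fun a x => diaH_act Sy O θ d0 a x)
    (fun a x => coresHH_act Sy O θ π rep hrep a x)
    i0 hi0 CS' υ hυ T

end Main

end StepGen

end Fermat.Agent.GE8.P3B
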