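/-
GATE-E / RISK-5 (OK3-FREENESS), fix (B), step (B4) (helper6): **the PROVIDER-LEVEL form of the
relaxed `p ≠ 3`**.

Below the Taylor–Wiles sets (`GB/B3`, `B4`, `B5`, `B7`, `B8`, `GE8/RaiseP/P2`) the twins of the
`GE8/P3B` tree carry `hp3 : Ok3A Sy 𝔪 p` (helper86, `GE8/P3B/StepGen.lean`), a statement about the
Hecke symbols `Sy` and the maximal ideal `𝔪`.  From `GB/B9/ProviderFlat/G1` upwards the symbols and
the ideal are FUNCTIONS of the Taylor–Wiles set `Q` (`Q.Sy`, `Q.𝔪`), and several statements bind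
`hp3` BEFORE `Q`; there the twins carry the `Q`-independent

  `Ok3W p W := p ≠ 3 ∨ W.IsSemistableModel`,

converted to `Ok3A Q.Sy Q.𝔪 p` inside the twin of `G1.TWSet.hyp` (and of `Setup/B3Plug`) by the
auxiliary good symbol of helper44 / helper10 (`AuxR`): for semistable `W` with irreducible `ρ̄` there
is a good prime `r ≡ 11 (mod 12)` with `a_r(W) ≢ 0 (mod 3)`.

This file is CONE-FREE (Mathlib + Prelude only).
-/
import Mathlib
import Fermat.Prelude.Def_FLTPrelim_Modularity

set_option autoImplicit false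

namespace Fermat.Agent.GE8.P3B

/-- **the provider-level relaxed form of `p ≠ 3`**: either `p ≠ 3`, or the model `W` is semistable
(so that an auxiliary good symbol `T_r`, `r ≡ 2 (mod 3)`, unit at every `𝔪_Q`, exists). -/
def Ok3W (p : ℕ) (W : WeierstrassCurve ℤ) : Prop :=
  p ≠ 3 ∨ W.IsSemistableModel

namespace Ok3W

variable {p : ℕ} {W : WeierstrassCurve ℤ}

theorem of_ne (h : p ≠ 3) : Ok3W p W := Or.inl h

theorem of_five_le (h : 5 ≤ p) : Ok3W p W := Or.inl (by omega)

theorem of_semistable (h : W.IsSemistableModel) : Ok3W p W := Or.inr h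

/-- case analysis (spelled out: `Ok3W` is a `def`, not a notation) -/
theorem elim' {C : Prop} (h : Ok3W p W) (h₁ : p ≠ 3 → C) (h₂ : W.IsSemistableModel → C) : C :=
  Or.elim h h₁ h₂

end Ok3W

end Fermat.Agent.GE8.P3B
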