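/-
GATE-E / RISK-5 (OK3-FREENESS), fix (B), step (B4) (helper6): **the auxiliary good symbol at `p = 3`
for the canonical symbols, over the TWIN `GE8/P3B/GB/Setup/MQ`** — helper44's
`GE8/P3B/AuxSymbol.{X_inl_notMem_mQW_iff, intCast_ne_zero_of_sq_ne, exists_aux_symbol, auxOk3_std}`
VERBATIM (his file imports the ORIGINAL `MQ` and `G1`, so it cannot be cited by the twins, and it
sits ABOVE `G1`, where the conversion is needed), plus the conversion

  `ok3A_std : Ok3W p W → Ok3A (stdSymbols W p N r hr hrN) (mQW P (stdSymbols W p N r hr hrN) u) p`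

consumed by the twins of `GB/B9/ProviderFlat/G1` (`TWSet.hyp`) and `GB/Setup/B3Plug`.

No original module of the `GB/B3/StepInst` cone is in the import closure of this file.
-/
import Mathlib
import Fermat.Agent.GE8.P3B.GB.Setup.MQ
import Fermat.Agent.GE8.AuxR.Sigma
import Fermat.Agent.GE8.P3B.StepGen
import Fermat.Agent.GE8.P3B.Ok3W

set_option autoImplicit false
set_option linter.unusedSectionVars false
set_option linter.unusedVariables false
set_option linter.dupNamespace false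

open IsLocalRing MvPolynomial

namespace Fermat.Agent.GE8.P3B

namespace AuxStd

open Fermat.Agent.GB.B3.HeckeActH Fermat.Agent.GB.Setup.SetupPkg
  Fermat.Agent.GE8.P3B.GB.Setup.MQ

variable {p : ℕ} [hpF : Fact p.Prime] {W : WeierstrassCurve ℤ}
  {hcard₁ : Nat.card (Submodule.torsionBy ℤ
    ((W.map (Int.castRingHom ℚ)).toAffine.baseChange (AlgebraicClosure ℚ)).Point p) = p ^ 2}
  {hker : GaloisFactorsThroughFiniteLevel
    (WeierstrassCurve.Affine.Point.galoisRepModuleEnd (K := AlgebraicClosure ℚ) ℚ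
      (W.map (Int.castRingHom ℚ)) p)}
  {M A : ℕ}

/-- a good symbol lies outside `𝔪_Q` iff its residual eigenvalue is nonzero -/
theorem X_inl_notMem_mQW_iff (P : Pkg p W hcard₁ hker M A) {N : ℕ} (Sy : Symbols N)
    (u : Sy.ι₂ → P.k) (i : Sy.ι₁) :
    (X (Sum.inl i) : Sy.𝕋 P.O) ∉ mQW P Sy u ↔ ((W.apOfModel (Sy.ℓ i) : ℤ) : P.k) ≠ 0 := by
  unfold mQW
  rw [mem_mQ_iff, evalK_X_inl]
  rfl

/-- at `p = 3`: `a² ≠ (r + 1)²` in `ZMod p` and `r % 12 = 11` force `a ≠ 0` in `k` -/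
theorem intCast_ne_zero_of_sq_ne (P : Pkg p W hcard₁ hker M A) (hp3 : p = 3) {r : ℕ}
    (h12 : r % 12 = 11) {a : ℤ} (ha : ((a : ZMod p)) ^ 2 ≠ ((r : ZMod p) + 1) ^ 2) :
    ((a : ℤ) : P.k) ≠ 0 := by
  have hr1 : ((r : ZMod p) + 1) = 0 := by
    have h : ((r + 1 : ℕ) : ZMod p) = 0 := by
      rw [ZMod.natCast_eq_zero_iff, hp3]
      omega
    rw [Nat.cast_add, Nat.cast_one] at h
    exact h
  rw [hr1] at ha
  have ha0 : (a : ZMod p) ≠ 0 := fun h => ha (by rw [h])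
  intro h
  apply ha0
  have h2 : algebraMap (ZMod p) P.k ((a : ℤ) : ZMod p) = 0 := by
    rw [map_intCast]
    exact h
  exact (algebraMap (ZMod p) P.k).injective (by rw [h2, map_zero])

/-- **the auxiliary good symbol at `p = 3`**, canonical symbols -/
theorem exists_aux_symbol (P : Pkg p W hcard₁ hker M A) (hss : W.IsSemistableModel)
    (hp3 : p = 3) {N : ℕ} [NeZero N] {ι₂ : Type} (r : ι₂ → ℕ) (hr : ∀ j, (r j).Prime)
    (hrN : ∀ j, r j ∣ N) (u : ι₂ → P.k) :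
    ∃ i : (stdSymbols W p N r hr hrN).ι₁,
      (stdSymbols W p N r hr hrN).ℓ i % 3 = 2 ∧
        (X (Sum.inl i) : (stdSymbols W p N r hr hrN).𝕋 P.O)
          ∉ mQW P (stdSymbols W p N r hr hrN) u := by
  obtain ⟨r₀, hr₀, hr₀N, h12, hr₀p, hgood, har⟩ :=
    Fermat.Agent.GE8.AuxR.Sigma.exists_aux_prime_not_dvd W (p := p) hss P.hΔ P.hp2 P.hirr
      (NeZero.ne N)
  refine ⟨⟨r₀, hr₀, hgood, hr₀N, hr₀p⟩, ?_, ?_⟩
  · show r₀ % 3 = 2
    omega
  · rw [X_inl_notMem_mQW_iff]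
    exact intCast_ne_zero_of_sq_ne P hp3 h12 har

/-- the disjunctive form, canonical symbols -/
theorem auxOk3_std (P : Pkg p W hcard₁ hker M A) (hss : W.IsSemistableModel)
    {N : ℕ} [NeZero N] {ι₂ : Type} (r : ι₂ → ℕ) (hr : ∀ j, (r j).Prime)
    (hrN : ∀ j, r j ∣ N) (u : ι₂ → P.k) :
    p ≠ 3 ∨ ∃ i : (stdSymbols W p N r hr hrN).ι₁,
      (stdSymbols W p N r hr hrN).ℓ i % 3 = 2 ∧
        (X (Sum.inl i) : (stdSymbols W p N r hr hrN).𝕋 P.O)
          ∉ mQW P (stdSymbols W p N r hr hrN) u := by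
  by_cases hp3 : p = 3
  · exact Or.inr (exists_aux_symbol P hss hp3 r hr hrN u)
  · exact Or.inl hp3

/-- **`Ok3W p W ⟹ Ok3A Sy 𝔪 p`** at the canonical symbols `Sy = stdSymbols W p N r` and the
ideal `𝔪 = mQW P Sy u` (every Taylor–Wiles set: `Q.Sy`, `Q.𝔪` are of this form). -/
theorem ok3A_std (P : Pkg p W hcard₁ hker M A) (hp3 : Ok3W p W)
    {N : ℕ} [NeZero N] {ι₂ : Type} (r : ι₂ → ℕ) (hr : ∀ j, (r j).Prime)
    (hrN : ∀ j, r j ∣ N) (u : ι₂ → P.k) :
    Ok3A (stdSymbols W p N r hr hrN) (mQW P (stdSymbols W p N r hr hrN) u) p :=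
  Or.elim hp3 Or.inl (fun hss => auxOk3_std P hss r hr hrN u)

end AuxStd

end Fermat.Agent.GE8.P3B
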