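/-
GATE-E / RISK-5 (OK3-FREENESS), fix (B), the CONCRETE step (helper86): **the step of the
Taylor–Wiles tower at `p = 3`** — twin of `GB/B3/StepInst.exists_step_inst` with the binder
`h3 : ¬ 3 ∣ p ^ n` replaced by an AUXILIARY good prime `r = Sy.ℓ ir ≡ 2 (mod 3)` with `T_r ∉ 𝔪`
(and the degeneracy pair `Seam.DegRStmt` at `r`, leaf (B2)).

* `cycStepKKW`             : the WEAK cyclic step between two levels of one character
                             (`CycInst.cycStepKK` minus its two model binders — no `h3` anywhere);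
* `exists_lift_gamma0`     : `Γ₀(N r) → Γ₀(N)`-lifting of the diamond representatives (CRT);
* **`exists_step_inst_aux`** : `StepAbsAux.exists_step_aux` instantiated: weak step at level `N`,
                             FULL step at level `N r` = helper24's `CycPlug3.cycStepKKSL3` with
                             `Or.inr (UFree.no_conj_U_mem …)`, transport = (B2).
-/
import Mathlib
import Fermat.Agent.GB.B3.StepInst
import Fermat.Agent.GE8.CaseB3.CycPlug3
import Fermat.Agent.GE8.CaseB3.UFree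
import Fermat.Agent.GE8.P3B.StepAbsAux
import Fermat.Agent.GE8.P3B.DegRStmt

set_option autoImplicit false
set_option linter.unusedSectionVars false
set_option linter.unusedVariables false
set_option linter.style.haveILetI false

open scoped MatrixGroups
open CongruenceSubgroup

namespace Fermat.Agent.GE8.P3B.StepInstAux

open Fermat.Agent.GM.B Fermat.Agent.GB.B3 Fermat.Agent.GB.B3.EisGamma0
  Fermat.Agent.GB.B3.CycInst Fermat.Agent.GB.B3.CycPlug Fermat.Agent.GB.B3.FreeCyclic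
  Fermat.Agent.GB.B3.TWLevel Fermat.Agent.GB.B3.RealLevel Fermat.Agent.GB.B3.HeckeActH
  Fermat.Agent.GB.B3.HeckeAct Fermat.Agent.GB.B3.StepInst
  Fermat.Agent.GE8.P3B.StepAbsAux Fermat.Agent.GE8.P3B.Seam Fermat.Agent.GB.B7.UqSq

/-! ### the weak cyclic step between two levels of one character -/

section StepKKW

variable {H G : Type*} [Group H] [Group G] {emb : H →* G}
variable (hemb : Function.Injective emb) {Γ : Subgroup H} {Δ Δ'' : Type} [CommGroup Δ]
  [Group Δ''] (χ : Γ →* Δ) (π : Δ →* Δ'') [Fintype π.ker] (r : π.ker → Γ)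
  (hr : ∀ δ : π.ker, χ (r δ) = (δ : Δ)) (S : CosetSys emb Γ Γ) (h : Compat S χ)
  (O : Type*) [CommRing O] (q : ℕ) (d0 : Γ)

/-- **the weak cyclic step between two levels of one character** = `CycInst.cycStepKK` without the
two model binders. -/
noncomputable def cycStepKKW (hd0 : χ d0 ∈ π.ker) (hord : orderOf (χ d0) = q)
    (hcard : Fintype.card π.ker = q)
    (hq : ∀ a : O, (q : O) * a = 0 → a = 0) :
    CycStepW O (Additive (kerSub χ) →+ O) (Additive (kerSub (π.comp χ)) →+ O) q where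
  D := opLin O (diaK emb χ d0)
  res := opLin O (resKK χ π emb)
  cores := opLin O (coresKK χ π r hr emb)
  t := opLin O (kerSys S χ h) - Fintype.card S.ι • LinearMap.id
  t0 := opLin O (kerSys S (π.comp χ) (h.comp χ π)) - Fintype.card S.ι • LinearMap.id
  D_pow := by
    refine LinearMap.ext fun ψ => ?_
    rw [dia_pow_order χ O q d0 hord, Module.End.one_apply]
  res_cores x := by
    rw [opLin_apply, opLin_apply]
    exact resKK_coresKK_eq_sum_pow χ π r hr O q d0 hd0 hord hcard x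
  cores_res y := by
    rw [opLin_apply, opLin_apply, coresKK_resKK, hcard, Nat.cast_smul_eq_nsmul]
  t_D x := by
    simp only [LinearMap.sub_apply, LinearMap.smul_apply, LinearMap.id_apply, map_sub, map_nsmul]
    rw [opLin_apply, opLin_apply, opLin_apply, opLin_apply, dia_kerSys_op hemb S χ h d0 x]
  res_t0 y := by
    simp only [LinearMap.sub_apply, LinearMap.smul_apply, LinearMap.id_apply, map_sub, map_nsmul]
    rw [opLin_apply, opLin_apply, opLin_apply, opLin_apply, kerSys_op_resKK χ π S h y]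
  cores_t x := by
    simp only [LinearMap.sub_apply, LinearMap.smul_apply, LinearMap.id_apply, map_sub, map_nsmul]
    rw [opLin_apply, opLin_apply, opLin_apply, opLin_apply,
      coresKK_kerSys_op χ π r hr hemb S h x]
  eis ψ := by
    rintro ⟨z, hz⟩
    have hA : ∀ a : O, q • a = 0 → a = 0 := by
      intro a ha
      rw [nsmul_eq_mul] at ha
      exact hq a ha
    have hψ : ∀ g : kerSub (π.comp χ), chiK χ π g = 1 →
        ∃ a : O, ψ (Additive.ofMul g) = q • a := by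
      intro g hg
      have hg' : χ (kerIncl (π.comp χ) g) = 1 := by
        have := congrArg Subtype.val hg
        rwa [coe_chiK] at this
      refine ⟨z (Additive.ofMul (kerMk χ (kerIncl (π.comp χ) g) hg')), ?_⟩
      have h1 := DFunLike.congr_fun hz (Additive.ofMul (kerMk χ (kerIncl (π.comp χ) g) hg'))
      rw [opLin_apply, resKK_op_apply] at h1
      have e : upIncl χ π (kerMk χ (kerIncl (π.comp χ) g) hg') = g := Subtype.ext rfl
      rw [e] at h1
      rw [h1, AddMonoidHom.smul_apply, smul_eq_mul, nsmul_eq_mul]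
    obtain ⟨ψ', hψ'⟩ := Eis.exists_op_sub_card_nsmul_eq_nsmul
      (kerSys S (π.comp χ) (h.comp χ π)) (chiK χ π) (fun _ => 1)
      (fun g i => by rw [mul_one, mul_one, chiK_kerSys_c χ π S h g i]) q hA ψ hψ
    refine ⟨ψ', ?_⟩
    rw [LinearMap.sub_apply, LinearMap.smul_apply, LinearMap.id_apply, opLin_apply]
    have hc : Fintype.card (kerSys S (π.comp χ) (h.comp χ π)).ι = Fintype.card S.ι := rfl
    rw [hc] at hψ'
    rw [hψ', Nat.cast_smul_eq_nsmul]

end StepKKW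

/-! ### lifting elements of `Γ₀(N)` to `Γ₀(N r)` with the same character value -/

section Lift

variable {N : ℕ} [NeZero N]

/-- every value of `χ_θ` on `Γ₀(N)` is a value of `χ_{θ ∘ mod N}` on `Γ₀(N r)` (CRT). -/
theorem exists_lift_gamma0 {Δ : Type} [CommGroup Δ] (θ : (ZMod N)ˣ →* Δ) (r : ℕ) [NeZero (N * r)]
    (g : Gamma0 N) : ∃ g' : Gamma0 (N * r), chi (thQ θ r) g' = chi θ g := by
  obtain ⟨v, hv⟩ := ZMod.unitsMap_surjective (Nat.dvd_mul_right N r) (dUnits N g)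
  obtain ⟨g', hg'⟩ := GamH.dUnits_surjective (N := N * r) v
  refine ⟨g', ?_⟩
  rw [chi_apply, chi_apply, MonoidHom.comp_apply, hg', hv]

end Lift

/-! ### the concrete step -/

section Main

variable {N : ℕ} [NeZero N] (Sy : Symbols N)
variable {O : Type} [CommRing O] [IsDomain O] [IsPrincipalIdealRing O] [IsLocalRing O]
  [IsAdicComplete (IsLocalRing.maximalIdeal O) O] [Module.IsTorsionFree ℤ O]
variable (𝔪 : Ideal (Sy.𝕋 O)) [𝔪.IsMaximal]
variable {M0 : Type} [AddCommGroup M0] [Module O M0] {act0 : Sy.𝕋 O →ₐ[O] Module.End O M0}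
variable {k : ℕ} {Nk : Fin k → ℕ} (F : FreeLevel O (Sy.𝕋 O) M0 act0 k Nk)
variable {Δ Δ'' : Type} [CommGroup Δ] [CommGroup Δ''] (θ : (ZMod N)ˣ →* Δ) (π : Δ →* Δ'')
  [Fintype π.ker]

/-- **the concrete step of the tower, `3 ∣ p ^ n` allowed**: the binder `h3` of
`StepInst.exists_step_inst` is replaced by an auxiliary good prime `r = Sy.ℓ ir ≡ 2 (mod 3)` whose
Hecke symbol is a unit at `𝔪`, and the degeneracy pair (B2) at `r`. -/
theorem exists_step_inst_aux
    (rep : π.ker → Gamma0 N) (hrep : ∀ δ : π.ker, chi θ (rep δ) = (δ : Δ))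
    (d0 : Gamma0 N) (hd0 : chi θ d0 ∈ π.ker)
    (ϖ : O) (hϖ0 : ϖ ≠ 0) (hmax : IsLocalRing.maximalIdeal O = Ideal.span {ϖ})
    (p n : ℕ) (hp : p.Prime) (hpϖ : (p : O) ∈ Ideal.span {ϖ}) (hq : ((p ^ n : ℕ) : O) ≠ 0)
    (hord : orderOf (chi θ d0) = p ^ n) (hcard : Fintype.card π.ker = p ^ n)
    (hneg : θ (-1) = 1) (h2 : ¬ 2 ∣ p ^ n)
    (ir : Sy.ι₁) (hr3 : Sy.ℓ ir % 3 = 2)
    (hXr : (MvPolynomial.X (Sum.inl ir) : Sy.𝕋 O) ∉ 𝔪)
    (hDeg : haveI := Sy.factℓ ir; DegRStmt N (Sy.ℓ ir) (Sy.hℓN ir))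
    (s0 : Sy.ι₁) (hτ : tauOf Sy O s0 ∉ 𝔪)
    (d : Fin k → Gamma0 N) (hdpow : ∀ i, chi θ (d i ^ Nk i) = 1)
    (R : Realizes F (actH Sy O (π.comp θ)) 𝔪 (fun i => diaLin O (π.comp θ) (d i))) :
    ∃ F' : FreeLevel O (Sy.𝕋 O) M0 act0 (k + 1) (Fin.cons (p ^ n) Nk : Fin (k + 1) → ℕ),
      Nonempty (Realizes F' (actH Sy O θ) 𝔪
        (fun i => diaLin O θ ((Fin.cons d0 d : Fin (k + 1) → Gamma0 N) i))) := by
  classical
  haveI := Sy.factℓ s0
  haveI hfr : Fact (Sy.ℓ ir).Prime := Sy.factℓ ir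
  have hrp : (Sy.ℓ ir).Prime := Sy.hℓ ir
  haveI hNr : NeZero (N * Sy.ℓ ir) := ⟨Nat.mul_ne_zero (NeZero.ne N) hrp.ne_zero⟩
  haveI hfi : (GamH.GammaH θ).FiniteIndex := finiteIndex_GammaH θ
  haveI hfi' : (GamH.GammaH (π.comp θ)).FiniteIndex := finiteIndex_GammaH (π.comp θ)
  haveI hfiq : (GamH.GammaH (thQ θ (Sy.ℓ ir))).FiniteIndex :=
    finiteIndex_GammaH (thQ θ (Sy.ℓ ir))
  haveI hfiq' : (GamH.GammaH (π.comp (thQ θ (Sy.ℓ ir)))).FiniteIndex :=
    finiteIndex_GammaH (π.comp (thQ θ (Sy.ℓ ir)))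
  haveI : Fintype (SL(2, ℤ) ⧸ kerSub (chi θ)) :=
    (GamH.GammaH θ).fintypeQuotientOfFiniteIndex
  haveI : Fintype (SL(2, ℤ) ⧸ kerSub (π.comp (chi θ))) :=
    (GamH.GammaH (π.comp θ)).fintypeQuotientOfFiniteIndex
  haveI : Fintype (SL(2, ℤ) ⧸ kerSub (chi (thQ θ (Sy.ℓ ir)))) :=
    (GamH.GammaH (thQ θ (Sy.ℓ ir))).fintypeQuotientOfFiniteIndex
  haveI : Fintype (SL(2, ℤ) ⧸ kerSub (π.comp (chi (thQ θ (Sy.ℓ ir))))) :=
    (GamH.GammaH (π.comp (thQ θ (Sy.ℓ ir)))).fintypeQuotientOfFiniteIndex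
  haveI : Module.Finite O (Additive (GamH.GammaH θ) →+ O) :=
    HomFree.homFinite_SL2Z (GamH.GammaH θ) O
  haveI : Module.Free O (Additive (GamH.GammaH θ) →+ O) :=
    HomFree.homFree_SL2Z (GamH.GammaH θ) O
  haveI : Module.Finite O (Additive (GamH.GammaH (π.comp θ)) →+ O) :=
    HomFree.homFinite_SL2Z (GamH.GammaH (π.comp θ)) O
  haveI : Module.Free O (Additive (GamH.GammaH (π.comp θ)) →+ O) :=
    HomFree.homFree_SL2Z (GamH.GammaH (π.comp θ)) O
  have hq' : ∀ a : O, ((p ^ n : ℕ) : O) * a = 0 → a = 0 := fun a ha =>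
    (mul_eq_zero.1 ha).resolve_left hq
  -- the lifted representatives at level `N r`
  have hlift : ∀ g : Gamma0 N, ∃ g' : Gamma0 (N * Sy.ℓ ir),
      chi (thQ θ (Sy.ℓ ir)) g' = chi θ g := fun g => exists_lift_gamma0 θ (Sy.ℓ ir) g
  choose lift hlift' using hlift
  let rep' : π.ker → Gamma0 (N * Sy.ℓ ir) := fun δ => lift (rep δ)
  have hrep' : ∀ δ : π.ker, chi (thQ θ (Sy.ℓ ir)) (rep' δ) = (δ : Δ) := fun δ =>
    (hlift' (rep δ)).trans (hrep δ)
  let d0' : Gamma0 (N * Sy.ℓ ir) := lift d0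
  have hd : chi (thQ θ (Sy.ℓ ir)) d0' = chi θ d0 := hlift' d0
  have hd0' : chi (thQ θ (Sy.ℓ ir)) d0' ∈ π.ker := by rw [hd]; exact hd0
  have hord' : orderOf (chi (thQ θ (Sy.ℓ ir)) d0') = p ^ n := by rw [hd]; exact hord
  -- a Hecke system at level `N r`
  obtain ⟨ℓ', hℓ'gt, hℓ'p⟩ := Nat.exists_infinite_primes (N * Sy.ℓ ir + 1)
  haveI : Fact ℓ'.Prime := ⟨hℓ'p⟩
  have hℓ'N : ¬ ℓ' ∣ N * Sy.ℓ ir := fun hdvd =>
    absurd (Nat.le_of_dvd (Nat.pos_of_ne_zero (NeZero.ne _)) hdvd) (by omega)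
  have hm1 : ZMod.unitsMap (Nat.dvd_mul_right N (Sy.ℓ ir)) (-1) = -1 := by
    apply Units.ext
    rw [ZMod.unitsMap_def, Units.coe_map, Units.val_neg, Units.val_neg, Units.val_one]
    simp
  have hneg' : thQ θ (Sy.ℓ ir) (-1) = 1 := by
    rw [MonoidHom.comp_apply, hm1, hneg]
  -- the weak step at level `N`
  let CS : CycStepW O (Additive (GamH.GammaH θ) →+ O) (Additive (GamH.GammaH (π.comp θ)) →+ O)
      (p ^ n) :=
    cycStepKKW embR_injective (chi θ) π rep hrep (GamH.heckeSysD (Sy.hℓN s0))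
      (GamH.compat_heckeSysD θ (Sy.hℓN s0)) O (p ^ n) d0 hd0 hord hcard hq'
  -- the full step at level `N r`
  let CS' : CycStep O (Additive (GamH.GammaH (thQ θ (Sy.ℓ ir))) →+ O)
      (Additive (GamH.GammaH (π.comp (thQ θ (Sy.ℓ ir)))) →+ O) (p ^ n) :=
    Fermat.Agent.GE8.CaseB3.CycPlug3.cycStepKKSL3 embR_injective (chi (thQ θ (Sy.ℓ ir))) π rep' hrep'
      (GamH.heckeSysD hℓ'N) (GamH.compat_heckeSysD (thQ θ (Sy.ℓ ir)) hℓ'N) O (p ^ n) d0' hd0'
      hord' hcard hq' (neg_one_mem_GammaH (thQ θ (Sy.ℓ ir)) hneg') h2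
      (Or.inr (Fermat.Agent.GE8.CaseB3.UFree.no_conj_U_mem hrp (Dvd.intro_left N rfl) hr3 le_rfl))
  have hDeq : CS.D = diaLin O θ d0 := rfl
  -- the transport
  obtain ⟨a, b, a0, b0, hba, hba0, hca, hcb, hDb⟩ :=
    hDeg O θ π rep hrep rep' hrep' d0 d0' hd
  let T : Transport CS CS' (actH Sy O θ (MvPolynomial.X (Sum.inl ir)))
      (actH Sy O (π.comp θ) (MvPolynomial.X (Sum.inl ir))) :=
    { a := a, b := b, a0 := a0, b0 := b0
      ba := fun x => by rw [actH_X_inl]; exact hba x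
      ba0 := fun y => by rw [actH_X_inl]; exact hba0 y
      cores_a := fun x => hca x
      cores_b := fun x' => hcb x'
      D_b := fun x' => hDb x' }
  obtain ⟨F', ⟨R'⟩⟩ := exists_step_aux 𝔪 F (actH Sy O θ) (actH Sy O (π.comp θ))
    (fun i => diaLin O θ (d i)) (fun i => diaLin O (π.comp θ) (d i)) R
    ϖ hϖ0 hmax p n hp hpϖ hq CS
    (fun a x => diaH_act Sy O θ d0 a x)
    (fun a x => coresHH_act Sy O θ π rep hrep a x)
    (fun a y => resHH_act Sy O θ π a y)
    (tauOf Sy O s0) hτ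
    (fun x => by
      have h1 : CS.t x = GamH.TH θ O (Sy.hℓN s0) x
          - Fintype.card (GamH.heckeSysD (N := N) (Sy.hℓN s0)).ι • x := rfl
      rw [h1, tauOf, map_sub, LinearMap.sub_apply, actH_X_inl, actH_C, GamH.heckeSysD_card,
        Nat.cast_smul_eq_nsmul])
    (fun y => by
      have h1 : CS.t0 y = GamH.TH (π.comp θ) O (Sy.hℓN s0) y
          - Fintype.card (GamH.heckeSysD (N := N) (Sy.hℓN s0)).ι • y := rfl
      rw [h1, tauOf, map_sub, LinearMap.sub_apply, actH_X_inl, actH_C, GamH.heckeSysD_card,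
        Nat.cast_smul_eq_nsmul])
    (fun i => diaLin_pow O θ (d i) (Nk i) (hdpow i))
    (fun i j => diaLin_comm O θ (d i) (d j))
    (fun i => by rw [hDeq]; exact diaLin_comm O θ d0 (d i))
    (fun a i => by
      refine LinearMap.ext fun x => ?_
      exact (diaH_act Sy O θ (d i) a x).symm)
    (fun i x => GamH.coresHH_diaH θ π rep hrep (d i) x)
    CS' (MvPolynomial.X (Sum.inl ir)) hXr T
  refine ⟨F', ⟨?_⟩⟩
  have hE : (Fin.cons CS.D (fun i => diaLin O θ (d i)) :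
        Fin (k + 1) → Module.End O (Additive (GamH.GammaH θ) →+ O))
      = fun i => diaLin O θ ((Fin.cons d0 d : Fin (k + 1) → Gamma0 N) i) := by
    funext i
    refine Fin.cases ?_ (fun j => ?_) i
    · rw [Fin.cons_zero, Fin.cons_zero, hDeq]
    · rw [Fin.cons_succ, Fin.cons_succ]
  rw [← hE]
  exact R'

end Main

end Fermat.Agent.GE8.P3B.StepInstAux
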