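/-
GATE-E / RISK-5 (OK3-FREENESS), fix (B) (helper86): **the transport data of one concrete tower
step**, factored out of `StepInstAux.exists_step_inst_aux` for its second consumer
(`L1Iso.exists_coinvEquiv_succ`: coinvariants of the newest diamond).

* `exists_transport_inst` : for two consecutive levels `θ`, `π ∘ θ` of the tower at level `N` and an
  auxiliary good prime `r = Sy.ℓ ir ≡ 2 (mod 3)`: a FULL cyclic step `CS'` at level `N r`
  (`CycPlug3.cycStepKKSL3` with `UFree.no_conj_U_mem`) and a `Transport` from the WEAK step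
  `cycStepKKW` at level `N` to it, with `b ∘ a = T_r` (`DegRStmt`).
* `cores_D_W` : `cores ∘ D = cores` for a weak step.
* `exists_coinvEquiv_abs_aux` : twin of `L1Iso.exists_coinvEquiv_abs` for a weak step + transport.
-/
import Mathlib
import Fermat.Agent.GB.B3.L1Iso
import Fermat.Agent.GE8.P3B.StepInstAux

set_option autoImplicit false
set_option linter.unusedSectionVars false
set_option linter.unusedVariables false
set_option linter.style.haveILetI false

open scoped MatrixGroups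
open CongruenceSubgroup

namespace Fermat.Agent.GE8.P3B.TransportInst

open Fermat.Agent.GM.B Fermat.Agent.GB.B3 Fermat.Agent.GB.B3.EisGamma0
  Fermat.Agent.GB.B3.CycInst Fermat.Agent.GB.B3.CycPlug Fermat.Agent.GB.B3.FreeCyclic
  Fermat.Agent.GB.B3.TWLevel Fermat.Agent.GB.B3.RealLevel Fermat.Agent.GB.B3.HeckeActH
  Fermat.Agent.GB.B3.HeckeAct Fermat.Agent.GB.B3.StepInst
  Fermat.Agent.GB.B3.Chi Fermat.Agent.GB.B3.LocSummand Fermat.Agent.GB.B3.Loc
  Fermat.Agent.GB.B3.Loc2 Fermat.Agent.GB.B3.StepAbs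
  Fermat.Agent.GE8.P3B.StepAbsAux Fermat.Agent.GE8.P3B.Seam Fermat.Agent.GB.B7.UqSq
  Fermat.Agent.GE8.P3B.StepInstAux

/-! ### the concrete transport -/

section Inst

variable {N : ℕ} [NeZero N] (Sy : Symbols N)
variable (O : Type) [CommRing O] [Module.IsTorsionFree ℤ O]
variable {Δ Δ'' : Type} [CommGroup Δ] [CommGroup Δ''] (θ : (ZMod N)ˣ →* Δ) (π : Δ →* Δ'')
  [Fintype π.ker]

/-- **the full step at level `N r` and the transport to it.** -/
theorem exists_transport_inst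
    (rep : π.ker → Gamma0 N) (hrep : ∀ δ : π.ker, chi θ (rep δ) = (δ : Δ))
    (d0 : Gamma0 N) (hd0 : chi θ d0 ∈ π.ker) (q : ℕ)
    (hq' : ∀ a : O, (q : O) * a = 0 → a = 0)
    (hord : orderOf (chi θ d0) = q) (hcard : Fintype.card π.ker = q)
    (hneg : θ (-1) = 1) (h2 : ¬ 2 ∣ q)
    (ir : Sy.ι₁) (hr3 : Sy.ℓ ir % 3 = 2)
    (hDeg : haveI := Sy.factℓ ir; DegRStmt N (Sy.ℓ ir) (Sy.hℓN ir))
    (s0 : Sy.ι₁) :
    haveI := Sy.factℓ s0
    ∃ (CS' : CycStep O (Additive (GamH.GammaH (thQ θ (Sy.ℓ ir))) →+ O)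
        (Additive (GamH.GammaH (π.comp (thQ θ (Sy.ℓ ir)))) →+ O) q),
      Nonempty (Transport
        (cycStepKKW embR_injective (chi θ) π rep hrep (GamH.heckeSysD (Sy.hℓN s0))
          (GamH.compat_heckeSysD θ (Sy.hℓN s0)) O q d0 hd0 hord hcard hq' :
          CycStepW O (Additive (GamH.GammaH θ) →+ O) (Additive (GamH.GammaH (π.comp θ)) →+ O) q)
        CS' (actH Sy O θ (MvPolynomial.X (Sum.inl ir)))
        (actH Sy O (π.comp θ) (MvPolynomial.X (Sum.inl ir)))) := by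
  classical
  haveI := Sy.factℓ s0
  haveI hfr : Fact (Sy.ℓ ir).Prime := Sy.factℓ ir
  have hrp : (Sy.ℓ ir).Prime := Sy.hℓ ir
  haveI hNr : NeZero (N * Sy.ℓ ir) := ⟨Nat.mul_ne_zero (NeZero.ne N) hrp.ne_zero⟩
  haveI hfiq : (GamH.GammaH (thQ θ (Sy.ℓ ir))).FiniteIndex :=
    finiteIndex_GammaH (thQ θ (Sy.ℓ ir))
  haveI hfiq' : (GamH.GammaH (π.comp (thQ θ (Sy.ℓ ir)))).FiniteIndex :=
    finiteIndex_GammaH (π.comp (thQ θ (Sy.ℓ ir)))
  haveI : Fintype (SL(2, ℤ) ⧸ kerSub (chi (thQ θ (Sy.ℓ ir)))) :=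
    (GamH.GammaH (thQ θ (Sy.ℓ ir))).fintypeQuotientOfFiniteIndex
  haveI : Fintype (SL(2, ℤ) ⧸ kerSub (π.comp (chi (thQ θ (Sy.ℓ ir))))) :=
    (GamH.GammaH (π.comp (thQ θ (Sy.ℓ ir)))).fintypeQuotientOfFiniteIndex
  -- the lifted representatives at level `N r`
  have hlift : ∀ g : Gamma0 N, ∃ g' : Gamma0 (N * Sy.ℓ ir),
      chi (thQ θ (Sy.ℓ ir)) g' = chi θ g := fun g => exists_lift_gamma0 θ (Sy.ℓ ir) g
  choose lift hlift' using hlift
  let rep' : π.ker → Gamma0 (N * Sy.ℓ ir) := fun δ => lift (rep δ)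
  have hrep' : ∀ δ : π.ker, chi (thQ θ (Sy.ℓ ir)) (rep' δ) = (δ : Δ) := fun δ =>
    (hlift' (rep δ)).trans (hrep δ)
  let d0' : Gamma0 (N * Sy.ℓ ir) := lift d0
  have hd : chi (thQ θ (Sy.ℓ ir)) d0' = chi θ d0 := hlift' d0
  have hd0' : chi (thQ θ (Sy.ℓ ir)) d0' ∈ π.ker := by rw [hd]; exact hd0
  have hord' : orderOf (chi (thQ θ (Sy.ℓ ir)) d0') = q := by rw [hd]; exact hord
  -- a Hecke system at level `N r`
  obtain ⟨ℓ', hℓ'gt, hℓ'p⟩ := Nat.exists_infinite_primes (N * Sy.ℓ ir + 1)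
  haveI : Fact ℓ'.Prime := ⟨hℓ'p⟩
  have hℓ'N : ¬ ℓ' ∣ N * Sy.ℓ ir := fun hdvd =>
    absurd (Nat.le_of_dvd (Nat.pos_of_ne_zero (NeZero.ne _)) hdvd) (by omega)
  have hm1 : ZMod.unitsMap (Nat.dvd_mul_right N (Sy.ℓ ir)) (-1) = -1 := by
    apply Units.ext
    rw [ZMod.unitsMap_def, Units.coe_map, Units.val_neg, Units.val_neg, Units.val_one]
    simp
  have hneg' : thQ θ (Sy.ℓ ir) (-1) = 1 := by
    rw [MonoidHom.comp_apply, hm1, hneg]
  -- the full step at level `N r`
  let CS' : CycStep O (Additive (GamH.GammaH (thQ θ (Sy.ℓ ir))) →+ O)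
      (Additive (GamH.GammaH (π.comp (thQ θ (Sy.ℓ ir)))) →+ O) q :=
    Fermat.Agent.GE8.CaseB3.CycPlug3.cycStepKKSL3 embR_injective (chi (thQ θ (Sy.ℓ ir))) π rep'
      hrep' (GamH.heckeSysD hℓ'N) (GamH.compat_heckeSysD (thQ θ (Sy.ℓ ir)) hℓ'N) O q d0' hd0'
      hord' hcard hq' (neg_one_mem_GammaH (thQ θ (Sy.ℓ ir)) hneg') h2
      (Or.inr (Fermat.Agent.GE8.CaseB3.UFree.no_conj_U_mem hrp (Dvd.intro_left N rfl) hr3 le_rfl))
  obtain ⟨a, b, a0, b0, hba, hba0, hca, hcb, hDb⟩ :=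
    hDeg O θ π rep hrep rep' hrep' d0 d0' hd
  exact ⟨CS', ⟨{ a := a, b := b, a0 := a0, b0 := b0
                 ba := fun x => (hba x).trans (actH_X_inl Sy O θ ir x).symm
                 ba0 := fun y => (hba0 y).trans (actH_X_inl Sy O (π.comp θ) ir y).symm
                 cores_a := fun x => hca x
                 cores_b := fun x' => hcb x'
                 D_b := fun x' => hDb x' }⟩⟩

end Inst

/-! ### the abstract coinvariants statement for a weak step -/

section Abs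

variable {O : Type} [CommRing O] [IsDomain O]
variable {L L0 : Type} [AddCommGroup L] [Module O L] [AddCommGroup L0] [Module O L0]
  [Module.Free O L0] {q : ℕ} (S : CycStepW O L L0 q)

theorem res_injective_W (hq : (q : O) ≠ 0) : Function.Injective S.res := by
  intro y y' h
  have h1 := congrArg S.cores h
  rw [S.cores_res, S.cores_res] at h1
  exact smul_right_injective L0 hq h1

theorem cores_D_W (hq : (q : O) ≠ 0) (x : L) : S.cores (S.D x) = S.cores x := by
  apply res_injective_W S hq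
  rw [S.res_cores, S.res_cores]
  have h : ∀ i, (S.D ^ i) (S.D x) = (S.D ^ (i + 1)) x := by
    intro i
    rw [pow_succ, Module.End.mul_apply]
  simp only [h]
  have e1 := Finset.sum_range_succ' (fun i => (S.D ^ i) x) q
  have e2 := Finset.sum_range_succ (fun i => (S.D ^ i) x) q
  rw [e1] at e2
  simp only [pow_zero, Module.End.one_apply, S.D_pow] at e2
  exact add_right_cancel e2

end Abs

/-- **coinvariants of one diamond = the primary part one level down**, for a WEAK step with the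
integral corestriction facts transported from a bigger level. -/
theorem exists_coinvEquiv_abs_aux {O : Type} [CommRing O] [IsDomain O] [IsPrincipalIdealRing O]
    [IsLocalRing O] [IsAdicComplete (IsLocalRing.maximalIdeal O) O] {A : Type} [CommRing A]
    [Algebra O A] (𝔪 : Ideal A) [𝔪.IsMaximal] {M0 : Type} [AddCommGroup M0] [Module O M0]
    {act0 : A →ₐ[O] Module.End O M0} {k : ℕ} {N : Fin k → ℕ} (F : FreeLevel O A M0 act0 k N)
    {L L0 : Type} [AddCommGroup L] [Module O L] [Module.Finite O L] [Module.Free O L]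
    [AddCommGroup L0] [Module O L0] [Module.Finite O L0] [Module.Free O L0]
    (actL : A →ₐ[O] Module.End O L) (actL0 : A →ₐ[O] Module.End O L0)
    (E : Fin k → Module.End O L) (R : Realizes F actL 𝔪 E) (q : ℕ) (hq : (q : O) ≠ 0)
    (CS : CycStepW O L L0 q) (hD : ∀ a x, CS.D (actL a x) = actL a (CS.D x))
    (hcores : ∀ a x, CS.cores (actL a x) = actL0 a (CS.cores x))
    (i0 : Fin k) (hi0 : E i0 = CS.D)
    {L' L0' : Type*} [AddCommGroup L'] [Module O L'] [AddCommGroup L0'] [Module O L0']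
    (CS' : CycStep O L' L0' q) (υ : A) (hυ : υ ∉ 𝔪)
    (T : Transport CS CS' (actL υ) (actL0 υ)) :
    ∃ e : (F.M ⧸ chiRange (F.D i0) (1 : O)) ≃ₗ[O] Base.locSub actL0 𝔪,
      ∀ x : F.M, ((e (Submodule.Quotient.mk x) : Base.locSub actL0 𝔪) : L0)
        = CS.cores (R.ι x) := by
  let instL : Module A L := Module.compHom L actL.toRingHom
  have towL : IsScalarTower O A L := ⟨fun o a x => by
    show actL (o • a) x = o • actL a x
    rw [map_smul]
    rfl⟩
  let instL0 : Module A L0 := Module.compHom L0 actL0.toRingHom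
  have towL0 : IsScalarTower O A L0 := ⟨fun o a x => by
    show actL0 (o • a) x = o • actL0 a x
    rw [map_smul]
    rfl⟩
  have hact : ∀ a x, actL a x = a • x := fun _ _ => rfl
  have hact0 : ∀ a x, actL0 a x = a • x := fun _ _ => rfl
  let T' : Transport CS CS' (Algebra.lsmul O O L υ) (Algebra.lsmul O O L0 υ) :=
    { a := T.a, b := T.b, a0 := T.a0, b0 := T.b0
      ba := fun x => T.ba x
      ba0 := fun y => T.ba0 y
      cores_a := T.cores_a
      cores_b := T.cores_b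
      D_b := T.D_b }
  have hmem : ∀ x : F.M, (CS.cores ∘ₗ R.ι) x ∈ Base.locSub actL0 𝔪 := by
    intro x
    have hx : IsLoc actL 𝔪 (R.ι x) := (R.range _).1 ⟨x, rfl⟩
    exact LocTransport.isLoc_map actL actL0 CS.cores.toAddMonoidHom hcores 𝔪 hx
  let c : F.M →ₗ[O] Base.locSub actL0 𝔪 :=
    LinearMap.codRestrict (Base.locSub actL0 𝔪) (CS.cores ∘ₗ R.ι) hmem
  have hsurj : Function.Surjective c := by
    intro y
    have hy : (y : L0) ∈ locPart 𝔪 L0 := (isLoc_iff_mem_locPart 𝔪 actL0 hact0 _).1 y.2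
    obtain ⟨x, hx, hxy⟩ := cores_surjOn_of_transport 𝔪 CS CS' hcores υ hυ T' hy
    have hx' : IsLoc actL 𝔪 x := (isLoc_iff_mem_locPart 𝔪 actL hact x).2 hx
    obtain ⟨x0, rfl⟩ := (R.range x).2 hx'
    exact ⟨x0, Subtype.ext hxy⟩
  have hker : LinearMap.ker c = chiRange (F.D i0) (1 : O) := by
    ext x
    rw [LinearMap.mem_ker, mem_chiRange]
    constructor
    · intro h
      have h0 : CS.cores (R.ι x) = 0 := congrArg Subtype.val h
      have hx : R.ι x ∈ locPart 𝔪 L :=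
        (isLoc_iff_mem_locPart 𝔪 actL hact _).1 ((R.range _).1 ⟨x, rfl⟩)
      obtain ⟨y, hy, hxy⟩ := ker_cores_on_of_transport 𝔪 CS CS' hD hcores υ hυ T' hx h0
      obtain ⟨y0, rfl⟩ := (R.range y).2 ((isLoc_iff_mem_locPart 𝔪 actL hact y).2 hy)
      refine ⟨y0, R.inj ?_⟩
      rw [map_sub, one_smul, R.ι_D, hi0, hxy]
    · rintro ⟨y, rfl⟩
      apply Subtype.ext
      show CS.cores (R.ι (F.D i0 y - (1 : O) • y)) = 0
      rw [one_smul, map_sub, R.ι_D, hi0, map_sub, cores_D_W CS hq, sub_self]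
  exact ⟨(Submodule.quotEquivOfEq _ _ hker.symm).trans (c.quotKerEquivOfSurjective hsurj),
    fun x => rfl⟩

end Fermat.Agent.GE8.P3B.TransportInst
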