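/-
GATE-E / RISK-5 (OK3-FREENESS), fix (B) (helper86): **`AuxOk3 Sy 𝔪 p`** — the relaxed form of the
hypothesis `p ≠ 3` of GATE-B's Taylor–Wiles tower that is ALWAYS available at `p = 3`:

  `AuxOk3 Sy 𝔪 p := p ≠ 3 ∨ ∃ ir : Sy.ι₁, Sy.ℓ ir % 3 = 2 ∧ X (inl ir) ∉ 𝔪`

(an auxiliary GOOD prime `r ≡ 2 (mod 3)` among the Hecke symbols whose `T_r` is a unit at `𝔪`; the
level is NOT touched).  The two places of `GB/B3` where `p ≠ 3` is consumed, over the ORIGINAL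
definitions of `GB/B3`:

* `exists_step_inst_ok`, `exists_step_inst_ok'` : `StepInst.exists_step_inst(')` with
  `(h3 : ¬ 3 ∣ p ^ n)` ↦ `(hp3 : AuxOk3 Sy 𝔪 p)`;
* `exists_coinvEquiv_succ_ok` : `L1Iso.exists_coinvEquiv_succ` with `(hp3 : p ≠ 3)` ↦
  `(hp3 : AuxOk3 Sy 𝔪 p)`.

`AuxOk3` does not see the level: `AuxOk3 (LocTransport.restrict Sy hrN) 𝔪 p ↔ AuxOk3 Sy 𝔪 p` is
`Iff.rfl` (`AuxOk3.restrict`), so the `hyp_restrict` cascade needs no extra binder.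
-/
import Mathlib
import Fermat.Agent.GB.B3.L1Iso
import Fermat.Agent.GE8.P3B.StepInstAux
import Fermat.Agent.GE8.P3B.TransportInst
import Fermat.Agent.GE8.P3B.DegRClose

set_option autoImplicit false
set_option linter.unusedSectionVars false
set_option linter.unusedVariables false
set_option linter.style.haveILetI false

open scoped MatrixGroups
open CongruenceSubgroup

namespace Fermat.Agent.GE8.P3B

open Fermat.Agent.GB.B3 Fermat.Agent.GB.B3.HeckeActH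

/-- **the relaxed form of `p ≠ 3`** for the symbols `Sy` and the maximal ideal `𝔪`: either
`p ≠ 3`, or one of the good primes of `Sy` is `≡ 2 (mod 3)` with Hecke symbol outside `𝔪`. -/
def AuxOk3 {N : ℕ} (Sy : Symbols N) {O : Type} [CommRing O] (𝔪 : Ideal (Sy.𝕋 O)) (p : ℕ) : Prop :=
  p ≠ 3 ∨ ∃ ir : Sy.ι₁, Sy.ℓ ir % 3 = 2 ∧ (MvPolynomial.X (Sum.inl ir) : Sy.𝕋 O) ∉ 𝔪

namespace AuxOk3

variable {N : ℕ} {Sy : Symbols N} {O : Type} [CommRing O] {𝔪 : Ideal (Sy.𝕋 O)} {p : ℕ}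

theorem of_ne (h : p ≠ 3) : AuxOk3 Sy 𝔪 p := Or.inl h

theorem of_five_le (h : 5 ≤ p) : AuxOk3 Sy 𝔪 p := Or.inl (by omega)

theorem of_aux (ir : Sy.ι₁) (hr3 : Sy.ℓ ir % 3 = 2)
    (hX : (MvPolynomial.X (Sum.inl ir) : Sy.𝕋 O) ∉ 𝔪) : AuxOk3 Sy 𝔪 p :=
  Or.inr ⟨ir, hr3, hX⟩

/-- a prime `≡ 11 (mod 12)` is `≡ 2 (mod 3)` (the auxiliary primes of `GE8/AuxR`). -/
theorem mod_three_of_mod_twelve {r : ℕ} (h : r % 12 = 11) : r % 3 = 2 := by omega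

theorem of_aux12 (ir : Sy.ι₁) (hr12 : Sy.ℓ ir % 12 = 11)
    (hX : (MvPolynomial.X (Sum.inl ir) : Sy.𝕋 O) ∉ 𝔪) : AuxOk3 Sy 𝔪 p :=
  of_aux ir (mod_three_of_mod_twelve hr12) hX

/-- `AuxOk3` does not see the level (`LocTransport.restrict` keeps the index types and the primes). -/
theorem restrict {q : ℕ} (Sy' : Symbols (N * q)) (hrN : ∀ j, Sy'.r j ∣ N) {𝔪' : Ideal (Sy'.𝕋 O)} :
    AuxOk3 (LocTransport.restrict Sy' hrN) 𝔪' p ↔ AuxOk3 Sy' 𝔪' p := Iff.rfl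

end AuxOk3

namespace StepOk

open Fermat.Agent.GM.B Fermat.Agent.GB.B3 Fermat.Agent.GB.B3.EisGamma0
  Fermat.Agent.GB.B3.CycInst Fermat.Agent.GB.B3.CycPlug Fermat.Agent.GB.B3.FreeCyclic
  Fermat.Agent.GB.B3.TWLevel Fermat.Agent.GB.B3.RealLevel Fermat.Agent.GB.B3.HeckeActH
  Fermat.Agent.GB.B3.HeckeAct Fermat.Agent.GB.B3.StepInst Fermat.Agent.GB.B3.Tower
  Fermat.Agent.GB.B3.Chi Fermat.Agent.GB.B3.LocSummand Fermat.Agent.GB.B3.Loc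
  Fermat.Agent.GB.B3.Loc2 Fermat.Agent.GB.B3.L1Iso
  Fermat.Agent.GE8.P3B.StepAbsAux Fermat.Agent.GE8.P3B.StepInstAux
  Fermat.Agent.GE8.P3B.TransportInst

/-! ### the step of the tower -/

section Step

variable {N : ℕ} [NeZero N] (Sy : Symbols N)
variable {O : Type} [CommRing O] [IsDomain O] [IsPrincipalIdealRing O] [IsLocalRing O]
  [IsAdicComplete (IsLocalRing.maximalIdeal O) O] [Module.IsTorsionFree ℤ O]
variable (𝔪 : Ideal (Sy.𝕋 O)) [𝔪.IsMaximal]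
variable {M0 : Type} [AddCommGroup M0] [Module O M0] {act0 : Sy.𝕋 O →ₐ[O] Module.End O M0}
variable {k : ℕ} {Nk : Fin k → ℕ} (F : FreeLevel O (Sy.𝕋 O) M0 act0 k Nk)
variable {Δ Δ'' : Type} [CommGroup Δ] [CommGroup Δ''] (θ : (ZMod N)ˣ →* Δ) (π : Δ →* Δ'')
  [Fintype π.ker]

/-- **the concrete step of the tower** under `AuxOk3`. -/
theorem exists_step_inst_ok
    (rep : π.ker → Gamma0 N) (hrep : ∀ δ : π.ker, chi θ (rep δ) = (δ : Δ))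
    (d0 : Gamma0 N) (hd0 : chi θ d0 ∈ π.ker)
    (ϖ : O) (hϖ0 : ϖ ≠ 0) (hmax : IsLocalRing.maximalIdeal O = Ideal.span {ϖ})
    (p n : ℕ) (hp : p.Prime) (hpϖ : (p : O) ∈ Ideal.span {ϖ}) (hq : ((p ^ n : ℕ) : O) ≠ 0)
    (hord : orderOf (chi θ d0) = p ^ n) (hcard : Fintype.card π.ker = p ^ n)
    (hneg : θ (-1) = 1) (h2 : ¬ 2 ∣ p ^ n) (hp3 : AuxOk3 Sy 𝔪 p)
    (s0 : Sy.ι₁) (hτ : tauOf Sy O s0 ∉ 𝔪)
    (d : Fin k → Gamma0 N) (hdpow : ∀ i, chi θ (d i ^ Nk i) = 1)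
    (R : Realizes F (actH Sy O (π.comp θ)) 𝔪 (fun i => diaLin O (π.comp θ) (d i))) :
    ∃ F' : FreeLevel O (Sy.𝕋 O) M0 act0 (k + 1) (Fin.cons (p ^ n) Nk : Fin (k + 1) → ℕ),
      Nonempty (Realizes F' (actH Sy O θ) 𝔪
        (fun i => diaLin O θ ((Fin.cons d0 d : Fin (k + 1) → Gamma0 N) i))) := by
  rcases hp3 with hp3 | ⟨ir, hr3, hXr⟩
  · exact exists_step_inst Sy 𝔪 F θ π rep hrep d0 hd0 ϖ hϖ0 hmax p n hp hpϖ hq hord hcard hneg h2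
      (not_dvd_prime_pow hp Nat.prime_three hp3 _) s0 hτ d hdpow R
  · haveI := Sy.factℓ ir
    exact exists_step_inst_aux Sy 𝔪 F θ π rep hrep d0 hd0 ϖ hϖ0 hmax p n hp hpϖ hq hord hcard
      hneg h2 ir hr3 hXr (DegRClose.degR (Sy.hℓN ir)) s0 hτ d hdpow R

/-- the same, the section of `χ_θ` over the cyclic group `ker π` built from the generator `d0`. -/
theorem exists_step_inst_ok'
    (d0 : Gamma0 N) (hd0 : chi θ d0 ∈ π.ker)
    (ϖ : O) (hϖ0 : ϖ ≠ 0) (hmax : IsLocalRing.maximalIdeal O = Ideal.span {ϖ})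
    (p n : ℕ) (hp : p.Prime) (hpϖ : (p : O) ∈ Ideal.span {ϖ}) (hq : ((p ^ n : ℕ) : O) ≠ 0)
    (hord : orderOf (chi θ d0) = p ^ n) (hcard : Fintype.card π.ker = p ^ n)
    (hneg : θ (-1) = 1) (h2 : ¬ 2 ∣ p ^ n) (hp3 : AuxOk3 Sy 𝔪 p)
    (s0 : Sy.ι₁) (hτ : tauOf Sy O s0 ∉ 𝔪)
    (d : Fin k → Gamma0 N) (hdpow : ∀ i, chi θ (d i ^ Nk i) = 1)
    (R : Realizes F (actH Sy O (π.comp θ)) 𝔪 (fun i => diaLin O (π.comp θ) (d i))) :
    ∃ F' : FreeLevel O (Sy.𝕋 O) M0 act0 (k + 1) (Fin.cons (p ^ n) Nk : Fin (k + 1) → ℕ),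
      Nonempty (Realizes F' (actH Sy O θ) 𝔪
        (fun i => diaLin O θ ((Fin.cons d0 d : Fin (k + 1) → Gamma0 N) i))) := by
  have hb := pow_bijectiveKK (chi θ) π (p ^ n) d0 hd0 hord hcard
  let rep : π.ker → Gamma0 N := fun δ => d0 ^ ((hb.2 δ).choose : ℕ)
  have hrep : ∀ δ : π.ker, chi θ (rep δ) = (δ : Δ) := by
    intro δ
    have h := (hb.2 δ).choose_spec
    show chi θ (d0 ^ ((hb.2 δ).choose : ℕ)) = (δ : Δ)
    rw [map_pow]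
    exact congrArg Subtype.val h
  exact exists_step_inst_ok Sy 𝔪 F θ π rep hrep d0 hd0 ϖ hϖ0 hmax p n hp hpϖ hq hord hcard hneg h2
    hp3 s0 hτ d hdpow R

end Step

/-! ### coinvariants of the newest diamond -/

section Coinv

variable {N : ℕ} [NeZero N] (Sy : Symbols N)
variable {O : Type} [CommRing O] [IsDomain O] [IsPrincipalIdealRing O] [IsLocalRing O]
  [IsAdicComplete (IsLocalRing.maximalIdeal O) O] [Module.IsTorsionFree ℤ O]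
variable (𝔪 : Ideal (Sy.𝕋 O)) [𝔪.IsMaximal]
variable {M0 : Type} [AddCommGroup M0] [Module O M0] {act0 : Sy.𝕋 O →ₐ[O] Module.End O M0}
variable (Δs : ℕ → Type) [∀ i, CommGroup (Δs i)] [∀ i, Fintype (Δs i)]
  (ψ : ∀ i, (ZMod N)ˣ →* Δs i)

/-- **coinvariants of the newest diamond = the primary part one stage down**, with an auxiliary
good prime `r ≡ 2 (mod 3)`, `T_r ∉ 𝔪`, in place of `p ≠ 3`. -/
theorem exists_coinvEquiv_succ_aux
    (p : ℕ) (hp : p.Prime) (hp0 : (p : O) ≠ 0)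
    (hp2 : p ≠ 2) (ir : Sy.ι₁) (hr3 : Sy.ℓ ir % 3 = 2)
    (hXr : (MvPolynomial.X (Sum.inl ir) : Sy.𝕋 O) ∉ 𝔪) (n : ℕ → ℕ) (dd : ℕ → Gamma0 N)
    (hcard : ∀ i, Fintype.card (Δs i) = p ^ n i)
    (hord : ∀ i, orderOf (ψ i (dUnits N (dd i))) = p ^ n i)
    (hoff : ∀ i j, i ≠ j → ψ i (dUnits N (dd j)) = 1)
    (hneg : ∀ i, ψ i (-1) = 1)
    (s0 : Sy.ι₁) (hτ : tauOf Sy O s0 ∉ 𝔪) (k : ℕ)
    (F' : FreeLevel O (Sy.𝕋 O) M0 act0 (k + 1) (Nfun p n (k + 1)))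
    (R' : Realizes F' (actH Sy O (Theta Δs ψ (k + 1))) 𝔪
      (fun i => diaLin O (Theta Δs ψ (k + 1)) (dfun dd (k + 1) i)))
    [Fintype (initHom Δs k).ker]
    (rep : (initHom Δs k).ker → Gamma0 N)
    (hrep : ∀ δ : (initHom Δs k).ker,
      chi (Theta Δs ψ (k + 1)) (rep δ) = (δ : ∀ i : Fin (k + 1), Δs i)) :
    ∃ e : (F'.M ⧸ chiRange (F'.D 0) (1 : O)) ≃ₗ[O]
        Base.locSub (actH Sy O (Theta Δs ψ k)) 𝔪,
      ∀ x : F'.M,
        ((e (Submodule.Quotient.mk x) : Base.locSub (actH Sy O (Theta Δs ψ k)) 𝔪) :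
            Additive (GamH.GammaH (Theta Δs ψ k)) →+ O)
          = GamH.coresHH (Theta Δs ψ (k + 1)) (initHom Δs k) rep hrep O (R'.ι x) := by
  classical
  haveI := Sy.factℓ s0
  haveI := Sy.factℓ ir
  haveI hfi : (GamH.GammaH (Theta Δs ψ (k + 1))).FiniteIndex :=
    finiteIndex_GammaH (Theta Δs ψ (k + 1))
  haveI hfi' : (GamH.GammaH ((initHom Δs k).comp (Theta Δs ψ (k + 1)))).FiniteIndex :=
    finiteIndex_GammaH ((initHom Δs k).comp (Theta Δs ψ (k + 1)))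
  haveI : Fintype (SL(2, ℤ) ⧸ kerSub (chi (Theta Δs ψ (k + 1)))) :=
    (GamH.GammaH (Theta Δs ψ (k + 1))).fintypeQuotientOfFiniteIndex
  haveI : Fintype (SL(2, ℤ) ⧸ kerSub ((initHom Δs k).comp (chi (Theta Δs ψ (k + 1))))) :=
    (GamH.GammaH ((initHom Δs k).comp (Theta Δs ψ (k + 1)))).fintypeQuotientOfFiniteIndex
  haveI : Module.Finite O (Additive (GamH.GammaH (Theta Δs ψ (k + 1))) →+ O) :=
    HomFree.homFinite_SL2Z (GamH.GammaH (Theta Δs ψ (k + 1))) O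
  haveI : Module.Free O (Additive (GamH.GammaH (Theta Δs ψ (k + 1))) →+ O) :=
    HomFree.homFree_SL2Z (GamH.GammaH (Theta Δs ψ (k + 1))) O
  haveI : Module.Finite O
      (Additive (GamH.GammaH ((initHom Δs k).comp (Theta Δs ψ (k + 1)))) →+ O) :=
    HomFree.homFinite_SL2Z (GamH.GammaH ((initHom Δs k).comp (Theta Δs ψ (k + 1)))) O
  haveI : Module.Free O
      (Additive (GamH.GammaH ((initHom Δs k).comp (Theta Δs ψ (k + 1)))) →+ O) :=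
    HomFree.homFree_SL2Z (GamH.GammaH ((initHom Δs k).comp (Theta Δs ψ (k + 1)))) O
  have hcardk := card_ker_initHom Δs p n hcard k
  have hd0 := chi_dd_mem_ker Δs ψ dd hoff k
  have hordk := orderOf_chi_dd Δs ψ p n dd hord hoff k
  have hnegk : Theta Δs ψ (k + 1) (-1) = 1 := by
    funext i
    exact hneg i
  have hq : ((p ^ n k : ℕ) : O) ≠ 0 := by
    rw [Nat.cast_pow]
    exact pow_ne_zero _ hp0
  have hq' : ∀ a : O, ((p ^ n k : ℕ) : O) * a = 0 → a = 0 := fun a ha =>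
    (mul_eq_zero.1 ha).resolve_left hq
  let CS : CycStepW O (Additive (GamH.GammaH (Theta Δs ψ (k + 1))) →+ O)
      (Additive (GamH.GammaH ((initHom Δs k).comp (Theta Δs ψ (k + 1)))) →+ O) (p ^ n k) :=
    cycStepKKW embR_injective (chi (Theta Δs ψ (k + 1))) (initHom Δs k) rep hrep
      (GamH.heckeSysD (Sy.hℓN s0)) (GamH.compat_heckeSysD (Theta Δs ψ (k + 1)) (Sy.hℓN s0)) O
      (p ^ n k) (dd k) hd0 hordk hcardk hq'
  obtain ⟨CS', ⟨T⟩⟩ := exists_transport_inst Sy O (Theta Δs ψ (k + 1)) (initHom Δs k) rep hrep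
    (dd k) hd0 (p ^ n k) hq' hordk hcardk hnegk (not_dvd_prime_pow hp Nat.prime_two hp2 _)
    ir hr3 (DegRClose.degR (Sy.hℓN ir)) s0
  have hDeq : CS.D = diaLin O (Theta Δs ψ (k + 1)) (dd k) := rfl
  exact exists_coinvEquiv_abs_aux 𝔪 F' (actH Sy O (Theta Δs ψ (k + 1)))
    (actH Sy O ((initHom Δs k).comp (Theta Δs ψ (k + 1)))) _ R' (p ^ n k) hq CS
    (fun a x => diaH_act Sy O (Theta Δs ψ (k + 1)) (dd k) a x)
    (fun a x => coresHH_act Sy O (Theta Δs ψ (k + 1)) (initHom Δs k) rep hrep a x)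
    0 (by
      show diaLin O (Theta Δs ψ (k + 1)) (dfun dd (k + 1) 0) = CS.D
      rw [hDeq, dfun_succ, Fin.cons_zero])
    CS' (MvPolynomial.X (Sum.inl ir)) hXr T

/-- **coinvariants of the newest diamond = the primary part one stage down** under `AuxOk3`. -/
theorem exists_coinvEquiv_succ_ok
    (p : ℕ) (hp : p.Prime) (hp0 : (p : O) ≠ 0)
    (hp2 : p ≠ 2) (hp3 : AuxOk3 Sy 𝔪 p) (n : ℕ → ℕ) (dd : ℕ → Gamma0 N)
    (hcard : ∀ i, Fintype.card (Δs i) = p ^ n i)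
    (hord : ∀ i, orderOf (ψ i (dUnits N (dd i))) = p ^ n i)
    (hoff : ∀ i j, i ≠ j → ψ i (dUnits N (dd j)) = 1)
    (hneg : ∀ i, ψ i (-1) = 1)
    (s0 : Sy.ι₁) (hτ : tauOf Sy O s0 ∉ 𝔪) (k : ℕ)
    (F' : FreeLevel O (Sy.𝕋 O) M0 act0 (k + 1) (Nfun p n (k + 1)))
    (R' : Realizes F' (actH Sy O (Theta Δs ψ (k + 1))) 𝔪
      (fun i => diaLin O (Theta Δs ψ (k + 1)) (dfun dd (k + 1) i)))
    [Fintype (initHom Δs k).ker]
    (rep : (initHom Δs k).ker → Gamma0 N)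
    (hrep : ∀ δ : (initHom Δs k).ker,
      chi (Theta Δs ψ (k + 1)) (rep δ) = (δ : ∀ i : Fin (k + 1), Δs i)) :
    ∃ e : (F'.M ⧸ chiRange (F'.D 0) (1 : O)) ≃ₗ[O]
        Base.locSub (actH Sy O (Theta Δs ψ k)) 𝔪,
      ∀ x : F'.M,
        ((e (Submodule.Quotient.mk x) : Base.locSub (actH Sy O (Theta Δs ψ k)) 𝔪) :
            Additive (GamH.GammaH (Theta Δs ψ k)) →+ O)
          = GamH.coresHH (Theta Δs ψ (k + 1)) (initHom Δs k) rep hrep O (R'.ι x) := by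
  rcases hp3 with hp3 | ⟨ir, hr3, hXr⟩
  · exact exists_coinvEquiv_succ Sy 𝔪 Δs ψ p hp hp0 hp2 hp3 n dd hcard hord hoff hneg s0 hτ k F' R'
      rep hrep
  · exact exists_coinvEquiv_succ_aux Sy 𝔪 Δs ψ p hp hp0 hp2 ir hr3 hXr n dd hcard hord hoff hneg
      s0 hτ k F' R' rep hrep

end Coinv

end StepOk

end Fermat.Agent.GE8.P3B
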