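/-
GATE-E / RISK-5 (OK3-FREENESS), fix (B), the TOP SUPPLIER (helper44): **the auxiliary good symbol
at `p = 3`**.

helper86's replacement of `hp3 : p ≠ 3` in the B3 tower is
`p ≠ 3 ∨ ∃ i : Sy.ι₁, Sy.ℓ i % 3 = 2 ∧ X (inl i) ∉ 𝔪` (a good symbol `T_r`, `r ≡ 2 (mod 3)`, which is
a unit at `𝔪`).  For the canonical symbols `stdSymbols W p N r` (all primes good for `W`, prime to
`N p`) and the ideal `𝔪_Q = mQW P Sy u` (`T_ℓ ↦ a_ℓ(W)`), such a symbol exists for every semistable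
`W` with irreducible `ρ̄`: helper10's AUXR chooser (`GE8/AuxR/Sigma.exists_aux_prime_not_dvd`) gives
a good prime `r ∤ N`, `r % 12 = 11`, `a_r(W)² ≢ (r + 1)² (mod p)`; at `p = 3` one has `3 ∣ r + 1`,
so `a_r(W) ≢ 0`.

* `exists_aux_symbol`       : for `stdSymbols` at any level `N ≠ 0` and any `u`;
* `exists_aux_symbol_TWSet` : at every Taylor–Wiles set `Q` (`Q.Sy`, `Q.𝔪`);
* `auxOk3_std`, `auxOk3_TWSet` : the disjunction `p ≠ 3 ∨ …`.
-/
import Mathlib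
import Fermat.Agent.GB.Setup.MQ
import Fermat.Agent.GB.B9.ProviderFlat.G1
import Fermat.Agent.GE8.AuxR.Sigma

set_option autoImplicit false
set_option linter.unusedSectionVars false
set_option linter.unusedVariables false

open IsLocalRing MvPolynomial

namespace Fermat.Agent.GE8.P3B.AuxSymbol

open Fermat.Agent.GB.B3.HeckeActH Fermat.Agent.GB.Setup.SetupPkg Fermat.Agent.GB.Setup.MQ
  Fermat.Agent.GB.B9.ProviderFlat.G1

variable {p : ℕ} [hpF : Fact p.Prime] {W : WeierstrassCurve ℤ}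
  {hcard₁ : Nat.card (Submodule.torsionBy ℤ
    ((W.map (Int.castRingHom ℚ)).toAffine.baseChange (AlgebraicClosure ℚ)).Point p) = p ^ 2}
  {hker : GaloisFactorsThroughFiniteLevel
    (WeierstrassCurve.Affine.Point.galoisRepModuleEnd (K := AlgebraicClosure ℚ) ℚ
      (W.map (Int.castRingHom ℚ)) p)}
  {M A : ℕ}

/-- a good symbol lies outside `𝔪_Q` iff its residual eigenvalue is nonzero -/
theorem X_inl_notMem_mQW_iff (P : Pkg p W hcard₁ hker M A) {N : ℕ} (Sy : Symbols N)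
    (u : Sy.ι₂ → P.k) (i : Sy.ι₁) :
    (X (Sum.inl i) : Sy.𝕋 P.O) ∉ mQW P Sy u ↔ ((W.apOfModel (Sy.ℓ i) : ℤ) : P.k) ≠ 0 := by
  unfold mQW
  rw [mem_mQ_iff, evalK_X_inl]
  rfl

/-- at `p = 3`: `a² ≠ (r + 1)²` in `ZMod p` and `r % 12 = 11` force `a ≠ 0` in `k` -/
theorem intCast_ne_zero_of_sq_ne (P : Pkg p W hcard₁ hker M A) (hp3 : p = 3) {r : ℕ}
    (h12 : r % 12 = 11) {a : ℤ} (ha : ((a : ZMod p)) ^ 2 ≠ ((r : ZMod p) + 1) ^ 2) :
    ((a : ℤ) : P.k) ≠ 0 := by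
  have hr1 : ((r : ZMod p) + 1) = 0 := by
    have h : ((r + 1 : ℕ) : ZMod p) = 0 := by
      rw [ZMod.natCast_eq_zero_iff, hp3]
      omega
    rw [Nat.cast_add, Nat.cast_one] at h
    exact h
  rw [hr1] at ha
  have ha0 : (a : ZMod p) ≠ 0 := fun h => ha (by rw [h])
  intro h
  apply ha0
  have h2 : algebraMap (ZMod p) P.k ((a : ℤ) : ZMod p) = 0 := by
    rw [map_intCast]
    exact h
  exact (algebraMap (ZMod p) P.k).injective (by rw [h2, map_zero])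

/-- **the auxiliary good symbol at `p = 3`**, canonical symbols -/
theorem exists_aux_symbol (P : Pkg p W hcard₁ hker M A) (hss : W.IsSemistableModel)
    (hp3 : p = 3) {N : ℕ} [NeZero N] {ι₂ : Type} (r : ι₂ → ℕ) (hr : ∀ j, (r j).Prime)
    (hrN : ∀ j, r j ∣ N) (u : ι₂ → P.k) :
    ∃ i : (stdSymbols W p N r hr hrN).ι₁,
      (stdSymbols W p N r hr hrN).ℓ i % 3 = 2 ∧
        (X (Sum.inl i) : (stdSymbols W p N r hr hrN).𝕋 P.O)
          ∉ mQW P (stdSymbols W p N r hr hrN) u := by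
  obtain ⟨r₀, hr₀, hr₀N, h12, hr₀p, hgood, har⟩ :=
    Fermat.Agent.GE8.AuxR.Sigma.exists_aux_prime_not_dvd W (p := p) hss P.hΔ P.hp2 P.hirr
      (NeZero.ne N)
  refine ⟨⟨r₀, hr₀, hgood, hr₀N, hr₀p⟩, ?_, ?_⟩
  · show r₀ % 3 = 2
    omega
  · rw [X_inl_notMem_mQW_iff]
    exact intCast_ne_zero_of_sq_ne P hp3 h12 har

/-- the disjunctive form, canonical symbols -/
theorem auxOk3_std (P : Pkg p W hcard₁ hker M A) (hss : W.IsSemistableModel)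
    {N : ℕ} [NeZero N] {ι₂ : Type} (r : ι₂ → ℕ) (hr : ∀ j, (r j).Prime)
    (hrN : ∀ j, r j ∣ N) (u : ι₂ → P.k) :
    p ≠ 3 ∨ ∃ i : (stdSymbols W p N r hr hrN).ι₁,
      (stdSymbols W p N r hr hrN).ℓ i % 3 = 2 ∧
        (X (Sum.inl i) : (stdSymbols W p N r hr hrN).𝕋 P.O)
          ∉ mQW P (stdSymbols W p N r hr hrN) u := by
  by_cases hp3 : p = 3
  · exact Or.inr (exists_aux_symbol P hss hp3 r hr hrN u)
  · exact Or.inl hp3

/-- **the auxiliary good symbol at every Taylor–Wiles set** -/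
theorem exists_aux_symbol_TWSet {P : Pkg p W hcard₁ hker M A} {g n : ℕ} (Q : TWSet P g n)
    (hss : W.IsSemistableModel) (hp3 : p = 3) :
    ∃ i : Q.Sy.ι₁, Q.Sy.ℓ i % 3 = 2 ∧ (X (Sum.inl i) : Q.Sy.𝕋 P.O) ∉ Q.𝔪 :=
  exists_aux_symbol P hss hp3 Q.qv Q.prime Q.qv_dvd_N Q.al

/-- the disjunctive form at every Taylor–Wiles set -/
theorem auxOk3_TWSet {P : Pkg p W hcard₁ hker M A} {g n : ℕ} (Q : TWSet P g n)
    (hss : W.IsSemistableModel) :
    p ≠ 3 ∨ ∃ i : Q.Sy.ι₁, Q.Sy.ℓ i % 3 = 2 ∧ (X (Sum.inl i) : Q.Sy.𝕋 P.O) ∉ Q.𝔪 :=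
  auxOk3_std P hss Q.qv Q.prime Q.qv_dvd_N Q.al

end Fermat.Agent.GE8.P3B.AuxSymbol
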