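/-
GATE-E / RISK-5 (OK3-FREENESS), fix (B) (helper44): **the THIRD consumer of a full cyclic step** —
`GE8/RaiseP/P2/StepPin.exists_step_pinned` (helper15: the abstract tower step with the PINNED
projection carried along, used by the `p`-direction morphisms of levels of PNEW-PATCH (P2)) takes
`CS : FreeCyclic.CycStep O L L0 (p ^ n)`.  Here is the same statement for a WEAK step
(`StepAbsAux.CycStepW`) + a transport to a full step at a bigger level (`StepAbsAux.Transport`),
`b ∘ a = actL υ`, `υ ∉ 𝔪` (helper86's B1 vocabulary):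

* **`exists_step_pinned_aux`** : conclusion of `StepPin.exists_step_pinned` VERBATIM
  (`∃ F' R', Pinned R' ι0 (T0 ∘ₗ CS.cores)`).

Proof = helper86's `StepAbsAux.exists_step_aux` pattern: `StepPin.exists_step_pinned` applied to the
GENUINE step `locStep` on the `𝔪`-primary parts (realised by `realizesLoc`, pinned by
`T0 ∘ subtype`), then `realizesOfLoc`.
-/
import Mathlib
import Fermat.Agent.GE8.P3B.StepAbsAux
import Fermat.Agent.GE8.RaiseP.P2.StepPin

set_option autoImplicit false
set_option linter.unusedSectionVars false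
set_option linter.unusedVariables false
set_option linter.style.haveILetI false

namespace Fermat.Agent.GE8.P3B.StepPinAux

open Module Fermat.Agent.GB.B3.TWLevel Fermat.Agent.GB.B3.TowerStep Fermat.Agent.GB.B3.Loc
  Fermat.Agent.GB.B3.Loc2 Fermat.Agent.GB.B3.FreeCyclic Fermat.Agent.GB.B3.LocSummand
  Fermat.Agent.GB.B3.RealLevel Fermat.Agent.GB.B3.StepAbs Fermat.Agent.GE8.P3B.StepAbsAux
  Fermat.Agent.GE8.RaiseP.P2.StepPin

/-- **the abstract tower step with the pinned projection carried along, the integral corestriction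
facts transported from a bigger level.** -/
theorem exists_step_pinned_aux {O : Type} [CommRing O] [IsDomain O] [IsPrincipalIdealRing O]
    [IsLocalRing O] [IsAdicComplete (IsLocalRing.maximalIdeal O) O] {A : Type} [CommRing A]
    [Algebra O A] (𝔪 : Ideal A) [𝔪.IsMaximal] {M0 : Type} [AddCommGroup M0] [Module O M0]
    {act0 : A →ₐ[O] Module.End O M0} {k : ℕ} {N : Fin k → ℕ} (F : FreeLevel O A M0 act0 k N)
    {L L0 : Type} [AddCommGroup L] [Module O L] [Module.Finite O L] [Module.Free O L]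
    [AddCommGroup L0] [Module O L0] [Module.Finite O L0] [Module.Free O L0]
    (actL : A →ₐ[O] Module.End O L) (actL0 : A →ₐ[O] Module.End O L0)
    (E : Fin k → Module.End O L) (E0 : Fin k → Module.End O L0)
    (R : Realizes F actL0 𝔪 E0) (ϖ : O) (hϖ0 : ϖ ≠ 0)
    (hmax : IsLocalRing.maximalIdeal O = Ideal.span {ϖ}) (p n : ℕ) (hp : p.Prime)
    (hpϖ : (p : O) ∈ Ideal.span {ϖ}) (hq : ((p ^ n : ℕ) : O) ≠ 0)
    (CS : CycStepW O L L0 (p ^ n)) (hD : ∀ a x, CS.D (actL a x) = actL a (CS.D x))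
    (hcores : ∀ a x, CS.cores (actL a x) = actL0 a (CS.cores x))
    (hres : ∀ a y, CS.res (actL0 a y) = actL a (CS.res y)) (τ : A) (hτ : τ ∉ 𝔪)
    (ht : ∀ x, CS.t x = actL τ x) (ht0 : ∀ y, CS.t0 y = actL0 τ y)
    (hE_pow : ∀ i, E i ^ N i = 1)
    (hE_comm : ∀ i j, E i * E j = E j * E i) (hE_D : ∀ i, CS.D * E i = E i * CS.D)
    (hE_act : ∀ a i, actL a * E i = E i * actL a)
    (hE_cores : ∀ i x, CS.cores (E i x) = E0 i (CS.cores x))
    {Lb : Type} [AddCommGroup Lb] [Module O Lb] (ι0 : M0 →ₗ[O] Lb) (T0 : L0 →ₗ[O] Lb)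
    (hpin : Pinned R ι0 T0)
    {L' L0' : Type*} [AddCommGroup L'] [Module O L'] [AddCommGroup L0'] [Module O L0']
    (CS' : CycStep O L' L0' (p ^ n)) (υ : A) (hυ : υ ∉ 𝔪)
    (T : Transport CS CS' (actL υ) (actL0 υ)) :
    ∃ (F' : FreeLevel O A M0 act0 (k + 1) (Fin.cons (p ^ n) N : Fin (k + 1) → ℕ))
      (R' : Realizes F' actL 𝔪 (Fin.cons CS.D E : Fin (k + 1) → Module.End O L)),
      Pinned R' ι0 (T0 ∘ₗ CS.cores) := by
  let instL : Module A L := Module.compHom L actL.toRingHom
  have towL : IsScalarTower O A L := ⟨fun o a x => by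
    show actL (o • a) x = o • actL a x
    rw [map_smul]
    rfl⟩
  let instL0 : Module A L0 := Module.compHom L0 actL0.toRingHom
  have towL0 : IsScalarTower O A L0 := ⟨fun o a x => by
    show actL0 (o • a) x = o • actL0 a x
    rw [map_smul]
    rfl⟩
  have hact : ∀ a x, actL a x = a • x := fun _ _ => rfl
  have hact0 : ∀ a x, actL0 a x = a • x := fun _ _ => rfl
  have hE_act' : ∀ (i : Fin k) (a : A) (x : L), E i (a • x) = a • E i x := fun i a x =>
    (LinearMap.congr_fun (hE_act a i) x).symm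
  -- the transport in the `Module A` vocabulary
  let T' : Transport CS CS' (Algebra.lsmul O O L υ) (Algebra.lsmul O O L0 υ) :=
    { a := T.a, b := T.b, a0 := T.a0, b0 := T.b0
      ba := fun x => T.ba x
      ba0 := fun y => T.ba0 y
      cores_a := T.cores_a
      cores_b := T.cores_b
      D_b := T.D_b }
  -- the genuine step on the primary parts
  let CSP : CycStep O ↥(locO (O := O) 𝔪 L) ↥(locO (O := O) 𝔪 L0) (p ^ n) :=
    locStep 𝔪 CS CS' hD hcores hres τ ht ht0 υ hυ T'
  let EP : Fin k → Module.End O ↥(locO (O := O) 𝔪 L) := fun i => resLoc 𝔪 (E i) (hE_act' i)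
  haveI hfinP : Module.Finite O ↥(locPart 𝔪 L) := finite_locPart O 𝔪
  haveI hfreeP : Module.Free O ↥(locPart 𝔪 L) := free_locPart O 𝔪
  haveI hfinP0 : Module.Finite O ↥(locPart 𝔪 L0) := finite_locPart O 𝔪
  haveI hfreeP0 : Module.Free O ↥(locPart 𝔪 L0) := free_locPart O 𝔪
  haveI : Module.Finite O ↥(locO (O := O) 𝔪 L) := hfinP
  haveI : Module.Free O ↥(locO (O := O) 𝔪 L) := hfreeP
  haveI : Module.Finite O ↥(locO (O := O) 𝔪 L0) := hfinP0
  haveI : Module.Free O ↥(locO (O := O) 𝔪 L0) := hfreeP0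
  -- the pinned projection on the primary part
  have hpinP : Pinned (realizesLoc 𝔪 R hact0) ι0 (T0 ∘ₗ (locO (O := O) 𝔪 L0).subtype) := by
    intro x
    show ι0 (F.π x) = T0 (((realEquiv 𝔪 R hact0 x : ↥(locO (O := O) 𝔪 L0)) : L0))
    rw [coe_realEquiv]
    exact hpin x
  obtain ⟨F', R', hpin'⟩ := exists_step_pinned 𝔪 F (actLoc (O := O) (L := L) 𝔪)
    (actLoc (O := O) (L := L0) 𝔪) EP (diaLoc 𝔪 R hact0) (realizesLoc 𝔪 R hact0)
    ϖ hϖ0 hmax p n hp hpϖ hq CSP
    (fun a x => Subtype.ext (hD a (x : L)))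
    (fun a x => Subtype.ext (hcores a (x : L)))
    τ hτ
    (fun x => Subtype.ext (ht (x : L)))
    (fun i => by
      refine LinearMap.ext fun x => Subtype.ext ?_
      refine (coe_resLoc_pow 𝔪 (E i) (hE_act' i) (N i) x).trans ?_
      rw [hE_pow]
      rfl)
    (fun i j => by
      refine LinearMap.ext fun x => Subtype.ext ?_
      exact LinearMap.congr_fun (hE_comm i j) (x : L))
    (fun i => by
      refine LinearMap.ext fun x => Subtype.ext ?_
      exact LinearMap.congr_fun (hE_D i) (x : L))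
    (fun a i => by
      refine LinearMap.ext fun x => Subtype.ext ?_
      exact LinearMap.congr_fun (hE_act a i) (x : L))
    (fun i x => by
      apply Subtype.ext
      rw [coe_diaLoc]
      exact hE_cores i (x : L))
    ι0 (T0 ∘ₗ (locO (O := O) 𝔪 L0).subtype) hpinP
  refine ⟨F', realizesOfLoc 𝔪 actL hact (E := (Fin.cons CS.D E : Fin (k + 1) → Module.End O L))
    (EP := (Fin.cons CSP.D EP : Fin (k + 1) → Module.End O ↥(locO (O := O) 𝔪 L))) ?_ R', ?_⟩
  · intro i x
    refine Fin.cases ?_ (fun j => ?_) i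
    · rfl
    · rfl
  · intro x
    exact hpin' x

end Fermat.Agent.GE8.P3B.StepPinAux
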