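/-
GATE-E / RISK-5 (OK3-FREENESS), fix (B) (helper86): **the THIRD `p ≠ 3`-consumer** (helper15's pinned
tower step `GE8/RaiseP/P2/TowerPin.exists_step_inst_pinned`, flagged by helper44) under
`Ok3A Sy 𝔪 p`, in the GENERIC vocabulary of `StepGen.lean` — this file imports NO module of the
`GB/B3/StepInst` cone, so the generated twin `GE8/P3B/GE8/RaiseP/P2/TowerPin.lean` can cite it.

* **`exists_step_inst_pinned_gen`** : the body of `TowerPin.exists_step_inst_pinned` with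
  `diaLin`, `tauOf`, `coresLin` spelled `dLin`, `tauG`, `coresLinG` (definitionally equal), and
  `(h3 : ¬ 3 ∣ p ^ n)` ↦ `(hp3 : Ok3A Sy 𝔪 p)`.  Proof: helper44's
  `StepPinAux.exists_step_pinned_aux` + `StepGen.exists_transport_ok`.
-/
import Mathlib
import Fermat.Agent.GE8.P3B.StepGen
import Fermat.Agent.GE8.P3B.StepPinAux

set_option autoImplicit false
set_option linter.unusedSectionVars false
set_option linter.unusedVariables false
set_option linter.style.haveILetI false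

open scoped MatrixGroups
open CongruenceSubgroup

namespace Fermat.Agent.GE8.P3B.StepGen

open Fermat.Agent.GM.B Fermat.Agent.GB.B3 Fermat.Agent.GB.B3.EisGamma0
  Fermat.Agent.GB.B3.CycInst Fermat.Agent.GB.B3.CycPlug Fermat.Agent.GB.B3.FreeCyclic
  Fermat.Agent.GB.B3.TWLevel Fermat.Agent.GB.B3.RealLevel Fermat.Agent.GB.B3.HeckeActH
  Fermat.Agent.GB.B3.HeckeAct Fermat.Agent.GB.B3.Chi Fermat.Agent.GB.B3.LocSummand
  Fermat.Agent.GB.B3.Loc Fermat.Agent.GB.B3.Loc2 Fermat.Agent.GB.B3.StepAbs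
  Fermat.Agent.GE8.P3B.StepAbsAux Fermat.Agent.GE8.P3B.Seam Fermat.Agent.GB.B7.UqSq
  Fermat.Agent.GE8.RaiseP.P2.StepPin Fermat.Agent.GE8.P3B.StepPinAux

section Pin

variable {N : ℕ} [NeZero N] (Sy : Symbols N)
variable {O : Type} [CommRing O] [IsDomain O] [IsPrincipalIdealRing O] [IsLocalRing O]
  [IsAdicComplete (IsLocalRing.maximalIdeal O) O] [Module.IsTorsionFree ℤ O]
variable (𝔪 : Ideal (Sy.𝕋 O)) [𝔪.IsMaximal]
variable {M0 : Type} [AddCommGroup M0] [Module O M0] {act0 : Sy.𝕋 O →ₐ[O] Module.End O M0}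
variable {k : ℕ} {Nk : Fin k → ℕ} (F : FreeLevel O (Sy.𝕋 O) M0 act0 k Nk)
variable {Δ Δ'' : Type} [CommGroup Δ] [CommGroup Δ''] (θ : (ZMod N)ˣ →* Δ) (π : Δ →* Δ'')
  [Fintype π.ker]

/-- the transfer of one step of the tower, as an `O`-linear map (body of `TowerPin.coresLin`) -/
noncomputable def coresLinG (O : Type) [CommRing O] (rep : π.ker → Gamma0 N)
    (hrep : ∀ δ : π.ker, chi θ (rep δ) = (δ : Δ)) :
    (Additive (GamH.GammaH θ) →+ O) →ₗ[O] (Additive (GamH.GammaH (π.comp θ)) →+ O) :=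
  opLin O (coresKK (chi θ) π rep hrep embR)

/-- **the concrete step of the tower, pinned, under `Ok3A`** -/
theorem exists_step_inst_pinned_gen
    (rep : π.ker → Gamma0 N) (hrep : ∀ δ : π.ker, chi θ (rep δ) = (δ : Δ))
    (d0 : Gamma0 N) (hd0 : chi θ d0 ∈ π.ker)
    (ϖ : O) (hϖ0 : ϖ ≠ 0) (hmax : IsLocalRing.maximalIdeal O = Ideal.span {ϖ})
    (p n : ℕ) (hp : p.Prime) (hpϖ : (p : O) ∈ Ideal.span {ϖ}) (hq : ((p ^ n : ℕ) : O) ≠ 0)
    (hord : orderOf (chi θ d0) = p ^ n) (hcard : Fintype.card π.ker = p ^ n)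
    (hneg : θ (-1) = 1) (h2 : ¬ 2 ∣ p ^ n) (hp3 : Ok3A Sy 𝔪 p)
    (s0 : Sy.ι₁) (hτ : tauG Sy O s0 ∉ 𝔪)
    (d : Fin k → Gamma0 N) (hdpow : ∀ i, chi θ (d i ^ Nk i) = 1)
    (R : Realizes F (actH Sy O (π.comp θ)) 𝔪 (fun i => dLin O (π.comp θ) (d i)))
    {Lb : Type} [AddCommGroup Lb] [Module O Lb] (ι0 : M0 →ₗ[O] Lb)
    (T0 : (Additive (GamH.GammaH (π.comp θ)) →+ O) →ₗ[O] Lb) (hpin : Pinned R ι0 T0) :
    ∃ (F' : FreeLevel O (Sy.𝕋 O) M0 act0 (k + 1) (Fin.cons (p ^ n) Nk : Fin (k + 1) → ℕ))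
      (R' : Realizes F' (actH Sy O θ) 𝔪
        (fun i => dLin O θ ((Fin.cons d0 d : Fin (k + 1) → Gamma0 N) i))),
      Pinned R' ι0 (T0 ∘ₗ coresLinG θ π O rep hrep) := by
  classical
  haveI := Sy.factℓ s0
  haveI hfi : (GamH.GammaH θ).FiniteIndex := finiteIndex_GammaH_g θ
  haveI hfi' : (GamH.GammaH (π.comp θ)).FiniteIndex := finiteIndex_GammaH_g (π.comp θ)
  haveI : Module.Finite O (Additive (GamH.GammaH θ) →+ O) :=
    HomFree.homFinite_SL2Z (GamH.GammaH θ) O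
  haveI : Module.Free O (Additive (GamH.GammaH θ) →+ O) :=
    HomFree.homFree_SL2Z (GamH.GammaH θ) O
  haveI : Module.Finite O (Additive (GamH.GammaH (π.comp θ)) →+ O) :=
    HomFree.homFinite_SL2Z (GamH.GammaH (π.comp θ)) O
  haveI : Module.Free O (Additive (GamH.GammaH (π.comp θ)) →+ O) :=
    HomFree.homFree_SL2Z (GamH.GammaH (π.comp θ)) O
  have hq' : ∀ a : O, ((p ^ n : ℕ) : O) * a = 0 → a = 0 := fun a ha =>
    (mul_eq_zero.1 ha).resolve_left hq
  let CS : CycStepW O (Additive (GamH.GammaH θ) →+ O) (Additive (GamH.GammaH (π.comp θ)) →+ O)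
      (p ^ n) :=
    cycStepKKW embR_injective (chi θ) π rep hrep (GamH.heckeSysD (Sy.hℓN s0))
      (GamH.compat_heckeSysD θ (Sy.hℓN s0)) O (p ^ n) d0 hd0 hord hcard hq'
  obtain ⟨L', L0', i1, i2, i3, i4, CS', υ, hυ, ⟨T⟩⟩ := exists_transport_ok Sy O θ π 𝔪 rep hrep d0
    hd0 p n hp hq' hord hcard hneg h2 hp3 s0
  have hDeq : CS.D = dLin O θ d0 := rfl
  have hCeq : CS.cores = coresLinG θ π O rep hrep := rfl
  obtain ⟨F', R', hpin'⟩ := exists_step_pinned_aux 𝔪 F (actH Sy O θ) (actH Sy O (π.comp θ))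
    (fun i => dLin O θ (d i)) (fun i => dLin O (π.comp θ) (d i)) R
    ϖ hϖ0 hmax p n hp hpϖ hq CS
    (fun a x => diaH_act Sy O θ d0 a x)
    (fun a x => coresHH_act Sy O θ π rep hrep a x)
    (fun a y => resHH_act Sy O θ π a y)
    (tauG Sy O s0) hτ
    (fun x => by
      have h1 : CS.t x = GamH.TH θ O (Sy.hℓN s0) x
          - Fintype.card (GamH.heckeSysD (N := N) (Sy.hℓN s0)).ι • x := rfl
      rw [h1, tauG, map_sub, LinearMap.sub_apply, actH_X_inl, actH_C, GamH.heckeSysD_card,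
        Nat.cast_smul_eq_nsmul])
    (fun y => by
      have h1 : CS.t0 y = GamH.TH (π.comp θ) O (Sy.hℓN s0) y
          - Fintype.card (GamH.heckeSysD (N := N) (Sy.hℓN s0)).ι • y := rfl
      rw [h1, tauG, map_sub, LinearMap.sub_apply, actH_X_inl, actH_C, GamH.heckeSysD_card,
        Nat.cast_smul_eq_nsmul])
    (fun i => dLin_pow O θ (d i) (Nk i) (hdpow i))
    (fun i j => dLin_comm O θ (d i) (d j))
    (fun i => by rw [hDeq]; exact dLin_comm O θ d0 (d i))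
    (fun a i => by
      refine LinearMap.ext fun x => ?_
      exact (diaH_act Sy O θ (d i) a x).symm)
    (fun i x => GamH.coresHH_diaH θ π rep hrep (d i) x) ι0 T0 hpin
    CS' υ hυ T
  have hE : (Fin.cons CS.D (fun i => dLin O θ (d i)) :
        Fin (k + 1) → Module.End O (Additive (GamH.GammaH θ) →+ O))
      = fun i => dLin O θ ((Fin.cons d0 d : Fin (k + 1) → Gamma0 N) i) := by
    funext i
    refine Fin.cases ?_ (fun j => ?_) i
    · rw [Fin.cons_zero, Fin.cons_zero, hDeq]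
    · rw [Fin.cons_succ, Fin.cons_succ]
  rw [hCeq] at hpin'
  rw [← hE]
  exact ⟨F', R', hpin'⟩

end Pin

end Fermat.Agent.GE8.P3B.StepGen
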