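/-
GATE-E / RISK-5 (OK3-FREENESS), fix (B) (helper44): **the SECOND consumption point of `h3`** —
`GB/B3/L1Iso.exists_coinvEquiv_abs` ("coinvariants of one diamond = the primary part one level
down") consumes a FULL cyclic step `CS : FreeCyclic.CycStep O L L0 q` through
`summandOfLoc CS …` (`cores_surjOn`, `ker_cores_on`) and `CS.cores_D`.  Here is the same statement for
a WEAK step (`StepAbsAux.CycStepW`: no `cores_surj`, no `ker_cores`) together with a transport
(`StepAbsAux.Transport`) to a full step at a bigger level, `b ∘ a = actL υ`, `b0 ∘ a0 = actL0 υ`,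
`υ ∉ 𝔪` (helper86's B1 vocabulary):

* `CycStepW.res_injective`, `CycStepW.cores_D` : the two lemmas of `FreeCyclic.CycStep` that only use
  the weak fields;
* **`exists_coinvEquiv_abs_aux`** : `L1Iso.exists_coinvEquiv_abs` VERBATIM in its conclusion, with
  `(CS : CycStepW O L L0 q)`, `(CS' : CycStep O L' L0' q)`, `(υ) (hυ : υ ∉ 𝔪)`,
  `(T : Transport CS CS' (actL υ) (actL0 υ))`; the binders `τ hτ ht` are not needed any more.
-/
import Mathlib
import Fermat.Agent.GB.B3.L1Iso
import Fermat.Agent.GE8.P3B.StepAbsAux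

set_option autoImplicit false
set_option linter.unusedSectionVars false
set_option linter.unusedVariables false
set_option linter.style.haveILetI false

namespace Fermat.Agent.GE8.P3B.L1IsoAbsAux

open Module Fermat.Agent.GB.B3 Fermat.Agent.GB.B3.FreeCyclic Fermat.Agent.GB.B3.TWLevel
  Fermat.Agent.GB.B3.RealLevel Fermat.Agent.GB.B3.Chi Fermat.Agent.GB.B3.LocSummand
  Fermat.Agent.GB.B3.Loc Fermat.Agent.GB.B3.Loc2 Fermat.Agent.GB.B3.StepAbs
  Fermat.Agent.GE8.P3B.StepAbsAux

/-! ### the weak-step versions of `res_injective`, `cores_D` -/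

section Weak

variable {O : Type*} [CommRing O] [IsDomain O]
variable {L L0 : Type*} [AddCommGroup L] [Module O L]
  [AddCommGroup L0] [Module O L0] [Module.Free O L0]
variable {q : ℕ} (S : CycStepW O L L0 q)

theorem CycStepW.res_injective (hq : (q : O) ≠ 0) : Function.Injective S.res := by
  intro y y' h
  have h1 := congrArg S.cores h
  rw [S.cores_res, S.cores_res] at h1
  exact smul_right_injective L0 hq h1

theorem CycStepW.cores_D (hq : (q : O) ≠ 0) (x : L) : S.cores (S.D x) = S.cores x := by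
  apply CycStepW.res_injective S hq
  rw [S.res_cores, S.res_cores]
  have h : ∀ i, (S.D ^ i) (S.D x) = (S.D ^ (i + 1)) x := by
    intro i
    rw [pow_succ, Module.End.mul_apply]
  simp only [h]
  have e1 := Finset.sum_range_succ' (fun i => (S.D ^ i) x) q
  have e2 := Finset.sum_range_succ (fun i => (S.D ^ i) x) q
  rw [e1] at e2
  simp only [pow_zero, Module.End.one_apply, S.D_pow] at e2
  exact add_right_cancel e2

end Weak

/-! ### the abstract statement -/

/-- **coinvariants of one diamond = the primary part one level down**, for a WEAK cyclic step whose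
integral corestriction facts are transported from a full step at a bigger level. -/
theorem exists_coinvEquiv_abs_aux {O : Type} [CommRing O] [IsDomain O] [IsPrincipalIdealRing O]
    [IsLocalRing O] [IsAdicComplete (IsLocalRing.maximalIdeal O) O] {A : Type} [CommRing A]
    [Algebra O A] (𝔪 : Ideal A) [𝔪.IsMaximal] {M0 : Type} [AddCommGroup M0] [Module O M0]
    {act0 : A →ₐ[O] Module.End O M0} {k : ℕ} {N : Fin k → ℕ} (F : FreeLevel O A M0 act0 k N)
    {L L0 : Type} [AddCommGroup L] [Module O L] [Module.Finite O L] [Module.Free O L]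
    [AddCommGroup L0] [Module O L0] [Module.Finite O L0] [Module.Free O L0]
    (actL : A →ₐ[O] Module.End O L) (actL0 : A →ₐ[O] Module.End O L0)
    (E : Fin k → Module.End O L) (R : Realizes F actL 𝔪 E) (q : ℕ) (hq : (q : O) ≠ 0)
    (CS : CycStepW O L L0 q) (hD : ∀ a x, CS.D (actL a x) = actL a (CS.D x))
    (hcores : ∀ a x, CS.cores (actL a x) = actL0 a (CS.cores x))
    {L' L0' : Type*} [AddCommGroup L'] [Module O L'] [AddCommGroup L0'] [Module O L0']
    (CS' : CycStep O L' L0' q) (υ : A) (hυ : υ ∉ 𝔪)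
    (T : Transport CS CS' (actL υ) (actL0 υ)) (i0 : Fin k) (hi0 : E i0 = CS.D) :
    ∃ e : (F.M ⧸ chiRange (F.D i0) (1 : O)) ≃ₗ[O] Base.locSub actL0 𝔪,
      ∀ x : F.M, ((e (Submodule.Quotient.mk x) : Base.locSub actL0 𝔪) : L0)
        = CS.cores (R.ι x) := by
  let instL : Module A L := Module.compHom L actL.toRingHom
  have towL : IsScalarTower O A L := ⟨fun o a x => by
    show actL (o • a) x = o • actL a x
    rw [map_smul]
    rfl⟩
  let instL0 : Module A L0 := Module.compHom L0 actL0.toRingHom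
  have towL0 : IsScalarTower O A L0 := ⟨fun o a x => by
    show actL0 (o • a) x = o • actL0 a x
    rw [map_smul]
    rfl⟩
  have hact : ∀ a x, actL a x = a • x := fun _ _ => rfl
  have hact0 : ∀ a x, actL0 a x = a • x := fun _ _ => rfl
  -- the transport in the `Module A` vocabulary
  let T' : Transport CS CS' (Algebra.lsmul O O L υ) (Algebra.lsmul O O L0 υ) :=
    { a := T.a, b := T.b, a0 := T.a0, b0 := T.b0
      ba := fun x => T.ba x
      ba0 := fun y => T.ba0 y
      cores_a := T.cores_a
      cores_b := T.cores_b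
      D_b := T.D_b }
  have hmem : ∀ x : F.M, (CS.cores ∘ₗ R.ι) x ∈ Base.locSub actL0 𝔪 := by
    intro x
    have hx : IsLoc actL 𝔪 (R.ι x) := (R.range _).1 ⟨x, rfl⟩
    exact LocTransport.isLoc_map actL actL0 CS.cores.toAddMonoidHom hcores 𝔪 hx
  let c : F.M →ₗ[O] Base.locSub actL0 𝔪 :=
    LinearMap.codRestrict (Base.locSub actL0 𝔪) (CS.cores ∘ₗ R.ι) hmem
  have hsurj : Function.Surjective c := by
    intro y
    have hy : (y : L0) ∈ locPart 𝔪 L0 := (isLoc_iff_mem_locPart 𝔪 actL0 hact0 _).1 y.2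
    obtain ⟨x, hx, hxy⟩ := cores_surjOn_of_transport 𝔪 CS CS' hcores υ hυ T' hy
    have hx' : IsLoc actL 𝔪 x := (isLoc_iff_mem_locPart 𝔪 actL hact x).2 hx
    obtain ⟨x0, rfl⟩ := (R.range x).2 hx'
    exact ⟨x0, Subtype.ext hxy⟩
  have hker : LinearMap.ker c = chiRange (F.D i0) (1 : O) := by
    ext x
    rw [LinearMap.mem_ker, mem_chiRange]
    constructor
    · intro h
      have h0 : CS.cores (R.ι x) = 0 := congrArg Subtype.val h
      have hx : R.ι x ∈ locPart 𝔪 L :=
        (isLoc_iff_mem_locPart 𝔪 actL hact _).1 ((R.range _).1 ⟨x, rfl⟩)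
      obtain ⟨y, hy, hxy⟩ := ker_cores_on_of_transport 𝔪 CS CS' hD hcores υ hυ T' hx h0
      obtain ⟨y0, rfl⟩ := (R.range y).2 ((isLoc_iff_mem_locPart 𝔪 actL hact y).2 hy)
      refine ⟨y0, R.inj ?_⟩
      rw [map_sub, one_smul, R.ι_D, hi0, hxy]
    · rintro ⟨y, rfl⟩
      apply Subtype.ext
      show CS.cores (R.ι (F.D i0 y - (1 : O) • y)) = 0
      rw [one_smul, map_sub, R.ι_D, hi0, map_sub, CycStepW.cores_D CS hq, sub_self]
  exact ⟨(Submodule.quotEquivOfEq _ _ hker.symm).trans (c.quotKerEquivOfSurjective hsurj),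
    fun x => rfl⟩

end Fermat.Agent.GE8.P3B.L1IsoAbsAux
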