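/-
GATE-E / RISK-5 (OK3-FREENESS), fix (B) (helper44): **the SECOND consumption point of `h3`,
concrete form** — twins of `GB/B3/L1Iso.exists_coinvEquiv_succ` / `exists_coinvEquiv`
("coinvariants of the newest diamond = the primary part one stage down") with the binder
`hp3 : p ≠ 3` replaced by

* (`…_aux`) an auxiliary good prime `r = Sy.ℓ ir ≡ 2 (mod 3)` with `T_r ∉ 𝔪` and the degeneracy
  pair `Seam.DegRStmt` at `r` — the binders of helper86's `StepInstAux.exists_step_inst_aux`;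
* (`…_ok`)  the disjunction `p ≠ 3 ∨ ∃ i : Sy.ι₁, Sy.ℓ i % 3 = 2 ∧ X (inl i) ∉ 𝔪`
  (= the body of `AuxOk3 p Sy O 𝔪`), `DegRStmt` discharged by `DegRClose.degR`.

Construction = `StepInstAux.exists_step_inst_aux` line for line: weak step `cycStepKKW` at level
`N`, full step `CycPlug3.cycStepKKSL3` at level `N r` (`UFree.no_conj_U_mem`), transport = (B2);
consumer = `L1IsoAbsAux.exists_coinvEquiv_abs_aux`.
-/
import Mathlib
import Fermat.Agent.GB.B3.L1Iso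
import Fermat.Agent.GE8.P3B.StepInstAux
import Fermat.Agent.GE8.P3B.L1IsoAbsAux
import Fermat.Agent.GE8.P3B.DegRClose

set_option autoImplicit false
set_option linter.unusedSectionVars false
set_option linter.unusedVariables false
set_option linter.style.haveILetI false

open scoped MatrixGroups
open CongruenceSubgroup

namespace Fermat.Agent.GE8.P3B.L1IsoInstAux

open Fermat.Agent.GM.B Fermat.Agent.GB.B3 Fermat.Agent.GB.B3.EisGamma0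
  Fermat.Agent.GB.B3.CycInst Fermat.Agent.GB.B3.CycPlug Fermat.Agent.GB.B3.FreeCyclic
  Fermat.Agent.GB.B3.TWLevel Fermat.Agent.GB.B3.RealLevel Fermat.Agent.GB.B3.HeckeActH
  Fermat.Agent.GB.B3.HeckeAct Fermat.Agent.GB.B3.StepInst Fermat.Agent.GB.B3.Tower
  Fermat.Agent.GB.B3.Chi Fermat.Agent.GB.B3.LocSummand Fermat.Agent.GB.B3.Loc
  Fermat.Agent.GB.B3.Loc2 Fermat.Agent.GB.B3.L1Iso
  Fermat.Agent.GE8.P3B.StepAbsAux Fermat.Agent.GE8.P3B.Seam Fermat.Agent.GB.B7.UqSq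
  Fermat.Agent.GE8.P3B.StepInstAux Fermat.Agent.GE8.P3B.L1IsoAbsAux

section Step

variable {N : ℕ} [NeZero N] (Sy : Symbols N)
variable {O : Type} [CommRing O] [IsDomain O] [IsPrincipalIdealRing O] [IsLocalRing O]
  [IsAdicComplete (IsLocalRing.maximalIdeal O) O] [Module.IsTorsionFree ℤ O]
variable (𝔪 : Ideal (Sy.𝕋 O)) [𝔪.IsMaximal]
variable {M0 : Type} [AddCommGroup M0] [Module O M0] {act0 : Sy.𝕋 O →ₐ[O] Module.End O M0}
variable (Δs : ℕ → Type) [∀ i, CommGroup (Δs i)] [∀ i, Fintype (Δs i)]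
  (ψ : ∀ i, (ZMod N)ˣ →* Δs i)

/-- **coinvariants of the newest diamond = the primary part one stage down, `p = 3` allowed**:
`L1Iso.exists_coinvEquiv_succ` with `hp3` replaced by the auxiliary good prime `Sy.ℓ ir`. -/
theorem exists_coinvEquiv_succ_aux
    (p : ℕ) (hp : p.Prime) (hp0 : (p : O) ≠ 0)
    (hp2 : p ≠ 2)
    (ir : Sy.ι₁) (hr3 : Sy.ℓ ir % 3 = 2)
    (hXr : (MvPolynomial.X (Sum.inl ir) : Sy.𝕋 O) ∉ 𝔪)
    (hDeg : haveI := Sy.factℓ ir; DegRStmt N (Sy.ℓ ir) (Sy.hℓN ir))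
    (n : ℕ → ℕ) (dd : ℕ → Gamma0 N)
    (hcard : ∀ i, Fintype.card (Δs i) = p ^ n i)
    (hord : ∀ i, orderOf (ψ i (dUnits N (dd i))) = p ^ n i)
    (hoff : ∀ i j, i ≠ j → ψ i (dUnits N (dd j)) = 1)
    (hneg : ∀ i, ψ i (-1) = 1)
    (s0 : Sy.ι₁) (hτ : tauOf Sy O s0 ∉ 𝔪) (k : ℕ)
    (F' : FreeLevel O (Sy.𝕋 O) M0 act0 (k + 1) (Nfun p n (k + 1)))
    (R' : Realizes F' (actH Sy O (Theta Δs ψ (k + 1))) 𝔪
      (fun i => diaLin O (Theta Δs ψ (k + 1)) (dfun dd (k + 1) i)))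
    [Fintype (initHom Δs k).ker]
    (rep : (initHom Δs k).ker → Gamma0 N)
    (hrep : ∀ δ : (initHom Δs k).ker, chi (Theta Δs ψ (k + 1)) (rep δ) = (δ : ∀ i : Fin (k + 1), Δs i)) :
    ∃ e : (F'.M ⧸ chiRange (F'.D 0) (1 : O)) ≃ₗ[O]
        Base.locSub (actH Sy O (Theta Δs ψ k)) 𝔪,
      ∀ x : F'.M,
        ((e (Submodule.Quotient.mk x) : Base.locSub (actH Sy O (Theta Δs ψ k)) 𝔪) :
            Additive (GamH.GammaH (Theta Δs ψ k)) →+ O)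
          = GamH.coresHH (Theta Δs ψ (k + 1)) (initHom Δs k) rep hrep O (R'.ι x) := by
  classical
  haveI := Sy.factℓ s0
  haveI hfr : Fact (Sy.ℓ ir).Prime := Sy.factℓ ir
  have hrp : (Sy.ℓ ir).Prime := Sy.hℓ ir
  haveI hNr : NeZero (N * Sy.ℓ ir) := ⟨Nat.mul_ne_zero (NeZero.ne N) hrp.ne_zero⟩
  haveI hfi : (GamH.GammaH (Theta Δs ψ (k + 1))).FiniteIndex :=
    finiteIndex_GammaH (Theta Δs ψ (k + 1))
  haveI hfi' : (GamH.GammaH ((initHom Δs k).comp (Theta Δs ψ (k + 1)))).FiniteIndex :=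
    finiteIndex_GammaH ((initHom Δs k).comp (Theta Δs ψ (k + 1)))
  haveI hfiq : (GamH.GammaH (thQ (Theta Δs ψ (k + 1)) (Sy.ℓ ir))).FiniteIndex :=
    finiteIndex_GammaH (thQ (Theta Δs ψ (k + 1)) (Sy.ℓ ir))
  haveI hfiq' : (GamH.GammaH ((initHom Δs k).comp
      (thQ (Theta Δs ψ (k + 1)) (Sy.ℓ ir)))).FiniteIndex :=
    finiteIndex_GammaH ((initHom Δs k).comp (thQ (Theta Δs ψ (k + 1)) (Sy.ℓ ir)))
  haveI : Fintype (SL(2, ℤ) ⧸ kerSub (chi (Theta Δs ψ (k + 1)))) :=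
    (GamH.GammaH (Theta Δs ψ (k + 1))).fintypeQuotientOfFiniteIndex
  haveI : Fintype (SL(2, ℤ) ⧸ kerSub ((initHom Δs k).comp (chi (Theta Δs ψ (k + 1))))) :=
    (GamH.GammaH ((initHom Δs k).comp (Theta Δs ψ (k + 1)))).fintypeQuotientOfFiniteIndex
  haveI : Fintype (SL(2, ℤ) ⧸ kerSub (chi (thQ (Theta Δs ψ (k + 1)) (Sy.ℓ ir)))) :=
    (GamH.GammaH (thQ (Theta Δs ψ (k + 1)) (Sy.ℓ ir))).fintypeQuotientOfFiniteIndex
  haveI : Fintype (SL(2, ℤ) ⧸ kerSub ((initHom Δs k).comp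
      (chi (thQ (Theta Δs ψ (k + 1)) (Sy.ℓ ir))))) :=
    (GamH.GammaH ((initHom Δs k).comp
      (thQ (Theta Δs ψ (k + 1)) (Sy.ℓ ir)))).fintypeQuotientOfFiniteIndex
  haveI : Module.Finite O (Additive (GamH.GammaH (Theta Δs ψ (k + 1))) →+ O) :=
    HomFree.homFinite_SL2Z (GamH.GammaH (Theta Δs ψ (k + 1))) O
  haveI : Module.Free O (Additive (GamH.GammaH (Theta Δs ψ (k + 1))) →+ O) :=
    HomFree.homFree_SL2Z (GamH.GammaH (Theta Δs ψ (k + 1))) O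
  haveI : Module.Finite O
      (Additive (GamH.GammaH ((initHom Δs k).comp (Theta Δs ψ (k + 1)))) →+ O) :=
    HomFree.homFinite_SL2Z (GamH.GammaH ((initHom Δs k).comp (Theta Δs ψ (k + 1)))) O
  haveI : Module.Free O
      (Additive (GamH.GammaH ((initHom Δs k).comp (Theta Δs ψ (k + 1)))) →+ O) :=
    HomFree.homFree_SL2Z (GamH.GammaH ((initHom Δs k).comp (Theta Δs ψ (k + 1)))) O
  have hcardk := card_ker_initHom Δs p n hcard k
  have hd0 := chi_dd_mem_ker Δs ψ dd hoff k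
  have hordk := orderOf_chi_dd Δs ψ p n dd hord hoff k
  have hnegk : Theta Δs ψ (k + 1) (-1) = 1 := by
    funext i
    exact hneg i
  have hq : ((p ^ n k : ℕ) : O) ≠ 0 := by
    rw [Nat.cast_pow]
    exact pow_ne_zero _ hp0
  have hq' : ∀ a : O, ((p ^ n k : ℕ) : O) * a = 0 → a = 0 := fun a ha =>
    (mul_eq_zero.1 ha).resolve_left hq
  have h2 : ¬ 2 ∣ p ^ n k := not_dvd_prime_pow hp Nat.prime_two hp2 _
  -- the lifted representatives at level `N r`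
  have hlift : ∀ g : Gamma0 N, ∃ g' : Gamma0 (N * Sy.ℓ ir),
      chi (thQ (Theta Δs ψ (k + 1)) (Sy.ℓ ir)) g' = chi (Theta Δs ψ (k + 1)) g :=
    fun g => exists_lift_gamma0 (Theta Δs ψ (k + 1)) (Sy.ℓ ir) g
  choose lift hlift' using hlift
  let rep' : (initHom Δs k).ker → Gamma0 (N * Sy.ℓ ir) := fun δ => lift (rep δ)
  have hrep' : ∀ δ : (initHom Δs k).ker,
      chi (thQ (Theta Δs ψ (k + 1)) (Sy.ℓ ir)) (rep' δ) = (δ : ∀ i : Fin (k + 1), Δs i) :=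
    fun δ => (hlift' (rep δ)).trans (hrep δ)
  let d0' : Gamma0 (N * Sy.ℓ ir) := lift (dd k)
  have hd : chi (thQ (Theta Δs ψ (k + 1)) (Sy.ℓ ir)) d0' = chi (Theta Δs ψ (k + 1)) (dd k) :=
    hlift' (dd k)
  have hd0' : chi (thQ (Theta Δs ψ (k + 1)) (Sy.ℓ ir)) d0' ∈ (initHom Δs k).ker := by
    rw [hd]; exact hd0
  have hord' : orderOf (chi (thQ (Theta Δs ψ (k + 1)) (Sy.ℓ ir)) d0') = p ^ n k := by
    rw [hd]; exact hordk
  -- a Hecke system at level `N r`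
  obtain ⟨ℓ', hℓ'gt, hℓ'p⟩ := Nat.exists_infinite_primes (N * Sy.ℓ ir + 1)
  haveI : Fact ℓ'.Prime := ⟨hℓ'p⟩
  have hℓ'N : ¬ ℓ' ∣ N * Sy.ℓ ir := fun hdvd =>
    absurd (Nat.le_of_dvd (Nat.pos_of_ne_zero (NeZero.ne _)) hdvd) (by omega)
  have hm1 : ZMod.unitsMap (Nat.dvd_mul_right N (Sy.ℓ ir)) (-1) = -1 := by
    apply Units.ext
    rw [ZMod.unitsMap_def, Units.coe_map, Units.val_neg, Units.val_neg, Units.val_one]
    simp
  have hneg' : thQ (Theta Δs ψ (k + 1)) (Sy.ℓ ir) (-1) = 1 := by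
    rw [MonoidHom.comp_apply, hm1, hnegk]
  -- the weak step at level `N`
  let CS : CycStepW O (Additive (GamH.GammaH (Theta Δs ψ (k + 1))) →+ O)
      (Additive (GamH.GammaH ((initHom Δs k).comp (Theta Δs ψ (k + 1)))) →+ O) (p ^ n k) :=
    cycStepKKW embR_injective (chi (Theta Δs ψ (k + 1))) (initHom Δs k) rep hrep
      (GamH.heckeSysD (Sy.hℓN s0)) (GamH.compat_heckeSysD (Theta Δs ψ (k + 1)) (Sy.hℓN s0)) O
      (p ^ n k) (dd k) hd0 hordk hcardk hq'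
  -- the full step at level `N r`
  let CS' : CycStep O (Additive (GamH.GammaH (thQ (Theta Δs ψ (k + 1)) (Sy.ℓ ir))) →+ O)
      (Additive (GamH.GammaH ((initHom Δs k).comp
        (thQ (Theta Δs ψ (k + 1)) (Sy.ℓ ir)))) →+ O) (p ^ n k) :=
    Fermat.Agent.GE8.CaseB3.CycPlug3.cycStepKKSL3 embR_injective
      (chi (thQ (Theta Δs ψ (k + 1)) (Sy.ℓ ir))) (initHom Δs k) rep' hrep'
      (GamH.heckeSysD hℓ'N) (GamH.compat_heckeSysD (thQ (Theta Δs ψ (k + 1)) (Sy.ℓ ir)) hℓ'N) O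
      (p ^ n k) d0' hd0' hord' hcardk hq'
      (neg_one_mem_GammaH (thQ (Theta Δs ψ (k + 1)) (Sy.ℓ ir)) hneg') h2
      (Or.inr (Fermat.Agent.GE8.CaseB3.UFree.no_conj_U_mem hrp (Dvd.intro_left N rfl) hr3 le_rfl))
  have hDeq : CS.D = diaLin O (Theta Δs ψ (k + 1)) (dd k) := rfl
  -- the transport
  obtain ⟨a, b, a0, b0, hba, hba0, hca, hcb, hDb⟩ :=
    hDeg O (Theta Δs ψ (k + 1)) (initHom Δs k) rep hrep rep' hrep' (dd k) d0' hd
  let T : Transport CS CS' (actH Sy O (Theta Δs ψ (k + 1)) (MvPolynomial.X (Sum.inl ir)))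
      (actH Sy O ((initHom Δs k).comp (Theta Δs ψ (k + 1))) (MvPolynomial.X (Sum.inl ir))) :=
    { a := a, b := b, a0 := a0, b0 := b0
      ba := fun x => by rw [actH_X_inl]; exact hba x
      ba0 := fun y => by rw [actH_X_inl]; exact hba0 y
      cores_a := fun x => hca x
      cores_b := fun x' => hcb x'
      D_b := fun x' => hDb x' }
  exact exists_coinvEquiv_abs_aux 𝔪 F' (actH Sy O (Theta Δs ψ (k + 1)))
    (actH Sy O ((initHom Δs k).comp (Theta Δs ψ (k + 1)))) _ R' (p ^ n k) hq CS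
    (fun a x => diaH_act Sy O (Theta Δs ψ (k + 1)) (dd k) a x)
    (fun a x => coresHH_act Sy O (Theta Δs ψ (k + 1)) (initHom Δs k) rep hrep a x)
    CS' (MvPolynomial.X (Sum.inl ir)) hXr T
    0 (by
      show diaLin O (Theta Δs ψ (k + 1)) (dfun dd (k + 1) 0) = CS.D
      rw [hDeq, dfun_succ, Fin.cons_zero])

/-- the same at a stage `j = k + 1` given propositionally (for `j = 1 + k`), the newest diamond at
an index `i0` with value `0`, the projection `dropHom Δs j k` -/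
theorem exists_coinvEquiv_aux
    (p : ℕ) (hp : p.Prime) (hp0 : (p : O) ≠ 0)
    (hp2 : p ≠ 2)
    (ir : Sy.ι₁) (hr3 : Sy.ℓ ir % 3 = 2)
    (hXr : (MvPolynomial.X (Sum.inl ir) : Sy.𝕋 O) ∉ 𝔪)
    (hDeg : haveI := Sy.factℓ ir; DegRStmt N (Sy.ℓ ir) (Sy.hℓN ir))
    (n : ℕ → ℕ) (dd : ℕ → Gamma0 N)
    (hcard : ∀ i, Fintype.card (Δs i) = p ^ n i)
    (hord : ∀ i, orderOf (ψ i (dUnits N (dd i))) = p ^ n i)
    (hoff : ∀ i j, i ≠ j → ψ i (dUnits N (dd j)) = 1)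
    (hneg : ∀ i, ψ i (-1) = 1)
    (s0 : Sy.ι₁) (hτ : tauOf Sy O s0 ∉ 𝔪) (k j : ℕ) (hj : j = k + 1) (hkj : k ≤ j)
    (i0 : Fin j) (hi0 : (i0 : ℕ) = 0)
    (F' : FreeLevel O (Sy.𝕋 O) M0 act0 j (Nfun p n j))
    (R' : Realizes F' (actH Sy O (Theta Δs ψ j)) 𝔪
      (fun i => diaLin O (Theta Δs ψ j) (dfun dd j i)))
    [inst : Fintype (dropHom Δs j k hkj).ker]
    (rep : (dropHom Δs j k hkj).ker → Gamma0 N)
    (hrep : ∀ δ : (dropHom Δs j k hkj).ker,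
      chi (Theta Δs ψ j) (rep δ) = (δ : ∀ i : Fin j, Δs i)) :
    ∃ e : (F'.M ⧸ chiRange (F'.D i0) (1 : O)) ≃ₗ[O]
        Base.locSub (actH Sy O (Theta Δs ψ k)) 𝔪,
      ∀ x : F'.M,
        ((e (Submodule.Quotient.mk x) : Base.locSub (actH Sy O (Theta Δs ψ k)) 𝔪) :
            Additive (GamH.GammaH (Theta Δs ψ k)) →+ O)
          = GamH.coresHH (Theta Δs ψ j) (dropHom Δs j k hkj) rep hrep O (R'.ι x) := by
  subst hj
  obtain rfl : i0 = 0 := Fin.ext hi0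
  exact @exists_coinvEquiv_succ_aux N _ Sy O _ _ _ _ _ _ 𝔪 _ M0 _ _ act0 Δs _ _ ψ p hp hp0 hp2
    ir hr3 hXr hDeg n dd hcard hord hoff hneg s0 hτ k F' R' inst rep hrep

/-- **the disjunctive form**: `hp3 : p ≠ 3` relaxed to
`p ≠ 3 ∨ ∃ i : Sy.ι₁, Sy.ℓ i % 3 = 2 ∧ X (inl i) ∉ 𝔪` (the body of `AuxOk3 p Sy O 𝔪`); no other
binder changes w.r.t. `L1Iso.exists_coinvEquiv_succ`. -/
theorem exists_coinvEquiv_succ_ok
    (p : ℕ) (hp : p.Prime) (hp0 : (p : O) ≠ 0)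
    (hp2 : p ≠ 2)
    (hp3 : p ≠ 3 ∨ ∃ i : Sy.ι₁, Sy.ℓ i % 3 = 2 ∧
      (MvPolynomial.X (Sum.inl i) : Sy.𝕋 O) ∉ 𝔪)
    (n : ℕ → ℕ) (dd : ℕ → Gamma0 N)
    (hcard : ∀ i, Fintype.card (Δs i) = p ^ n i)
    (hord : ∀ i, orderOf (ψ i (dUnits N (dd i))) = p ^ n i)
    (hoff : ∀ i j, i ≠ j → ψ i (dUnits N (dd j)) = 1)
    (hneg : ∀ i, ψ i (-1) = 1)
    (s0 : Sy.ι₁) (hτ : tauOf Sy O s0 ∉ 𝔪) (k : ℕ)
    (F' : FreeLevel O (Sy.𝕋 O) M0 act0 (k + 1) (Nfun p n (k + 1)))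
    (R' : Realizes F' (actH Sy O (Theta Δs ψ (k + 1))) 𝔪
      (fun i => diaLin O (Theta Δs ψ (k + 1)) (dfun dd (k + 1) i)))
    [Fintype (initHom Δs k).ker]
    (rep : (initHom Δs k).ker → Gamma0 N)
    (hrep : ∀ δ : (initHom Δs k).ker, chi (Theta Δs ψ (k + 1)) (rep δ) = (δ : ∀ i : Fin (k + 1), Δs i)) :
    ∃ e : (F'.M ⧸ chiRange (F'.D 0) (1 : O)) ≃ₗ[O]
        Base.locSub (actH Sy O (Theta Δs ψ k)) 𝔪,
      ∀ x : F'.M,
        ((e (Submodule.Quotient.mk x) : Base.locSub (actH Sy O (Theta Δs ψ k)) 𝔪) :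
            Additive (GamH.GammaH (Theta Δs ψ k)) →+ O)
          = GamH.coresHH (Theta Δs ψ (k + 1)) (initHom Δs k) rep hrep O (R'.ι x) := by
  rcases hp3 with hp3 | ⟨ir, hr3, hXr⟩
  · exact exists_coinvEquiv_succ Sy 𝔪 Δs ψ p hp hp0 hp2 hp3 n dd hcard hord hoff hneg s0 hτ k F' R'
      rep hrep
  · haveI := Sy.factℓ ir
    exact exists_coinvEquiv_succ_aux Sy 𝔪 Δs ψ p hp hp0 hp2 ir hr3 hXr
      (Fermat.Agent.GE8.P3B.DegRClose.degR (Sy.hℓN ir)) n dd hcard hord hoff hneg s0 hτ k F' R'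
      rep hrep

/-- the disjunctive form of `L1Iso.exists_coinvEquiv`. -/
theorem exists_coinvEquiv_ok
    (p : ℕ) (hp : p.Prime) (hp0 : (p : O) ≠ 0)
    (hp2 : p ≠ 2)
    (hp3 : p ≠ 3 ∨ ∃ i : Sy.ι₁, Sy.ℓ i % 3 = 2 ∧
      (MvPolynomial.X (Sum.inl i) : Sy.𝕋 O) ∉ 𝔪)
    (n : ℕ → ℕ) (dd : ℕ → Gamma0 N)
    (hcard : ∀ i, Fintype.card (Δs i) = p ^ n i)
    (hord : ∀ i, orderOf (ψ i (dUnits N (dd i))) = p ^ n i)
    (hoff : ∀ i j, i ≠ j → ψ i (dUnits N (dd j)) = 1)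
    (hneg : ∀ i, ψ i (-1) = 1)
    (s0 : Sy.ι₁) (hτ : tauOf Sy O s0 ∉ 𝔪) (k j : ℕ) (hj : j = k + 1) (hkj : k ≤ j)
    (i0 : Fin j) (hi0 : (i0 : ℕ) = 0)
    (F' : FreeLevel O (Sy.𝕋 O) M0 act0 j (Nfun p n j))
    (R' : Realizes F' (actH Sy O (Theta Δs ψ j)) 𝔪
      (fun i => diaLin O (Theta Δs ψ j) (dfun dd j i)))
    [inst : Fintype (dropHom Δs j k hkj).ker]
    (rep : (dropHom Δs j k hkj).ker → Gamma0 N)
    (hrep : ∀ δ : (dropHom Δs j k hkj).ker,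
      chi (Theta Δs ψ j) (rep δ) = (δ : ∀ i : Fin j, Δs i)) :
    ∃ e : (F'.M ⧸ chiRange (F'.D i0) (1 : O)) ≃ₗ[O]
        Base.locSub (actH Sy O (Theta Δs ψ k)) 𝔪,
      ∀ x : F'.M,
        ((e (Submodule.Quotient.mk x) : Base.locSub (actH Sy O (Theta Δs ψ k)) 𝔪) :
            Additive (GamH.GammaH (Theta Δs ψ k)) →+ O)
          = GamH.coresHH (Theta Δs ψ j) (dropHom Δs j k hkj) rep hrep O (R'.ι x) := by
  subst hj
  obtain rfl : i0 = 0 := Fin.ext hi0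
  exact @exists_coinvEquiv_succ_ok N _ Sy O _ _ _ _ _ _ 𝔪 _ M0 _ _ act0 Δs _ _ ψ p hp hp0 hp2
    hp3 n dd hcard hord hoff hneg s0 hτ k F' R' inst rep hrep

end Step

end Fermat.Agent.GE8.P3B.L1IsoInstAux
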