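/-
GATE-E / RISK-5 (OK3-FREENESS), fix (B) (helper44): **the concrete PINNED tower step under
`AuxOk3`** — twin of helper15's `GE8/RaiseP/P2/TowerPin.exists_step_inst_pinned` (PNEW-PATCH (P2):
the Taylor–Wiles tower step with the pinned projection carried along) with the binder
`(h3 : ¬ 3 ∣ p ^ n)` replaced by

* (`…_aux`) an auxiliary good prime `r = Sy.ℓ ir ≡ 2 (mod 3)` with `T_r ∉ 𝔪` (+ `DegRStmt` at `r`);
* (`…_ok`)  `(hp3 : AuxOk3 Sy 𝔪 p)` (helper86's `GE8/P3B/AuxOk3`).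

Conclusion VERBATIM (`∃ F' R', Pinned R' ι0 (T0 ∘ₗ coresLin θ π O rep hrep)`).  Construction: weak step
`StepInstAux.cycStepKKW` at level `N`, full step + transport `TransportInst.exists_transport_inst`
at level `N r`, consumer `StepPinAux.exists_step_pinned_aux`.
-/
import Mathlib
import Fermat.Agent.GE8.RaiseP.P2.TowerPin
import Fermat.Agent.GE8.P3B.AuxOk3
import Fermat.Agent.GE8.P3B.StepPinAux

set_option autoImplicit false
set_option linter.unusedSectionVars false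
set_option linter.unusedVariables false
set_option linter.style.haveILetI false

open scoped MatrixGroups
open CongruenceSubgroup

namespace Fermat.Agent.GE8.P3B.TowerPinOk

open Fermat.Agent.GM.B Fermat.Agent.GB.B3 Fermat.Agent.GB.B3.EisGamma0
  Fermat.Agent.GB.B3.CycInst Fermat.Agent.GB.B3.CycPlug Fermat.Agent.GB.B3.FreeCyclic
  Fermat.Agent.GB.B3.TWLevel Fermat.Agent.GB.B3.RealLevel Fermat.Agent.GB.B3.HeckeActH
  Fermat.Agent.GB.B3.HeckeAct Fermat.Agent.GB.B3.StepInst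
  Fermat.Agent.GE8.RaiseP.P2.StepPin Fermat.Agent.GE8.RaiseP.P2.TowerPin
  Fermat.Agent.GE8.P3B.StepAbsAux Fermat.Agent.GE8.P3B.StepInstAux
  Fermat.Agent.GE8.P3B.TransportInst Fermat.Agent.GE8.P3B.StepPinAux Fermat.Agent.GE8.P3B.Seam

section Step

variable {N : ℕ} [NeZero N] (Sy : Symbols N)
variable {O : Type} [CommRing O] [IsDomain O] [IsPrincipalIdealRing O] [IsLocalRing O]
  [IsAdicComplete (IsLocalRing.maximalIdeal O) O] [Module.IsTorsionFree ℤ O]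
variable (𝔪 : Ideal (Sy.𝕋 O)) [𝔪.IsMaximal]
variable {M0 : Type} [AddCommGroup M0] [Module O M0] {act0 : Sy.𝕋 O →ₐ[O] Module.End O M0}
variable {k : ℕ} {Nk : Fin k → ℕ} (F : FreeLevel O (Sy.𝕋 O) M0 act0 k Nk)
variable {Δ Δ'' : Type} [CommGroup Δ] [CommGroup Δ''] (θ : (ZMod N)ˣ →* Δ) (π : Δ →* Δ'')
  [Fintype π.ker]

/-- **the concrete step of the tower, pinned, `3 ∣ p ^ n` allowed**: the binder `h3` of
`TowerPin.exists_step_inst_pinned` replaced by an auxiliary good prime `r = Sy.ℓ ir ≡ 2 (mod 3)`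
whose Hecke symbol is a unit at `𝔪`. -/
theorem exists_step_inst_pinned_aux
    (rep : π.ker → Gamma0 N) (hrep : ∀ δ : π.ker, chi θ (rep δ) = (δ : Δ))
    (d0 : Gamma0 N) (hd0 : chi θ d0 ∈ π.ker)
    (ϖ : O) (hϖ0 : ϖ ≠ 0) (hmax : IsLocalRing.maximalIdeal O = Ideal.span {ϖ})
    (p n : ℕ) (hp : p.Prime) (hpϖ : (p : O) ∈ Ideal.span {ϖ}) (hq : ((p ^ n : ℕ) : O) ≠ 0)
    (hord : orderOf (chi θ d0) = p ^ n) (hcard : Fintype.card π.ker = p ^ n)
    (hneg : θ (-1) = 1) (h2 : ¬ 2 ∣ p ^ n)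
    (ir : Sy.ι₁) (hr3 : Sy.ℓ ir % 3 = 2)
    (hXr : (MvPolynomial.X (Sum.inl ir) : Sy.𝕋 O) ∉ 𝔪)
    (hDeg : haveI := Sy.factℓ ir; DegRStmt N (Sy.ℓ ir) (Sy.hℓN ir))
    (s0 : Sy.ι₁) (hτ : tauOf Sy O s0 ∉ 𝔪)
    (d : Fin k → Gamma0 N) (hdpow : ∀ i, chi θ (d i ^ Nk i) = 1)
    (R : Realizes F (actH Sy O (π.comp θ)) 𝔪 (fun i => diaLin O (π.comp θ) (d i)))
    {Lb : Type} [AddCommGroup Lb] [Module O Lb] (ι0 : M0 →ₗ[O] Lb)
    (T0 : (Additive (GamH.GammaH (π.comp θ)) →+ O) →ₗ[O] Lb) (hpin : Pinned R ι0 T0) :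
    ∃ (F' : FreeLevel O (Sy.𝕋 O) M0 act0 (k + 1) (Fin.cons (p ^ n) Nk : Fin (k + 1) → ℕ))
      (R' : Realizes F' (actH Sy O θ) 𝔪
        (fun i => diaLin O θ ((Fin.cons d0 d : Fin (k + 1) → Gamma0 N) i))),
      Pinned R' ι0 (T0 ∘ₗ coresLin θ π O rep hrep) := by
  classical
  haveI := Sy.factℓ s0
  haveI := Sy.factℓ ir
  haveI hfi : (GamH.GammaH θ).FiniteIndex := finiteIndex_GammaH θ
  haveI hfi' : (GamH.GammaH (π.comp θ)).FiniteIndex := finiteIndex_GammaH (π.comp θ)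
  haveI : Fintype (SL(2, ℤ) ⧸ kerSub (chi θ)) :=
    (GamH.GammaH θ).fintypeQuotientOfFiniteIndex
  haveI : Fintype (SL(2, ℤ) ⧸ kerSub (π.comp (chi θ))) :=
    (GamH.GammaH (π.comp θ)).fintypeQuotientOfFiniteIndex
  haveI : Module.Finite O (Additive (GamH.GammaH θ) →+ O) :=
    HomFree.homFinite_SL2Z (GamH.GammaH θ) O
  haveI : Module.Free O (Additive (GamH.GammaH θ) →+ O) :=
    HomFree.homFree_SL2Z (GamH.GammaH θ) O
  haveI : Module.Finite O (Additive (GamH.GammaH (π.comp θ)) →+ O) :=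
    HomFree.homFinite_SL2Z (GamH.GammaH (π.comp θ)) O
  haveI : Module.Free O (Additive (GamH.GammaH (π.comp θ)) →+ O) :=
    HomFree.homFree_SL2Z (GamH.GammaH (π.comp θ)) O
  have hq' : ∀ a : O, ((p ^ n : ℕ) : O) * a = 0 → a = 0 := fun a ha =>
    (mul_eq_zero.1 ha).resolve_left hq
  -- the weak step at level `N`
  let CS : CycStepW O (Additive (GamH.GammaH θ) →+ O) (Additive (GamH.GammaH (π.comp θ)) →+ O)
      (p ^ n) :=
    cycStepKKW embR_injective (chi θ) π rep hrep (GamH.heckeSysD (Sy.hℓN s0))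
      (GamH.compat_heckeSysD θ (Sy.hℓN s0)) O (p ^ n) d0 hd0 hord hcard hq'
  -- the full step at level `N r` and the transport
  obtain ⟨CS', ⟨T⟩⟩ := exists_transport_inst Sy O θ π rep hrep d0 hd0 (p ^ n) hq' hord hcard hneg h2
    ir hr3 hDeg s0
  have hDeq : CS.D = diaLin O θ d0 := rfl
  have hCeq : CS.cores = coresLin θ π O rep hrep := rfl
  obtain ⟨F', R', hpin'⟩ := exists_step_pinned_aux 𝔪 F (actH Sy O θ) (actH Sy O (π.comp θ))
    (fun i => diaLin O θ (d i)) (fun i => diaLin O (π.comp θ) (d i)) R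
    ϖ hϖ0 hmax p n hp hpϖ hq CS
    (fun a x => diaH_act Sy O θ d0 a x)
    (fun a x => coresHH_act Sy O θ π rep hrep a x)
    (fun a y => resHH_act Sy O θ π a y)
    (tauOf Sy O s0) hτ
    (fun x => by
      have h1 : CS.t x = GamH.TH θ O (Sy.hℓN s0) x
          - Fintype.card (GamH.heckeSysD (N := N) (Sy.hℓN s0)).ι • x := rfl
      rw [h1, tauOf, map_sub, LinearMap.sub_apply, actH_X_inl, actH_C, GamH.heckeSysD_card,
        Nat.cast_smul_eq_nsmul])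
    (fun y => by
      have h1 : CS.t0 y = GamH.TH (π.comp θ) O (Sy.hℓN s0) y
          - Fintype.card (GamH.heckeSysD (N := N) (Sy.hℓN s0)).ι • y := rfl
      rw [h1, tauOf, map_sub, LinearMap.sub_apply, actH_X_inl, actH_C, GamH.heckeSysD_card,
        Nat.cast_smul_eq_nsmul])
    (fun i => diaLin_pow O θ (d i) (Nk i) (hdpow i))
    (fun i j => diaLin_comm O θ (d i) (d j))
    (fun i => by rw [hDeq]; exact diaLin_comm O θ d0 (d i))
    (fun a i => by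
      refine LinearMap.ext fun x => ?_
      exact (diaH_act Sy O θ (d i) a x).symm)
    (fun i x => GamH.coresHH_diaH θ π rep hrep (d i) x) ι0 T0 hpin
    CS' (MvPolynomial.X (Sum.inl ir)) hXr T
  have hE : (Fin.cons CS.D (fun i => diaLin O θ (d i)) :
        Fin (k + 1) → Module.End O (Additive (GamH.GammaH θ) →+ O))
      = fun i => diaLin O θ ((Fin.cons d0 d : Fin (k + 1) → Gamma0 N) i) := by
    funext i
    refine Fin.cases ?_ (fun j => ?_) i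
    · rw [Fin.cons_zero, Fin.cons_zero, hDeq]
    · rw [Fin.cons_succ, Fin.cons_succ]
  rw [hCeq] at hpin'
  rw [← hE]
  exact ⟨F', R', hpin'⟩

/-- `p ≠ 3` prime: `3 ∤ p ^ n`. -/
theorem not_three_dvd_pow {p : ℕ} (hp : p.Prime) (hp3 : p ≠ 3) (n : ℕ) : ¬ 3 ∣ p ^ n := fun h3 =>
  hp3 ((Nat.prime_dvd_prime_iff_eq Nat.prime_three hp).1 (Nat.prime_three.dvd_of_dvd_pow h3)).symm

/-- **the concrete step of the tower, pinned, under `AuxOk3`**: `TowerPin.exists_step_inst_pinned`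
with `(h3 : ¬ 3 ∣ p ^ n)` ↦ `(hp3 : AuxOk3 Sy 𝔪 p)`. -/
theorem exists_step_inst_pinned_ok
    (rep : π.ker → Gamma0 N) (hrep : ∀ δ : π.ker, chi θ (rep δ) = (δ : Δ))
    (d0 : Gamma0 N) (hd0 : chi θ d0 ∈ π.ker)
    (ϖ : O) (hϖ0 : ϖ ≠ 0) (hmax : IsLocalRing.maximalIdeal O = Ideal.span {ϖ})
    (p n : ℕ) (hp : p.Prime) (hpϖ : (p : O) ∈ Ideal.span {ϖ}) (hq : ((p ^ n : ℕ) : O) ≠ 0)
    (hord : orderOf (chi θ d0) = p ^ n) (hcard : Fintype.card π.ker = p ^ n)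
    (hneg : θ (-1) = 1) (h2 : ¬ 2 ∣ p ^ n) (hp3 : AuxOk3 Sy 𝔪 p)
    (s0 : Sy.ι₁) (hτ : tauOf Sy O s0 ∉ 𝔪)
    (d : Fin k → Gamma0 N) (hdpow : ∀ i, chi θ (d i ^ Nk i) = 1)
    (R : Realizes F (actH Sy O (π.comp θ)) 𝔪 (fun i => diaLin O (π.comp θ) (d i)))
    {Lb : Type} [AddCommGroup Lb] [Module O Lb] (ι0 : M0 →ₗ[O] Lb)
    (T0 : (Additive (GamH.GammaH (π.comp θ)) →+ O) →ₗ[O] Lb) (hpin : Pinned R ι0 T0) :
    ∃ (F' : FreeLevel O (Sy.𝕋 O) M0 act0 (k + 1) (Fin.cons (p ^ n) Nk : Fin (k + 1) → ℕ))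
      (R' : Realizes F' (actH Sy O θ) 𝔪
        (fun i => diaLin O θ ((Fin.cons d0 d : Fin (k + 1) → Gamma0 N) i))),
      Pinned R' ι0 (T0 ∘ₗ coresLin θ π O rep hrep) := by
  rcases hp3 with hp3 | ⟨ir, hr3, hXr⟩
  · exact exists_step_inst_pinned Sy 𝔪 F θ π rep hrep d0 hd0 ϖ hϖ0 hmax p n hp hpϖ hq hord hcard
      hneg h2 (not_three_dvd_pow hp hp3 n) s0 hτ d hdpow R ι0 T0 hpin
  · haveI := Sy.factℓ ir
    exact exists_step_inst_pinned_aux Sy 𝔪 F θ π rep hrep d0 hd0 ϖ hϖ0 hmax p n hp hpϖ hq hord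
      hcard hneg h2 ir hr3 hXr (Fermat.Agent.GE8.P3B.DegRClose.degR (Sy.hℓN ir)) s0 hτ d hdpow R
      ι0 T0 hpin

end Step

end Fermat.Agent.GE8.P3B.TowerPinOk
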